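/-
S19 / ORD-A utilities: **polynomial calculus over `R^nr = A ∩ ℚ̄^{I_A}`** in the language of the
contract `S19/Coord/Defs.lean` (`IsUnr`, `UnrCoeffs`, `lpow`).

* `unrSubring A`           : `R^nr` as a `Subring ℚ̄`;
* `unrCoeffs_iff_mem_range`: `UnrCoeffs A P ↔ P` lifts to `R^nr[T]`;
* closure of `UnrCoeffs` under `0, 1, C, X, +, -, *, ^, ∑, ∏, bind₁, rename`;
* `UnrCoeffs.map_of_mem_decomposition` : `P ↦ P^σ` preserves `UnrCoeffs` for `σ ∈ D_A`
  (the inertia group is normal in the decomposition group);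
* `apply_aeval` : `σ (P(a)) = P^σ (σ a)`;
* `lpow` as the ideal `ℓⁿA` (`mem_lpow_iff`, `lpow_add`, `lpow_mul`, ...);
* `aeval_mem`, `aeval_sub_aeval_mem_lpow` : integrality and congruence-stability of `P(a)`
  for `P` with coefficients in `A`;
* `exists_split` : `P(T, T') = ∑_j p_j(T) q_j(T')` with `p_j, q_j` over `R^nr` (used for `comul`).
-/
import Mathlib
import Fermat.Agent.S19.Coord.Defs

set_option autoImplicit false

namespace Fermat.Agent.S19.Order.UnrPoly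

open Fermat.Agent.S19.Abs Fermat.Agent.S19.Coord MvPolynomial
open scoped Pointwise

variable (A : ValuationSubring Qb)

/-! ### `R^nr` as a subring -/

/-- `R^nr = A ∩ ℚ̄^{I_A}` as a subring of `ℚ̄`. -/
def unrSubring : Subring Qb where
  carrier := {x | IsUnr A x}
  mul_mem' := by
    rintro x y ⟨hx, hx'⟩ ⟨hy, hy'⟩
    exact ⟨A.mul_mem _ _ hx hy, fun σ hσ => by rw [map_mul, hx' σ hσ, hy' σ hσ]⟩
  one_mem' := ⟨A.one_mem, fun σ _ => map_one σ⟩
  add_mem' := by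
    rintro x y ⟨hx, hx'⟩ ⟨hy, hy'⟩
    exact ⟨A.add_mem _ _ hx hy, fun σ hσ => by rw [map_add, hx' σ hσ, hy' σ hσ]⟩
  zero_mem' := ⟨A.zero_mem, fun σ _ => map_zero σ⟩
  neg_mem' := by
    rintro x ⟨hx, hx'⟩
    exact ⟨A.neg_mem _ hx, fun σ hσ => by rw [map_neg, hx' σ hσ]⟩

variable {A}

@[simp] theorem mem_unrSubring {x : Qb} : x ∈ unrSubring A ↔ IsUnr A x := Iff.rfl

theorem isUnr_algebraMap_int (k : ℤ) : IsUnr A (k : Qb) := by
  rw [← mem_unrSubring]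
  exact intCast_mem _ k

theorem isUnr_natCast (k : ℕ) : IsUnr A (k : Qb) := by
  rw [← mem_unrSubring]
  exact natCast_mem _ k

/-! ### `UnrCoeffs` as "lifts to `R^nr[T]`" -/

variable {ι : Type*}

theorem unrCoeffs_iff_mem_range {P : MvPolynomial ι Qb} :
    UnrCoeffs A P ↔ P ∈ (MvPolynomial.map (σ := ι) (unrSubring A).subtype).range := by
  rw [RingHom.mem_range, ← Set.mem_range, mem_range_map_iff_coeffs_subset]
  constructor
  · intro h c hc
    obtain ⟨m, -, rfl⟩ := mem_coeffs_iff.1 hc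
    exact ⟨⟨P.coeff m, h m⟩, rfl⟩
  · intro h m
    by_cases hm : P.coeff m = 0
    · rw [hm]; exact (unrSubring A).zero_mem
    · have : P.coeff m ∈ (P.coeffs : Set Qb) := by
        rw [Finset.mem_coe, mem_coeffs_iff]
        exact ⟨m, by rwa [mem_support_iff], rfl⟩
      obtain ⟨⟨c, hc⟩, hc'⟩ := h this
      rw [← hc']
      exact hc

theorem UnrCoeffs.exists_lift {P : MvPolynomial ι Qb} (h : UnrCoeffs A P) :
    ∃ P₀ : MvPolynomial ι (unrSubring A), MvPolynomial.map (unrSubring A).subtype P₀ = P :=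
  unrCoeffs_iff_mem_range.1 h

theorem unrCoeffs_map_subtype (P₀ : MvPolynomial ι (unrSubring A)) :
    UnrCoeffs A (MvPolynomial.map (unrSubring A).subtype P₀) :=
  unrCoeffs_iff_mem_range.2 ⟨P₀, rfl⟩

theorem unrCoeffs_zero : UnrCoeffs A (0 : MvPolynomial ι Qb) :=
  unrCoeffs_iff_mem_range.2 (Subring.zero_mem _)

theorem unrCoeffs_one : UnrCoeffs A (1 : MvPolynomial ι Qb) :=
  unrCoeffs_iff_mem_range.2 (Subring.one_mem _)

theorem unrCoeffs_X (i : ι) : UnrCoeffs A (X i : MvPolynomial ι Qb) :=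
  unrCoeffs_iff_mem_range.2 ⟨X i, by simp⟩

theorem unrCoeffs_C {c : Qb} (hc : IsUnr A c) : UnrCoeffs A (C c : MvPolynomial ι Qb) :=
  unrCoeffs_iff_mem_range.2 ⟨C ⟨c, hc⟩, by simp⟩

theorem UnrCoeffs.add {P Q : MvPolynomial ι Qb} (hP : UnrCoeffs A P) (hQ : UnrCoeffs A Q) :
    UnrCoeffs A (P + Q) :=
  unrCoeffs_iff_mem_range.2 (Subring.add_mem _ (unrCoeffs_iff_mem_range.1 hP)
    (unrCoeffs_iff_mem_range.1 hQ))

theorem UnrCoeffs.neg {P : MvPolynomial ι Qb} (hP : UnrCoeffs A P) : UnrCoeffs A (-P) :=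
  unrCoeffs_iff_mem_range.2 (Subring.neg_mem _ (unrCoeffs_iff_mem_range.1 hP))

theorem UnrCoeffs.sub {P Q : MvPolynomial ι Qb} (hP : UnrCoeffs A P) (hQ : UnrCoeffs A Q) :
    UnrCoeffs A (P - Q) :=
  unrCoeffs_iff_mem_range.2 (Subring.sub_mem _ (unrCoeffs_iff_mem_range.1 hP)
    (unrCoeffs_iff_mem_range.1 hQ))

theorem UnrCoeffs.mul {P Q : MvPolynomial ι Qb} (hP : UnrCoeffs A P) (hQ : UnrCoeffs A Q) :
    UnrCoeffs A (P * Q) :=
  unrCoeffs_iff_mem_range.2 (Subring.mul_mem _ (unrCoeffs_iff_mem_range.1 hP)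
    (unrCoeffs_iff_mem_range.1 hQ))

theorem UnrCoeffs.pow {P : MvPolynomial ι Qb} (hP : UnrCoeffs A P) (k : ℕ) :
    UnrCoeffs A (P ^ k) :=
  unrCoeffs_iff_mem_range.2 (Subring.pow_mem _ (unrCoeffs_iff_mem_range.1 hP) k)

theorem unrCoeffs_sum {κ : Type*} (s : Finset κ) (f : κ → MvPolynomial ι Qb)
    (h : ∀ k ∈ s, UnrCoeffs A (f k)) : UnrCoeffs A (∑ k ∈ s, f k) :=
  unrCoeffs_iff_mem_range.2 (Subring.sum_mem _ fun k hk => unrCoeffs_iff_mem_range.1 (h k hk))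

theorem unrCoeffs_prod {κ : Type*} (s : Finset κ) (f : κ → MvPolynomial ι Qb)
    (h : ∀ k ∈ s, UnrCoeffs A (f k)) : UnrCoeffs A (∏ k ∈ s, f k) :=
  unrCoeffs_iff_mem_range.2 (Subring.prod_mem _ fun k hk => unrCoeffs_iff_mem_range.1 (h k hk))

theorem unrCoeffs_monomial (m : ι →₀ ℕ) {c : Qb} (hc : IsUnr A c) :
    UnrCoeffs A (monomial m c : MvPolynomial ι Qb) :=
  unrCoeffs_iff_mem_range.2 ⟨monomial m ⟨c, hc⟩, by simp⟩

/-- Composition of polynomial maps over `R^nr`. -/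
theorem UnrCoeffs.bind₁ {κ : Type*} {P : MvPolynomial ι Qb} (hP : UnrCoeffs A P)
    {f : ι → MvPolynomial κ Qb} (hf : ∀ i, UnrCoeffs A (f i)) :
    UnrCoeffs A (MvPolynomial.bind₁ f P) := by
  obtain ⟨P₀, rfl⟩ := UnrCoeffs.exists_lift hP
  choose f₀ hf₀ using fun i => UnrCoeffs.exists_lift (hf i)
  have : f = fun i => MvPolynomial.map (unrSubring A).subtype (f₀ i) := funext fun i => (hf₀ i).symm
  rw [this, ← map_bind₁]
  exact unrCoeffs_map_subtype _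

theorem UnrCoeffs.rename {κ : Type*} {P : MvPolynomial ι Qb} (hP : UnrCoeffs A P) (f : ι → κ) :
    UnrCoeffs A (MvPolynomial.rename f P) := by
  obtain ⟨P₀, rfl⟩ := UnrCoeffs.exists_lift hP
  rw [← map_rename]
  exact unrCoeffs_map_subtype _

/-! ### The Galois twist -/

/-- The inertia group is normalised by the decomposition group. -/
theorem conj_mem_inertia {σ τ : GQ} (hσ : σ ∈ A.decompositionSubgroup ℚ)
    (hτ : τ ∈ A.inertiaSubgroupIn ℚ) : σ⁻¹ * τ * σ ∈ A.inertiaSubgroupIn ℚ := by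
  unfold ValuationSubring.inertiaSubgroupIn at hτ ⊢
  obtain ⟨τ', hτ', rfl⟩ := hτ
  have hn : (A.inertiaSubgroup ℚ).Normal := by
    unfold ValuationSubring.inertiaSubgroup
    exact MonoidHom.normal_ker _
  refine ⟨(⟨σ, hσ⟩ : A.decompositionSubgroup ℚ)⁻¹ * τ' * ⟨σ, hσ⟩, ?_, rfl⟩
  have := hn.conj_mem τ' hτ' (⟨σ, hσ⟩ : A.decompositionSubgroup ℚ)⁻¹
  simpa using this

theorem apply_mem_of_mem_decomposition {σ : GQ} (hσ : σ ∈ A.decompositionSubgroup ℚ) {x : Qb}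
    (hx : x ∈ A) : σ x ∈ A := by
  have h1 : σ • A = A := hσ
  have h2 : σ x ∈ σ • A := ⟨x, hx, rfl⟩
  rwa [h1] at h2

/-- `R^nr` is stable under the decomposition group. -/
theorem IsUnr.apply {σ : GQ} (hσ : σ ∈ A.decompositionSubgroup ℚ) {x : Qb} (hx : IsUnr A x) :
    IsUnr A (σ x) := by
  refine ⟨apply_mem_of_mem_decomposition hσ hx.1, fun τ hτ => ?_⟩
  have h1 := hx.2 _ (conj_mem_inertia hσ hτ)
  have h2 : (σ⁻¹ * τ * σ) x = σ⁻¹ (τ (σ x)) := rfl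
  rw [h2] at h1
  have h3 := congrArg σ h1
  rw [AlgEquiv.aut_inv, AlgEquiv.apply_symm_apply] at h3
  exact h3

/-- `P ↦ P^σ` preserves `UnrCoeffs` for `σ` in the decomposition group. -/
theorem UnrCoeffs.map_of_mem_decomposition {σ : GQ} (hσ : σ ∈ A.decompositionSubgroup ℚ)
    {P : MvPolynomial ι Qb} (hP : UnrCoeffs A P) :
    UnrCoeffs A (MvPolynomial.map (σ : Qb →+* Qb) P) := by
  intro m
  rw [coeff_map]
  exact IsUnr.apply hσ (hP m)

/-- `σ (P(a)) = P^σ (σ a)`. -/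
theorem apply_aeval (σ : GQ) (P : MvPolynomial ι Qb) (a : ι → Qb) :
    σ (MvPolynomial.aeval a P)
      = MvPolynomial.aeval (fun i => σ (a i)) (MvPolynomial.map (σ : Qb →+* Qb) P) := by
  have h1 := MvPolynomial.map_aeval (R := Qb) a (σ : Qb →+* Qb) P
  have h2 : σ (MvPolynomial.aeval a P) = (σ : Qb →+* Qb) (MvPolynomial.aeval a P) := rfl
  rw [h2, h1, MvPolynomial.aeval_def, MvPolynomial.eval₂_map]
  rfl

/-! ### `lpow A ℓ n = ℓⁿ A` -/

variable {ℓ : ℕ}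

theorem natCast_mem_A (k : ℕ) : (k : Qb) ∈ A := natCast_mem A k

theorem zero_mem_lpow (n : ℕ) : (0 : Qb) ∈ lpow A ℓ n := ⟨0, A.zero_mem, by simp⟩

theorem add_mem_lpow {n : ℕ} {x y : Qb} (hx : x ∈ lpow A ℓ n) (hy : y ∈ lpow A ℓ n) :
    x + y ∈ lpow A ℓ n := by
  obtain ⟨a, ha, rfl⟩ := hx
  obtain ⟨b, hb, rfl⟩ := hy
  exact ⟨a + b, A.add_mem _ _ ha hb, by ring⟩

theorem neg_mem_lpow {n : ℕ} {x : Qb} (hx : x ∈ lpow A ℓ n) : -x ∈ lpow A ℓ n := by
  obtain ⟨a, ha, rfl⟩ := hx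
  exact ⟨-a, A.neg_mem _ ha, by ring⟩

theorem sub_mem_lpow {n : ℕ} {x y : Qb} (hx : x ∈ lpow A ℓ n) (hy : y ∈ lpow A ℓ n) :
    x - y ∈ lpow A ℓ n := by
  rw [sub_eq_add_neg]
  exact add_mem_lpow hx (neg_mem_lpow hy)

theorem mul_mem_lpow {n : ℕ} {c x : Qb} (hc : c ∈ A) (hx : x ∈ lpow A ℓ n) :
    c * x ∈ lpow A ℓ n := by
  obtain ⟨a, ha, rfl⟩ := hx
  exact ⟨c * a, A.mul_mem _ _ hc ha, by ring⟩

theorem sum_mem_lpow {κ : Type*} {n : ℕ} (s : Finset κ) (f : κ → Qb)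
    (h : ∀ k ∈ s, f k ∈ lpow A ℓ n) : ∑ k ∈ s, f k ∈ lpow A ℓ n := by
  classical
  induction s using Finset.induction_on with
  | empty => simpa using zero_mem_lpow (A := A) (ℓ := ℓ) n
  | insert k s hk ih =>
    rw [Finset.sum_insert hk]
    exact add_mem_lpow (h k (Finset.mem_insert_self k s))
      (ih fun k' hk' => h k' (Finset.mem_insert_of_mem hk'))

theorem mem_A_of_mem_lpow {n : ℕ} {x : Qb} (hx : x ∈ lpow A ℓ n) : x ∈ A := by
  obtain ⟨a, ha, rfl⟩ := hx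
  exact A.mul_mem _ _ (pow_mem (natCast_mem_A ℓ) n) ha

theorem lpow_mono {m n : ℕ} (h : m ≤ n) {x : Qb} (hx : x ∈ lpow A ℓ n) : x ∈ lpow A ℓ m := by
  obtain ⟨a, ha, rfl⟩ := hx
  refine ⟨(ℓ : Qb) ^ (n - m) * a, A.mul_mem _ _ (pow_mem (natCast_mem_A ℓ) _) ha, ?_⟩
  rw [← mul_assoc, ← pow_add, Nat.add_sub_cancel' h]

theorem mul_mem_lpow_add {m n : ℕ} {x y : Qb} (hx : x ∈ lpow A ℓ m) (hy : y ∈ lpow A ℓ n) :
    x * y ∈ lpow A ℓ (m + n) := by
  obtain ⟨a, ha, rfl⟩ := hx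
  obtain ⟨b, hb, rfl⟩ := hy
  exact ⟨a * b, A.mul_mem _ _ ha hb, by ring⟩

/-- `lpow A ℓ n` is the image of the ideal `(ℓⁿ)` of `A`. -/
theorem mem_lpow_iff_ideal {n : ℕ} {x : Qb} :
    x ∈ lpow A ℓ n ↔ ∃ y : A, y ∈ Ideal.span {((ℓ : A) ^ n : A)} ∧ (y : Qb) = x := by
  constructor
  · rintro ⟨a, ha, rfl⟩
    refine ⟨(ℓ : A) ^ n * ⟨a, ha⟩, Ideal.mem_span_singleton'.2 ⟨⟨a, ha⟩, mul_comm _ _⟩, ?_⟩
    simp
  · rintro ⟨y, hy, rfl⟩
    obtain ⟨b, rfl⟩ := Ideal.mem_span_singleton'.1 hy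
    exact ⟨b, b.2, by simp [mul_comm]⟩

/-! ### Integrality and congruence-stability of polynomial values -/

/-- A polynomial with coefficients in `A` lifts to `A[T]`. -/
theorem exists_lift_of_coeff_mem {P : MvPolynomial ι Qb} (hP : ∀ m, P.coeff m ∈ A) :
    ∃ P₀ : MvPolynomial ι A, MvPolynomial.map A.subtype P₀ = P := by
  have : P ∈ Set.range (MvPolynomial.map (σ := ι) A.subtype) := by
    rw [mem_range_map_iff_coeffs_subset]
    intro c hc
    obtain ⟨m, -, rfl⟩ := mem_coeffs_iff.1 hc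
    exact ⟨⟨P.coeff m, hP m⟩, rfl⟩
  exact this

theorem coe_aeval (P₀ : MvPolynomial ι A) (a₀ : ι → A) :
    ((MvPolynomial.aeval a₀ P₀ : A) : Qb)
      = MvPolynomial.aeval (fun i => (a₀ i : Qb)) (MvPolynomial.map A.subtype P₀) := by
  have h1 := MvPolynomial.map_aeval (R := A) a₀ A.subtype P₀
  have h2 : ((MvPolynomial.aeval a₀ P₀ : A) : Qb) = A.subtype (MvPolynomial.aeval a₀ P₀) := rfl
  rw [h2, h1, MvPolynomial.aeval_def, MvPolynomial.eval₂_map]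
  rfl

/-- Values of a polynomial with coefficients in `A` at points of `A` lie in `A`. -/
theorem aeval_mem {P : MvPolynomial ι Qb} (hP : ∀ m, P.coeff m ∈ A) {a : ι → Qb}
    (ha : ∀ i, a i ∈ A) : MvPolynomial.aeval a P ∈ A := by
  obtain ⟨P₀, rfl⟩ := exists_lift_of_coeff_mem hP
  have := coe_aeval P₀ (fun i => ⟨a i, ha i⟩)
  simp only at this
  rw [← this]
  exact Subtype.coe_prop _

/-- **Congruence-stability.** `a ≡ a' (mod ℓⁿA)` implies `P(a) ≡ P(a') (mod ℓⁿA)` for `P` with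
coefficients in `A` and points `a, a'` of `A`. -/
theorem aeval_sub_aeval_mem_lpow {P : MvPolynomial ι Qb} (hP : ∀ m, P.coeff m ∈ A) {n : ℕ}
    {a a' : ι → Qb} (ha : ∀ i, a i ∈ A) (ha' : ∀ i, a' i ∈ A)
    (h : ∀ i, a i - a' i ∈ lpow A ℓ n) :
    MvPolynomial.aeval a P - MvPolynomial.aeval a' P ∈ lpow A ℓ n := by
  obtain ⟨P₀, rfl⟩ := exists_lift_of_coeff_mem hP
  set I : Ideal A := Ideal.span {((ℓ : A) ^ n : A)} with hI
  set a₀ : ι → A := fun i => ⟨a i, ha i⟩ with ha₀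
  set a₀' : ι → A := fun i => ⟨a' i, ha' i⟩ with ha₀'
  have hmem : ∀ i, a₀ i - a₀' i ∈ I := by
    intro i
    obtain ⟨y, hy, hy'⟩ := mem_lpow_iff_ideal.1 (h i)
    have : y = a₀ i - a₀' i := Subtype.ext (by rw [hy']; rfl)
    rwa [← this]
  have key : MvPolynomial.aeval a₀ P₀ - MvPolynomial.aeval a₀' P₀ ∈ I := by
    rw [← Ideal.Quotient.eq_zero_iff_mem, map_sub, sub_eq_zero]
    have h1 : ∀ w : ι → A, Ideal.Quotient.mk I (MvPolynomial.aeval w P₀)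
        = MvPolynomial.aeval (fun s => Ideal.Quotient.mk I (w s)) P₀ := by
      intro w
      have := MvPolynomial.comp_aeval (R := A) (f := w) (Ideal.Quotient.mkₐ A I)
      exact AlgHom.congr_fun this P₀
    rw [h1, h1]
    have h2 : (fun s => Ideal.Quotient.mk I (a₀ s)) = fun s => Ideal.Quotient.mk I (a₀' s) := by
      funext s
      rw [Ideal.Quotient.eq]
      exact hmem s
    rw [h2]
  refine mem_lpow_iff_ideal.2 ⟨_, key, ?_⟩
  rw [AddSubgroupClass.coe_sub, coe_aeval, coe_aeval]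

theorem UnrCoeffs.coeff_mem {P : MvPolynomial ι Qb} (hP : UnrCoeffs A P) (m : ι →₀ ℕ) :
    P.coeff m ∈ A := (hP m).1

/-! ### Splitting a polynomial in two groups of variables -/

/-- Every polynomial in the variables `ι ⊕ ι'` is a finite sum of products `p(T) q(T')`
(over an arbitrary coefficient ring). -/
theorem exists_split_aux {R₀ : Type*} [CommRing R₀] {ι' : Type*} (P : MvPolynomial (ι ⊕ ι') R₀) :
    ∃ (κ : Type) (_ : Fintype κ) (p : κ → MvPolynomial ι R₀) (q : κ → MvPolynomial ι' R₀),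
      P = ∑ j, MvPolynomial.rename Sum.inl (p j) * MvPolynomial.rename Sum.inr (q j) := by
  induction P using MvPolynomial.induction_on with
  | C r =>
    refine ⟨Unit, inferInstance, fun _ => C r, fun _ => 1, ?_⟩
    simp
  | add P Q hP hQ =>
    obtain ⟨κ₁, _, p₁, q₁, h₁⟩ := hP
    obtain ⟨κ₂, _, p₂, q₂, h₂⟩ := hQ
    refine ⟨κ₁ ⊕ κ₂, inferInstance, Sum.elim p₁ p₂, Sum.elim q₁ q₂, ?_⟩
    rw [Fintype.sum_sum_type]
    simp only [Sum.elim_inl, Sum.elim_inr]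
    rw [← h₁, ← h₂]
  | mul_X P s hP =>
    obtain ⟨κ, _, p, q, h⟩ := hP
    rcases s with i | i'
    · refine ⟨κ, inferInstance, fun j => p j * X i, q, ?_⟩
      rw [h, Finset.sum_mul]
      refine Finset.sum_congr rfl fun j _ => ?_
      rw [map_mul, rename_X]
      ring
    · refine ⟨κ, inferInstance, p, fun j => q j * X i', ?_⟩
      rw [h, Finset.sum_mul]
      refine Finset.sum_congr rfl fun j _ => ?_
      rw [map_mul, rename_X]
      ring

/-- **Splitting lemma over `R^nr`.** A polynomial `P(T, T')` over `R^nr` is a finite sum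
`∑_j p_j(T) q_j(T')` with `p_j, q_j` over `R^nr`. -/
theorem exists_split {ι' : Type*} {P : MvPolynomial (ι ⊕ ι') Qb} (hP : UnrCoeffs A P) :
    ∃ (n : ℕ) (p : Fin n → MvPolynomial ι Qb) (q : Fin n → MvPolynomial ι' Qb),
      (∀ j, UnrCoeffs A (p j)) ∧ (∀ j, UnrCoeffs A (q j)) ∧
      ∀ (a : ι → Qb) (a' : ι' → Qb), MvPolynomial.aeval (Sum.elim a a') P
        = ∑ j, MvPolynomial.aeval a (p j) * MvPolynomial.aeval a' (q j) := by
  obtain ⟨P₀, rfl⟩ := UnrCoeffs.exists_lift hP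
  obtain ⟨κ, _, p₀, q₀, h⟩ := exists_split_aux P₀
  let e := Fintype.equivFin κ
  refine ⟨Fintype.card κ, fun j => MvPolynomial.map (unrSubring A).subtype (p₀ (e.symm j)),
    fun j => MvPolynomial.map (unrSubring A).subtype (q₀ (e.symm j)),
    fun j => unrCoeffs_map_subtype _, fun j => unrCoeffs_map_subtype _, ?_⟩
  intro a a'
  rw [h, map_sum, map_sum]
  rw [← Equiv.sum_comp e.symm]
  refine Finset.sum_congr rfl fun j _ => ?_
  rw [map_mul, map_mul, map_rename, map_rename, aeval_rename, aeval_rename]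
  rfl

end Fermat.Agent.S19.Order.UnrPoly
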