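/-
S19 / Order layer: **the interface between ORD-A and ORD-B** (helper15; DAG v1, ruling R6).

`A` a valuation subring of `ℚ̄` over `ℓ`, `D = A.decompositionSubgroup ℚ`,
`I = A.inertiaSubgroupIn ℚ`, `R^nr = A ∩ ℚ̄^I` (`Coord.IsUnr A`).  `M` is an abelian group with an
action `act` of `G_ℚ`.

An `R^nr`-order (`IsNrOrder`) is a set `H'` of functions `M → ℚ̄` which is an `R^nr`-subalgebra of
the algebra of all functions, consists of `A`-valued `I`-equivariant functions, is stable under the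
semilinear action `φ ↦ σ ∘ φ ∘ act σ⁻¹` of `D`, separates the points of `M` and is closed under the
comultiplication.

* ORD-A (`S19/Order/*`, from a `Coord.CoordSystem`): `∃ H', IsNrOrder ℓ A act H'` for every finite
  `G_ℚ`-stable subgroup `M` of `Jb`.
* ORD-B (`S19/Order/DescentNr.lean`): `IsNrOrder ℓ A act H' → ∃ Hs, Abs.IsHopfOrder ℓ act Hs`
  (`M` finite, open stabilisers), with `Hs = {φ ∈ H' | φ is G_ℚ-equivariant}`.
-/
import Mathlib
import Fermat.Prelude.Def_FLTPrelim_Ramification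
import Fermat.Agent.S19.Abs.Defs
import Fermat.Agent.S19.Coord.Defs

set_option autoImplicit false

namespace Fermat.Agent.S19.Order.NrDefs

open Fermat.Agent.S19.Abs Fermat.Agent.S19.Coord

/-- **`R^nr`-orders** inside the algebra of functions `M → ℚ̄` (`R^nr = A ∩ ℚ̄^I`, see
`Coord.IsUnr`).  The prime `ℓ` is only a label (it is determined by `A`). -/
structure IsNrOrder (ℓ : ℕ) (A : ValuationSubring Qb) {M : Type} [AddCommGroup M]
    (act : GQ → M → M) (H' : Set (M → Qb)) : Prop where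
  /-- closed under addition -/
  add_mem : ∀ {φ ψ : M → Qb}, φ ∈ H' → ψ ∈ H' → φ + ψ ∈ H'
  /-- closed under multiplication -/
  mul_mem : ∀ {φ ψ : M → Qb}, φ ∈ H' → ψ ∈ H' → φ * ψ ∈ H'
  /-- contains the constants of `R^nr` -/
  const_mem : ∀ {c : Qb}, IsUnr A c → (fun _ : M => c) ∈ H'
  /-- the functions are `A`-valued -/
  integral : ∀ φ ∈ H', ∀ y : M, φ y ∈ A
  /-- the functions are equivariant under the inertia group -/
  inertia : ∀ φ ∈ H', ∀ σ ∈ A.inertiaSubgroupIn ℚ, ∀ y : M, φ (act σ y) = σ (φ y)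
  /-- stable under the semilinear action of the decomposition group -/
  stable : ∀ σ ∈ A.decompositionSubgroup ℚ, ∀ φ ∈ H', (fun y : M => σ (φ (act σ⁻¹ y))) ∈ H'
  /-- the functions separate the points of `M` -/
  separates : ∀ y y' : M, y ≠ y' → ∃ φ ∈ H', φ y ≠ φ y'
  /-- closed under comultiplication -/
  comul : ∀ φ ∈ H', ∃ (n : ℕ) (a b : Fin n → M → Qb), (∀ j, a j ∈ H') ∧ (∀ j, b j ∈ H') ∧
    ∀ y y' : M, φ (y + y') = ∑ j, a j y * b j y'

namespace IsNrOrder

variable {ℓ : ℕ} {A : ValuationSubring Qb} {M : Type} [AddCommGroup M] {act : GQ → M → M}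
  {H' : Set (M → Qb)}

theorem isUnr_zero : IsUnr A (0 : Qb) := ⟨A.zero_mem, fun σ _ => map_zero σ⟩

theorem isUnr_one : IsUnr A (1 : Qb) := ⟨A.one_mem, fun σ _ => map_one σ⟩

theorem isUnr_neg {x : Qb} (hx : IsUnr A x) : IsUnr A (-x) :=
  ⟨A.neg_mem _ hx.1, fun σ hσ => by rw [map_neg, hx.2 σ hσ]⟩

theorem isUnr_add {x y : Qb} (hx : IsUnr A x) (hy : IsUnr A y) : IsUnr A (x + y) :=
  ⟨A.add_mem _ _ hx.1 hy.1, fun σ hσ => by rw [map_add, hx.2 σ hσ, hy.2 σ hσ]⟩

theorem isUnr_mul {x y : Qb} (hx : IsUnr A x) (hy : IsUnr A y) : IsUnr A (x * y) :=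
  ⟨A.mul_mem _ _ hx.1 hy.1, fun σ hσ => by rw [map_mul, hx.2 σ hσ, hy.2 σ hσ]⟩

theorem isUnr_sub {x y : Qb} (hx : IsUnr A x) (hy : IsUnr A y) : IsUnr A (x - y) := by
  rw [sub_eq_add_neg]; exact isUnr_add hx (isUnr_neg hy)

theorem isUnr_intCast (n : ℤ) : IsUnr A (n : Qb) :=
  ⟨intCast_mem A n, fun σ _ => map_intCast σ n⟩

theorem isUnr_natCast (n : ℕ) : IsUnr A (n : Qb) :=
  ⟨natCast_mem A n, fun σ _ => map_natCast σ n⟩

theorem isUnr_sum {ι : Type*} (s : Finset ι) {f : ι → Qb} (hf : ∀ i ∈ s, IsUnr A (f i)) :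
    IsUnr A (∑ i ∈ s, f i) := by
  classical
  induction s using Finset.induction_on with
  | empty => simpa using isUnr_zero
  | insert a s ha ih =>
    rw [Finset.sum_insert ha]
    exact isUnr_add (hf a (Finset.mem_insert_self a s))
      (ih fun i hi => hf i (Finset.mem_insert_of_mem hi))

variable (h : IsNrOrder ℓ A act H')
include h

theorem zero_mem : (0 : M → Qb) ∈ H' := h.const_mem isUnr_zero

theorem one_mem : (1 : M → Qb) ∈ H' := h.const_mem isUnr_one

/-- closed under multiplication by constants of `R^nr` -/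
theorem smul_mem {c : Qb} (hc : IsUnr A c) {φ : M → Qb} (hφ : φ ∈ H') : c • φ ∈ H' := by
  have h1 : c • φ = (fun _ : M => c) * φ := by
    funext y; simp [Pi.smul_apply, smul_eq_mul]
  rw [h1]; exact h.mul_mem (h.const_mem hc) hφ

theorem neg_mem {φ : M → Qb} (hφ : φ ∈ H') : -φ ∈ H' := by
  have h1 : -φ = (-1 : Qb) • φ := by simp
  rw [h1]; exact h.smul_mem (isUnr_neg isUnr_one) hφ

theorem sub_mem {φ ψ : M → Qb} (hφ : φ ∈ H') (hψ : ψ ∈ H') : φ - ψ ∈ H' := by
  rw [sub_eq_add_neg]; exact h.add_mem hφ (h.neg_mem hψ)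

theorem sum_mem {ι : Type*} (s : Finset ι) {f : ι → M → Qb} (hf : ∀ i ∈ s, f i ∈ H') :
    ∑ i ∈ s, f i ∈ H' := by
  classical
  induction s using Finset.induction_on with
  | empty => simpa using h.zero_mem
  | insert a s ha ih =>
    rw [Finset.sum_insert ha]
    exact h.add_mem (hf a (Finset.mem_insert_self a s))
      (ih fun i hi => hf i (Finset.mem_insert_of_mem hi))

/-- `H'` as a subring of the ring of functions -/
def toSubring : Subring (M → Qb) where
  carrier := H'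
  mul_mem' := h.mul_mem
  one_mem' := h.one_mem
  add_mem' := h.add_mem
  zero_mem' := h.zero_mem
  neg_mem' := h.neg_mem

@[simp] theorem mem_toSubring {φ : M → Qb} : φ ∈ h.toSubring ↔ φ ∈ H' := Iff.rfl

end IsNrOrder

end Fermat.Agent.S19.Order.NrDefs
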