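/-
S19 / Order layer, LAST STEP (helper15): **descent of a Hopf order over `R^nr = A ∩ ℚ̄^I` to `ℤ_(ℓ)`**.

`A` a valuation subring of `ℚ̄` over `ℓ`, `D = A.decompositionSubgroup ℚ`, `I = A.inertiaSubgroupIn ℚ`.
`M` a finite abelian group with an action `act` of `G_ℚ` (open stabilisers).  An `R^nr`-order
(`IsNrOrder`) is a set `H'` of functions `M → ℚ̄` which is an `R^nr`-subalgebra, `A`-valued,
`I`-equivariant, stable under the semilinear action of `D`, separates the points and is closed under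
the comultiplication.  Then `Hs := {φ ∈ H' | φ is G_ℚ-equivariant}` is a Hopf order over `ℤ_(ℓ)`
(`Abs.IsHopfOrder`): `exists_isHopfOrder_of_isNrOrder`.

Proof: `Hs` spans all functions over `ℚ̄` (Galois theory + finite Stone–Weierstrass), is finitely
generated (trace form), has a `ℤ_(ℓ)`-basis `e`, which is a `ℚ̄`-basis of all functions (Artin);
**every `φ ∈ H'` has coordinates in `R^nr` w.r.t. `e`** (minimal support + Frobenius: a relation
`Σ rᵢ eᵢ ∈ ℓ H'` with some `rᵢ` a unit can be made `D`-invariant modulo `𝔪_A`, hence rational, hence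
gives an element of `Hs` not in the span of `e`); finally the structure constants of `Δ` in the basis
`e ⊗ e` lie in `R^nr` and are Galois-fixed, hence in `ℤ_(ℓ)`.
-/
import Mathlib
import Fermat.Prelude.Def_FLTPrelim_Ramification
import Fermat.Agent.S19.Abs.Defs
import Fermat.Agent.S19.Coord.Defs
import Fermat.Agent.S19.Order.NrDefs
import Fermat.Agent.S19.Descent
import Fermat.Agent.S19.Abs.Order
import Fermat.Agent.S05.Inertia
import Fermat.Agent.S51.GaloisFixed
import Fermat.Agent.S54.Frobenius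
import Fermat.Agent.N4F.Core
import Fermat.Agent.N4.FrobDensity.Qbar
import Fermat.Agent.S36.Descent.UnramLevel
import Fermat.Agent.S28.LocalizedInt

set_option autoImplicit false
set_option linter.unusedSectionVars false

namespace Fermat.Agent.S19.Order.DescentNr

open Fermat.Agent.S19.Abs Fermat.Agent.S19.Coord Fermat.Agent.S19.Order.NrDefs GaloisRep

/-! ### Arithmetic of `A` -/

section Arith

variable {ℓ : ℕ} (hℓ : ℓ.Prime) {A : ValuationSubring Qb} (hA : A.LiesOverPrime ℓ)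

include hℓ hA in
/-- integers prime to `ℓ` are units of `A` -/
theorem natCast_inv_mem {d : ℕ} (hd : d.Coprime ℓ) : ((d : Qb))⁻¹ ∈ A := by
  have h1 : ((d : ℤ) : Qb) ∉ A.nonunits := by
    apply Fermat.Agent.S54.intCast_not_mem_nonunits A hℓ hA
    intro h
    have h2 : ℓ ∣ d := by exact_mod_cast h
    have h3 := Nat.dvd_gcd h2 (dvd_refl ℓ)
    rw [Nat.Coprime] at hd
    rw [hd] at h3
    exact hℓ.one_lt.ne' (Nat.dvd_one.mp h3)
  have h4 : (d : Qb) ∈ A := natCast_mem A d
  have h5 : ((d : ℤ) : Qb) = (d : Qb) := by push_cast; rfl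
  rw [h5] at h1
  by_contra hinv
  apply h1
  rw [A.mem_nonunits_iff]
  rcases eq_or_ne (d : Qb) 0 with h0 | h0
  · rw [h0, map_zero]; exact zero_lt_one
  · have h6 : 1 < A.valuation ((d : Qb))⁻¹ := by
      apply lt_of_not_ge
      intro hle
      exact hinv ((A.valuation_le_one_iff _).mp hle)
    rw [map_inv₀] at h6
    have hv : A.valuation (d : Qb) ≠ 0 := (A.valuation.ne_zero_iff).mpr h0
    exact (one_lt_inv₀ (zero_lt_iff.mpr hv)).mp h6

include hℓ hA in
/-- elements of `ℤ_(ℓ)` lie in `R^nr` -/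
theorem isUnr_algebraMap (r : ratLocalizedAt ℓ) : IsUnr A (algebraMap (ratLocalizedAt ℓ) Qb r) := by
  have hr : ((r : ℚ)).den.Coprime ℓ := r.2
  have h1 : algebraMap (ratLocalizedAt ℓ) Qb r = algebraMap ℚ Qb (r : ℚ) := rfl
  refine ⟨?_, fun σ _ => ?_⟩
  · rw [h1]
    have h2 : algebraMap ℚ Qb (r : ℚ) = ((r : ℚ).num : Qb) * (((r : ℚ).den : Qb))⁻¹ := by
      conv_lhs => rw [← Rat.num_div_den (r : ℚ)]
      rw [map_div₀, map_intCast, map_natCast, div_eq_mul_inv]
    rw [h2]
    exact A.mul_mem _ _ (intCast_mem A _) (natCast_inv_mem hℓ hA hr)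
  · rw [h1]
    exact σ.commutes _

include hℓ hA in
/-- every element of `ℚ̄` becomes `A`-integral after multiplication by a power of `ℓ` -/
theorem exists_pow_mul_mem (x : Qb) : ∃ m : ℕ, (ℓ : Qb) ^ m * x ∈ A := by
  have halg : IsAlgebraic ℤ x := Fermat.Agent.S54.isAlgebraic_int_Qbar x
  obtain ⟨a, ha0, hax⟩ := halg.exists_integral_multiple
  have hax' : a • x ∈ A := Fermat.Agent.S54.mem_valuationSubring_of_isIntegral_int A hax
  -- a positive natural number `n` with `n x ∈ A`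
  obtain ⟨n, hn0, hnx⟩ : ∃ n : ℕ, n ≠ 0 ∧ (n : Qb) * x ∈ A := by
    obtain ⟨n, rfl | rfl⟩ := Int.eq_nat_or_neg a
    · refine ⟨n, fun h => ha0 (by rw [h]; rfl), ?_⟩
      have : (n : Qb) * x = ((n : ℤ)) • x := by rw [zsmul_eq_mul, Int.cast_natCast]
      rw [this]; exact hax'
    · refine ⟨n, fun h => ha0 (by rw [h]; rfl), ?_⟩
      have : (n : Qb) * x = -((-(n : ℤ)) • x) := by
        rw [zsmul_eq_mul, Int.cast_neg, Int.cast_natCast, neg_mul, neg_neg]
      rw [this]; exact A.neg_mem _ hax'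
  obtain ⟨m, u, hu, hmu⟩ := Nat.exists_eq_pow_mul_and_not_dvd hn0 ℓ hℓ.ne_one
  refine ⟨m, ?_⟩
  have hucop : u.Coprime ℓ := by
    rw [Nat.coprime_comm]
    exact (Nat.Prime.coprime_iff_not_dvd hℓ).mpr hu
  have huinv : ((u : Qb))⁻¹ ∈ A := natCast_inv_mem hℓ hA hucop
  have hu0 : (u : Qb) ≠ 0 := by
    intro h
    have : u = 0 := by exact_mod_cast h
    rw [this] at hu
    exact hu (dvd_zero _)
  have h2 : (ℓ : Qb) ^ m * x = ((u : Qb))⁻¹ * ((n : Qb) * x) := by
    rw [hmu]
    push_cast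
    field_simp
  rw [h2]
  exact A.mul_mem _ _ huinv hnx

include hℓ hA in
/-- a non-unit of `R^nr` is divisible by `ℓ` in `R^nr` -/
theorem isUnr_mul_inv {x : Qb} (hx : IsUnr A x) (hxn : x ∈ A.nonunits) :
    IsUnr A (x * ((ℓ : Qb))⁻¹) := by
  have hxK : x ∈ Fermat.Agent.S36.Descent.UnramLevel.Kmax A :=
    Fermat.Agent.S36.Descent.UnramLevel.mem_Kmax_iff.mpr hx.2
  refine ⟨Fermat.Agent.S36.Descent.UnramLevel.mul_inv_mem_of_mem_Kmax hℓ hA hxK hxn, fun σ hσ => ?_⟩
  rw [map_mul, map_inv₀, map_natCast, hx.2 σ hσ]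

omit hℓ in
/-- the inverse of a unit of `R^nr` is in `R^nr` -/
theorem isUnr_inv {x : Qb} (hx : IsUnr A x) (hxn : x ∉ A.nonunits) : IsUnr A x⁻¹ := by
  refine ⟨?_, fun σ hσ => by rw [map_inv₀, hx.2 σ hσ]⟩
  have h1 : A.valuation x = 1 := by
    have h2 : A.valuation x ≤ 1 := (A.valuation_le_one_iff _).mpr hx.1
    rcases lt_or_eq_of_le h2 with h | h
    · exact absurd (A.mem_nonunits_iff.mpr h) hxn
    · exact h
  rw [← A.valuation_le_one_iff, map_inv₀, h1, inv_one]

include hℓ hA in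
/-- a rational number which is `A`-integral lies in `ℤ_(ℓ)` -/
theorem mem_ratLocalizedAt_of_mem {q : ℚ} (hq : algebraMap ℚ Qb q ∈ A) : q ∈ ratLocalizedAt ℓ := by
  show q.den.Coprime ℓ
  rw [Nat.coprime_comm, Nat.Prime.coprime_iff_not_dvd hℓ]
  intro hdvd
  obtain ⟨d', hd'⟩ := hdvd
  have hnum : ((q.num : ℤ) : Qb) = algebraMap ℚ Qb q * ((ℓ : Qb) * (d' : Qb)) := by
    have h1 : (q.num : ℚ) = q * ((ℓ : ℚ) * (d' : ℚ)) := by
      rw [← Rat.mul_den_eq_num q, hd']; push_cast; ring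
    have h2 := congrArg (algebraMap ℚ Qb) h1
    simpa using h2
  have hnu : ((q.num : ℤ) : Qb) ∈ A.nonunits := by
    rw [hnum, A.mem_nonunits_iff, map_mul, map_mul]
    have h3 : A.valuation (algebraMap ℚ Qb q) ≤ 1 := (A.valuation_le_one_iff _).mpr hq
    have h4 : A.valuation (ℓ : Qb) < 1 := A.mem_nonunits_iff.mp hA
    have h5 : A.valuation (d' : Qb) ≤ 1 := (A.valuation_le_one_iff _).mpr (natCast_mem A d')
    calc A.valuation (algebraMap ℚ Qb q) * (A.valuation (ℓ : Qb) * A.valuation (d' : Qb))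
        ≤ 1 * (A.valuation (ℓ : Qb) * 1) := by gcongr
      _ = A.valuation (ℓ : Qb) := by rw [one_mul, mul_one]
      _ < 1 := h4
  have hdn : (ℓ : ℤ) ∣ q.num := by
    by_contra hnd
    exact Fermat.Agent.S54.intCast_not_mem_nonunits A hℓ hA hnd hnu
  have hcop := q.reduced
  have h6 : ℓ ∣ q.num.natAbs := by
    have := Int.natAbs_dvd_natAbs.mpr hdn
    simpa using this
  have h7 : ℓ ∣ q.den := ⟨d', hd'⟩
  have h8 := Nat.dvd_gcd h6 h7
  rw [Nat.Coprime] at hcop
  rw [hcop] at h8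
  exact hℓ.one_lt.ne' (Nat.dvd_one.mp h8)

omit hℓ hA in
/-- the decomposition group normalises the inertia group, hence preserves `R^nr` -/
theorem isUnr_apply {σ : GQ} (hσ : σ ∈ A.decompositionSubgroup ℚ) {x : Qb} (hx : IsUnr A x) :
    IsUnr A (σ x) := by
  refine ⟨Fermat.Agent.S05.Inertia.apply_mem_of_mem_decompositionSubgroup A hσ hx.1, fun τ hτ => ?_⟩
  have h1 : σ⁻¹ * τ * σ⁻¹⁻¹ ∈ A.inertiaSubgroupIn ℚ :=
    Fermat.Agent.N4F.Core.conj_mem_inertiaSubgroupIn (inv_mem hσ) hτ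
  rw [inv_inv] at h1
  have h2 := hx.2 _ h1
  have h3 : (σ⁻¹ * τ * σ) x = σ⁻¹ (τ (σ x)) := rfl
  rw [h3] at h2
  have h4 := congrArg σ h2
  have h5 : σ (σ⁻¹ (τ (σ x))) = τ (σ x) := by
    show (σ * σ⁻¹) (τ (σ x)) = τ (σ x)
    rw [mul_inv_cancel]; rfl
  rw [h5] at h4
  exact h4

include hℓ hA in
/-- an element of `A` which is a root of `X ^ ℓ - X` modulo `𝔪_A` is congruent to an integer -/
theorem exists_int_sub_mem_nonunits {s : Qb} (hs : s ∈ A) (hsl : s ^ ℓ - s ∈ A.nonunits) :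
    ∃ n : ℤ, s - (n : Qb) ∈ A.nonunits := by
  have : Fact ℓ.Prime := ⟨hℓ⟩
  let k := IsLocalRing.ResidueField A
  have hchar : CharP k ℓ := by
    rw [CharP.charP_iff_prime_eq_zero hℓ]
    have h1 : IsLocalRing.residue A ((ℓ : ℕ) : A) = 0 := by
      rw [IsLocalRing.residue_eq_zero_iff, ← ValuationSubring.coe_mem_nonunits_iff]
      exact hA
    rw [map_natCast] at h1
    exact h1
  let x : k := IsLocalRing.residue A ⟨s, hs⟩
  have hx : x ^ ℓ = x := by
    rw [← sub_eq_zero, ← map_pow, ← map_sub, IsLocalRing.residue_eq_zero_iff,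
      ← ValuationSubring.coe_mem_nonunits_iff]
    exact hsl
  have hxbot : x ∈ (⊥ : Subfield k) := (Subfield.mem_bot_iff_pow_eq_self k ℓ).mpr hx
  obtain ⟨n, hn⟩ := (mem_bot_iff_intCast ℓ k).mp hxbot
  refine ⟨n, ?_⟩
  have h2 : IsLocalRing.residue A (⟨s, hs⟩ - (n : A)) = 0 := by
    rw [map_sub, map_intCast]
    show x - (n : k) = 0
    rw [hn, sub_self]
  rw [IsLocalRing.residue_eq_zero_iff, ← ValuationSubring.coe_mem_nonunits_iff] at h2
  simpa using h2

omit hℓ hA in
theorem isUnr_pow {x : Qb} (hx : IsUnr A x) (n : ℕ) : IsUnr A (x ^ n) :=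
  ⟨pow_mem hx.1 n, fun σ hσ => by rw [map_pow, hx.2 σ hσ]⟩

include hℓ hA in
/-- a common exponent for finitely many elements -/
theorem exists_pow_mul_mem_fin {n : ℕ} (c : Fin n → Qb) :
    ∃ m : ℕ, ∀ i, (ℓ : Qb) ^ m * c i ∈ A := by
  choose m hm using fun i => exists_pow_mul_mem hℓ hA (c i)
  refine ⟨Finset.univ.sup m, fun i => ?_⟩
  have hle : m i ≤ Finset.univ.sup m := Finset.le_sup (Finset.mem_univ i)
  obtain ⟨d, hd⟩ := Nat.exists_eq_add_of_le hle
  rw [hd, pow_add, mul_comm ((ℓ : Qb) ^ (m i)), mul_assoc]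
  exact A.mul_mem _ _ (pow_mem (natCast_mem A ℓ) d) (hm i)

omit hℓ hA in
theorem nonunits_add {x y : Qb} (hx : x ∈ A.nonunits) (hy : y ∈ A.nonunits) :
    x + y ∈ A.nonunits := by
  rw [A.mem_nonunits_iff] at *
  exact A.valuation.map_add_lt hx hy

omit hℓ hA in
theorem nonunits_neg {x : Qb} (hx : x ∈ A.nonunits) : -x ∈ A.nonunits := by
  rw [A.mem_nonunits_iff] at *
  rw [Valuation.map_neg]; exact hx

omit hℓ hA in
theorem nonunits_sub {x y : Qb} (hx : x ∈ A.nonunits) (hy : y ∈ A.nonunits) :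
    x - y ∈ A.nonunits := by
  rw [sub_eq_add_neg]; exact nonunits_add hx (nonunits_neg hy)

omit hℓ hA in
theorem mul_mem_nonunits {a x : Qb} (ha : a ∈ A) (hx : x ∈ A.nonunits) : a * x ∈ A.nonunits := by
  rw [A.mem_nonunits_iff, map_mul]
  have h1 : A.valuation a ≤ 1 := (A.valuation_le_one_iff _).mpr ha
  have h2 := A.mem_nonunits_iff.mp hx
  calc A.valuation a * A.valuation x ≤ 1 * A.valuation x := by gcongr
    _ = A.valuation x := one_mul _
    _ < 1 := h2

omit hℓ hA in
theorem one_not_mem_nonunits : (1 : Qb) ∉ A.nonunits := by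
  rw [A.mem_nonunits_iff, map_one]; exact lt_irrefl 1

omit hℓ hA in
theorem zero_mem_nonunits : (0 : Qb) ∈ A.nonunits := by
  rw [A.mem_nonunits_iff, map_zero]; exact zero_lt_one

end Arith

/-! ### Galois-equivariant functions separate the points -/

section Separation

variable {M : Type} [AddCommGroup M] {act : GQ → M → M} (hact : IsGalAction act)

include hact in
theorem act_inv_act (σ : GQ) (y : M) : act σ⁻¹ (act σ y) = y := by
  rw [← hact.mul, inv_mul_cancel, hact.one]

include hact in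
theorem act_act_inv (σ : GQ) (y : M) : act σ (act σ⁻¹ y) = y := by
  rw [← hact.mul, mul_inv_cancel, hact.one]

include hact in
theorem act_surjective (σ : GQ) : Function.Surjective (act σ) :=
  fun y => ⟨act σ⁻¹ y, act_act_inv hact σ y⟩

/-- the stabiliser of a point -/
def stab (hact : IsGalAction act) (y : M) : Subgroup GQ where
  carrier := {σ | act σ y = y}
  mul_mem' {σ τ} hσ hτ := by
    show act (σ * τ) y = y
    rw [hact.mul, hτ, hσ]
  one_mem' := hact.one y
  inv_mem' {σ} hσ := by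
    show act σ⁻¹ y = y
    have h1 : act σ⁻¹ (act σ y) = y := by rw [← hact.mul, inv_mul_cancel, hact.one]
    rw [hσ] at h1
    exact h1

/-- the orbit function attached to a point `y` and a constant `c` -/
noncomputable def orbitFun (act : GQ → M → M) (y : M) (c : Qb) : M → Qb := by
  classical
  exact fun z => if hz : ∃ σ : GQ, act σ y = z then (Classical.choose hz) c else 0

include hact in
theorem orbitFun_apply {y : M} {c : Qb} (hc : ∀ σ : GQ, act σ y = y → σ c = c) (σ : GQ) :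
    orbitFun act y c (act σ y) = σ c := by
  classical
  have hz : ∃ τ : GQ, act τ y = act σ y := ⟨σ, rfl⟩
  have h1 : orbitFun act y c (act σ y) = (Classical.choose hz) c := by
    unfold orbitFun
    exact dif_pos hz
  rw [h1]
  have h2 := Classical.choose_spec hz
  have h3 : act (σ⁻¹ * Classical.choose hz) y = y := by
    rw [hact.mul, h2, act_inv_act hact]
  have h4 := hc _ h3
  have h5 : (σ⁻¹ * Classical.choose hz) c = σ⁻¹ ((Classical.choose hz) c) := rfl
  rw [h5] at h4
  have h6 := congrArg σ h4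
  have h7 : σ (σ⁻¹ ((Classical.choose hz) c)) = (Classical.choose hz) c := by
    show (σ * σ⁻¹) ((Classical.choose hz) c) = (Classical.choose hz) c
    rw [mul_inv_cancel]; rfl
  rw [h7] at h6
  exact h6

omit [AddCommGroup M] in
theorem orbitFun_of_not {y z : M} {c : Qb} (hz : ¬ ∃ σ : GQ, act σ y = z) :
    orbitFun act y c z = 0 := by
  classical
  unfold orbitFun
  exact dif_neg hz

include hact in
theorem orbitFun_equivariant {y : M} {c : Qb} (hc : ∀ σ : GQ, act σ y = y → σ c = c)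
    (τ : GQ) (z : M) : orbitFun act y c (act τ z) = τ (orbitFun act y c z) := by
  by_cases hz : ∃ σ : GQ, act σ y = z
  · obtain ⟨σ, rfl⟩ := hz
    rw [← hact.mul, orbitFun_apply hact hc, orbitFun_apply hact hc]
    rfl
  · have hz' : ¬ ∃ σ : GQ, act σ y = act τ z := by
      rintro ⟨σ, hσ⟩
      apply hz
      refine ⟨τ⁻¹ * σ, ?_⟩
      rw [hact.mul, hσ, act_inv_act hact]
    rw [orbitFun_of_not hz, orbitFun_of_not hz', map_zero]

include hact in
/-- **Galois-equivariant functions separate the points** (open stabilisers). -/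
theorem exists_equivariant_separating
    (hopen : ∀ y : M, ∃ E : IntermediateField ℚ Qb, FiniteDimensional ℚ E ∧
      ∀ σ : GQ, (∀ x ∈ E, σ x = x) → act σ y = y)
    {y y' : M} (hne : y ≠ y') :
    ∃ ψ : M → Qb, (∀ (σ : GQ) (z : M), ψ (act σ z) = σ (ψ z)) ∧ ψ y ≠ ψ y' := by
  by_cases horb : ∃ τ : GQ, act τ y = y'
  · obtain ⟨τ, rfl⟩ := horb
    -- a constant fixed by the stabiliser and moved by `τ`
    obtain ⟨c, hc, hτc⟩ : ∃ c : Qb, (∀ σ : GQ, act σ y = y → σ c = c) ∧ τ c ≠ c := by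
      have := Fermat.Agent.S51.isGalois_algebraicClosure_rat
      obtain ⟨E, hE, hfix⟩ := hopen y
      have hle : E.fixingSubgroup ≤ stab hact y := by
        intro σ hσ
        apply hfix σ
        intro x hx
        exact (E.mem_fixingSubgroup_iff σ).mp hσ x hx
      have hopenS : IsOpen ((stab hact y : Subgroup GQ) : Set GQ) :=
        Subgroup.isOpen_mono hle E.fixingSubgroup_isOpen
      have hclosed : IsClosed ((stab hact y : Subgroup GQ) : Set GQ) :=
        Subgroup.isClosed_of_isOpen _ hopenS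
      let S : ClosedSubgroup GQ := ⟨stab hact y, hclosed⟩
      have hS := InfiniteGalois.fixingSubgroup_fixedField S
      by_contra hcon
      push Not at hcon
      have hτ : τ ∈ (IntermediateField.fixedField S.toSubgroup).fixingSubgroup := by
        rw [IntermediateField.mem_fixingSubgroup_iff]
        intro x hx
        apply hcon x
        intro σ hσ
        exact (IntermediateField.mem_fixedField_iff _ _).mp hx σ hσ
      rw [hS] at hτ
      exact hne hτ.symm
    refine ⟨orbitFun act y c, orbitFun_equivariant hact hc, ?_⟩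
    have h1 : orbitFun act y c y = c := by
      have := orbitFun_apply hact hc 1
      rw [hact.one] at this
      rw [this]; rfl
    rw [h1, orbitFun_apply hact hc]
    exact fun h => hτc h.symm
  · have hc : ∀ σ : GQ, act σ y = y → σ (1 : Qb) = 1 := fun σ _ => map_one σ
    refine ⟨orbitFun act y 1, orbitFun_equivariant hact hc, ?_⟩
    have h1 : orbitFun act y 1 y = 1 := by
      have := orbitFun_apply hact hc 1
      rw [hact.one] at this
      rw [this]; rfl
    rw [h1, orbitFun_of_not horb]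
    exact one_ne_zero

end Separation


/-! ### Bases of the algebra of functions inside a separating subring -/

section Span

variable {M : Type} [AddCommGroup M] [Finite M] {act : GQ → M → M} (hact : IsGalAction act)

omit [AddCommGroup M] in
/-- a subring of functions separating the points contains a `ℚ̄`-basis of all functions -/
theorem exists_basis_mem (S : Subring (M → Qb))
    (hsep : ∀ y y' : M, y ≠ y' → ∃ φ ∈ S, φ y ≠ φ y') :
    ∃ (n : ℕ) (b : Module.Basis (Fin n) Qb (M → Qb)), ∀ i, b i ∈ S := by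
  classical
  have hspan : Submodule.span Qb ((S.toSubmonoid : Submonoid (M → Qb)) : Set (M → Qb)) = ⊤ :=
    Fermat.Agent.S19.Descent.span_eq_top_of_separates S.toSubmonoid hsep
  obtain ⟨t, hts, htspan, hli⟩ := exists_linearIndependent Qb ((S : Set (M → Qb)))
  have htop : ⊤ ≤ Submodule.span Qb (Set.range ((↑) : t → M → Qb)) := by
    rw [Subtype.range_coe, htspan]
    exact hspan.ge
  let b0 : Module.Basis t Qb (M → Qb) := Module.Basis.mk hli htop
  have hfin : Finite t := Module.Finite.finite_basis b0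
  have : Fintype t := Fintype.ofFinite t
  refine ⟨Fintype.card t, b0.reindex (Fintype.equivFin t), fun i => ?_⟩
  rw [Module.Basis.reindex_apply, Module.Basis.mk_apply]
  exact hts ((Fintype.equivFin t).symm i).2

include hact in
/-- the coordinates of a `σ`-equivariant function in a basis of `σ`-equivariant functions are
fixed by `σ` -/
theorem repr_apply_fixed {n : ℕ} (b : Module.Basis (Fin n) Qb (M → Qb)) (σ : GQ)
    (hb : ∀ i y, b i (act σ y) = σ (b i y)) {ψ : M → Qb} (hψ : ∀ y, ψ (act σ y) = σ (ψ y))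
    (i : Fin n) : σ (b.repr ψ i) = b.repr ψ i := by
  have h1 : ψ = ∑ j, σ (b.repr ψ j) • b j := by
    funext z
    obtain ⟨y, rfl⟩ := act_surjective hact σ z
    rw [hψ]
    have h0 := congrFun (b.sum_repr ψ) y
    rw [← h0]
    simp only [Finset.sum_apply, Pi.smul_apply, smul_eq_mul, map_sum, map_mul, hb]
  have h2 : b.repr ψ i = b.repr (∑ j, σ (b.repr ψ j) • b j) i := by rw [← h1]
  rw [b.repr_sum_self] at h2
  exact h2.symm

end Span

/-! ### The descended order `Hs` -/

section Order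

variable {ℓ : ℕ} (hℓ : ℓ.Prime) {A : ValuationSubring Qb} (hA : A.LiesOverPrime ℓ)
  {M : Type} [AddCommGroup M] [Fintype M] {act : GQ → M → M} (hact : IsGalAction act)
  {H' : Set (M → Qb)} (h : IsNrOrder ℓ A act H')

include hℓ hA hact h in
/-- **every inertia-equivariant function lies in `H'` after multiplication by a power of `ℓ`** -/
theorem exists_pow_smul_mem {ψ : M → Qb}
    (hψ : ∀ σ ∈ A.inertiaSubgroupIn ℚ, ∀ y, ψ (act σ y) = σ (ψ y)) :
    ∃ m : ℕ, ((ℓ : Qb) ^ m) • ψ ∈ H' := by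
  obtain ⟨n, b, hb⟩ := exists_basis_mem h.toSubring h.separates
  have hfix : ∀ i, ∀ σ ∈ A.inertiaSubgroupIn ℚ, σ (b.repr ψ i) = b.repr ψ i := fun i σ hσ =>
    repr_apply_fixed hact b σ (fun j y => h.inertia _ (hb j) σ hσ y) (hψ σ hσ) i
  have hm : ∃ m : ℕ, ∀ i, (ℓ : Qb) ^ m * b.repr ψ i ∈ A := by
    choose m hm using fun i => exists_pow_mul_mem hℓ hA (b.repr ψ i)
    refine ⟨Finset.univ.sup m, fun i => ?_⟩
    have hle : m i ≤ Finset.univ.sup m := Finset.le_sup (Finset.mem_univ i)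
    obtain ⟨d, hd⟩ := Nat.exists_eq_add_of_le hle
    rw [hd, pow_add, mul_comm ((ℓ : Qb) ^ (m i)), mul_assoc]
    exact A.mul_mem _ _ (pow_mem (natCast_mem A ℓ) d) (hm i)
  obtain ⟨m, hm⟩ := hm
  refine ⟨m, ?_⟩
  have h1 : ((ℓ : Qb) ^ m) • ψ = ∑ i, ((ℓ : Qb) ^ m * b.repr ψ i) • b i := by
    conv_lhs => rw [← b.sum_repr ψ]
    rw [Finset.smul_sum]
    exact Finset.sum_congr rfl fun i _ => by rw [mul_smul]
  rw [h1]
  refine h.sum_mem _ fun i _ => h.smul_mem ⟨hm i, fun σ hσ => ?_⟩ (hb i)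
  rw [map_mul, map_pow, map_natCast, hfix i σ hσ]

/-- the descended order: the Galois-equivariant functions of `H'` -/
noncomputable def descended : Subalgebra (ratLocalizedAt ℓ) (M → Qb) where
  carrier := {φ | φ ∈ H' ∧ ∀ (σ : GQ) (y : M), φ (act σ y) = σ (φ y)}
  mul_mem' {φ ψ} hφ hψ := ⟨h.mul_mem hφ.1 hψ.1, fun σ y => by
    rw [Pi.mul_apply, Pi.mul_apply, hφ.2, hψ.2, map_mul]⟩
  add_mem' {φ ψ} hφ hψ := ⟨h.add_mem hφ.1 hψ.1, fun σ y => by
    rw [Pi.add_apply, Pi.add_apply, hφ.2, hψ.2, map_add]⟩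
  algebraMap_mem' r := by
    have h1 : algebraMap (ratLocalizedAt ℓ) (M → Qb) r
        = fun _ : M => algebraMap (ratLocalizedAt ℓ) Qb r := rfl
    rw [h1]
    refine ⟨h.const_mem (isUnr_algebraMap hℓ hA r), fun σ y => ?_⟩
    have h2 : algebraMap (ratLocalizedAt ℓ) Qb r = algebraMap ℚ Qb (r : ℚ) := rfl
    rw [h2]
    exact (σ.commutes _).symm

theorem mem_descended {φ : M → Qb} :
    φ ∈ descended hℓ hA h ↔ φ ∈ H' ∧ ∀ (σ : GQ) (y : M), φ (act σ y) = σ (φ y) := Iff.rfl

include hℓ hA hact h in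
/-- the descended order separates the points -/
theorem descended_separates
    (hopen : ∀ y : M, ∃ E : IntermediateField ℚ Qb, FiniteDimensional ℚ E ∧
      ∀ σ : GQ, (∀ x ∈ E, σ x = x) → act σ y = y)
    (y y' : M) (hne : y ≠ y') : ∃ φ ∈ descended hℓ hA h, φ y ≠ φ y' := by
  obtain ⟨ψ, hψ, hsep⟩ := exists_equivariant_separating hact hopen hne
  obtain ⟨m, hm⟩ := exists_pow_smul_mem hℓ hA hact h (ψ := ψ) (fun σ _ y => hψ σ y)
  refine ⟨((ℓ : Qb) ^ m) • ψ, ⟨hm, fun σ z => ?_⟩, ?_⟩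
  · rw [Pi.smul_apply, Pi.smul_apply, smul_eq_mul, smul_eq_mul, hψ, map_mul, map_pow,
      map_natCast]
  · rw [Pi.smul_apply, Pi.smul_apply, smul_eq_mul, smul_eq_mul]
    intro heq
    apply hsep
    have hl0 : ((ℓ : Qb) ^ m) ≠ 0 := pow_ne_zero _ (Nat.cast_ne_zero.mpr hℓ.ne_zero)
    exact mul_left_cancel₀ hl0 heq

/-- the action of `σ` as a permutation of `M` -/
noncomputable def actEquiv (hact : IsGalAction act) (σ : GQ) : M ≃ M :=
  ⟨act σ, act σ⁻¹, act_inv_act hact σ, act_act_inv hact σ⟩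

include hact in
/-- the trace pairing of two equivariant functions is Galois-invariant -/
theorem apply_sum_mul {φ ψ : M → Qb} (hφ : ∀ (σ : GQ) y, φ (act σ y) = σ (φ y))
    (hψ : ∀ (σ : GQ) y, ψ (act σ y) = σ (ψ y)) (σ : GQ) :
    σ (∑ y, φ y * ψ y) = ∑ y, φ y * ψ y := by
  rw [map_sum]
  have h1 : ∀ y, σ (φ y * ψ y) = (fun z => φ z * ψ z) (actEquiv hact σ y) := by
    intro y
    show σ (φ y * ψ y) = φ (act σ y) * ψ (act σ y)
    rw [map_mul, hφ, hψ]
  rw [Finset.sum_congr rfl fun y _ => h1 y]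
  exact Equiv.sum_comp (actEquiv hact σ) (fun z => φ z * ψ z)

include hℓ hA in
/-- `A ∩ ℚ = ℤ_(ℓ)` -/
theorem exists_ratLoc_of_fixed {x : Qb} (hx : x ∈ A) (hfix : ∀ σ : GQ, σ x = x) :
    ∃ r : ratLocalizedAt ℓ, algebraMap (ratLocalizedAt ℓ) Qb r = x := by
  obtain ⟨q, hq⟩ := Fermat.Agent.S51.exists_rat_of_fixed x hfix
  have hqA : algebraMap ℚ Qb q ∈ A := by rw [hq]; exact hx
  exact ⟨⟨q, mem_ratLocalizedAt_of_mem hℓ hA hqA⟩, hq⟩

omit [AddCommGroup M] in
/-- the functional `f ↦ Σ_y φ y f y` -/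
noncomputable def pairL (φ : M → Qb) : (M → Qb) →ₗ[Qb] Qb where
  toFun f := ∑ y, φ y * f y
  map_add' f g := by simp [mul_add, Finset.sum_add_distrib]
  map_smul' c f := by simp [Finset.mul_sum, mul_left_comm]

omit [AddCommGroup M] in
/-- the pairing against a family of functions -/
noncomputable def pairMap {n : ℕ} (b : Fin n → M → Qb) : (M → Qb) →ₗ[Qb] (Fin n → Qb) where
  toFun φ i := ∑ y, φ y * b i y
  map_add' φ ψ := by funext i; simp [add_mul, Finset.sum_add_distrib]
  map_smul' c φ := by funext i; simp [Finset.mul_sum, mul_assoc]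

omit [AddCommGroup M] in
theorem pairMap_injective {n : ℕ} (b : Module.Basis (Fin n) Qb (M → Qb)) :
    Function.Injective (pairMap (fun i => b i)) := by
  classical
  rw [← LinearMap.ker_eq_bot, LinearMap.ker_eq_bot']
  intro φ hφ
  have h1 : pairL φ = 0 := by
    apply b.ext
    intro i
    have := congrFun hφ i
    simpa [pairL, pairMap] using this
  funext y
  have h2 : pairL φ (Pi.single y 1) = φ y := by
    simp [pairL, Pi.single_apply]
  rw [← h2, h1]
  rfl

include hℓ hA hact h in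
/-- **the descended order is finitely generated** (trace form) -/
theorem descended_fg
    (hopen : ∀ y : M, ∃ E : IntermediateField ℚ Qb, FiniteDimensional ℚ E ∧
      ∀ σ : GQ, (∀ x ∈ E, σ x = x) → act σ y = y) :
    (Subalgebra.toSubmodule (descended hℓ hA h)).FG := by
  have : Fact ℓ.Prime := ⟨hℓ⟩
  obtain ⟨n, b, hb⟩ := exists_basis_mem (descended hℓ hA h).toSubring
    (descended_separates hℓ hA hact h hopen)
  let T : (M → Qb) →ₗ[ratLocalizedAt ℓ] (Fin n → Qb) :=
    (pairMap (fun i => b i)).restrictScalars (ratLocalizedAt ℓ)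
  have hT : Function.Injective T := pairMap_injective b
  apply Submodule.fg_of_fg_map_injective T hT
  let N₀ : Submodule (ratLocalizedAt ℓ) (Fin n → Qb) :=
    Submodule.pi Set.univ (fun _ => LinearMap.range (Algebra.linearMap (ratLocalizedAt ℓ) Qb))
  have hN₀ : N₀.FG := Submodule.fg_pi (fun _ => Submodule.fg_range _)
  refine Submodule.FG.of_le hN₀ ?_
  rintro _ ⟨φ, hφ, rfl⟩
  rw [Submodule.mem_pi]
  intro i _
  have hφ' : φ ∈ descended hℓ hA h := hφ
  have hbi : (b i) ∈ descended hℓ hA h := hb i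
  have hxA : (∑ y, φ y * b i y) ∈ A :=
    sum_mem fun y _ => A.mul_mem _ _ (h.integral _ hφ'.1 y) (h.integral _ hbi.1 y)
  obtain ⟨r, hr⟩ := exists_ratLoc_of_fixed hℓ hA hxA (apply_sum_mul hact hφ'.2 hbi.2)
  exact ⟨r, hr⟩

include hℓ hA hact h in
/-- **a `ℤ_(ℓ)`-basis of the descended order which is a `ℚ̄`-basis of all functions** -/
theorem exists_basis_descended
    (hopen : ∀ y : M, ∃ E : IntermediateField ℚ Qb, FiniteDimensional ℚ E ∧
      ∀ σ : GQ, (∀ x ∈ E, σ x = x) → act σ y = y) :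
    ∃ (r : ℕ) (e : Module.Basis (Fin r) Qb (M → Qb)),
      (∀ i, e i ∈ descended hℓ hA h) ∧
      ∀ φ ∈ descended hℓ hA h, ∀ i, ∃ c : ratLocalizedAt ℓ,
        algebraMap (ratLocalizedAt ℓ) Qb c = e.repr φ i := by
  classical
  have : Fact ℓ.Prime := ⟨hℓ⟩
  have hfin : Module.Finite (ratLocalizedAt ℓ) (descended hℓ hA h) :=
    Module.Finite.iff_fg.mpr (descended_fg hℓ hA hact h hopen)
  obtain ⟨r, e0⟩ : Σ n : ℕ, Module.Basis (Fin n) (ratLocalizedAt ℓ) (descended hℓ hA h) :=
    Module.basisOfFiniteTypeTorsionFree'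
  let f : Fin r → M → Qb := fun i => ((e0 i : descended hℓ hA h) : M → Qb)
  have hfmem : ∀ i, f i ∈ descended hℓ hA h := fun i => (e0 i).2
  have hliR : LinearIndependent (ratLocalizedAt ℓ) f := by
    have := e0.linearIndependent.map' (Subalgebra.toSubmodule (descended hℓ hA h)).subtype
      (Submodule.ker_subtype _)
    exact this
  have hliQ : LinearIndependent Qb f :=
    linearIndependent_Qb ℓ hact.surj f (fun i σ y => (hfmem i).2 σ y) hliR
  -- every element of `Hs` is a `ℤ_(ℓ)`-combination of the `f i`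
  have hcomb : ∀ φ (hφ : φ ∈ descended hℓ hA h),
      φ = ∑ i, (algebraMap (ratLocalizedAt ℓ) Qb (e0.repr ⟨φ, hφ⟩ i)) • f i := by
    intro φ hφ
    have h1 := e0.sum_repr ⟨φ, hφ⟩
    have h2 := congrArg (Subalgebra.toSubmodule (descended hℓ hA h)).subtype h1
    rw [map_sum] at h2
    have h3 : φ = ∑ i, (e0.repr ⟨φ, hφ⟩ i) • f i := by
      have h2' : (Subalgebra.toSubmodule (descended hℓ hA h)).subtype ⟨φ, hφ⟩ = φ := rfl
      rw [h2'] at h2
      exact h2.symm.trans (Finset.sum_congr rfl fun i _ => rfl)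
    refine h3.trans (Finset.sum_congr rfl fun i _ => ?_)
    exact (algebraMap_smul Qb _ _).symm
  have hspan : Submodule.span Qb
      (((descended hℓ hA h).toSubring.toSubmonoid : Submonoid (M → Qb)) : Set (M → Qb)) = ⊤ :=
    Fermat.Agent.S19.Descent.span_eq_top_of_separates _
      (descended_separates hℓ hA hact h hopen)
  have htop : ⊤ ≤ Submodule.span Qb (Set.range f) := by
    rw [← hspan]
    apply Submodule.span_le.mpr
    intro φ hφ
    have hφ' : φ ∈ descended hℓ hA h := hφ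
    rw [hcomb φ hφ']
    exact Submodule.sum_mem _ fun i _ =>
      Submodule.smul_mem _ _ (Submodule.subset_span ⟨i, rfl⟩)
  refine ⟨r, Module.Basis.mk hliQ htop, fun i => ?_, fun φ hφ i => ?_⟩
  · rw [Module.Basis.mk_apply]
    exact hfmem i
  · refine ⟨e0.repr ⟨φ, hφ⟩ i, ?_⟩
    have h4 : (Module.Basis.mk hliQ htop).repr φ i
        = (Module.Basis.mk hliQ htop).repr (∑ j, (algebraMap (ratLocalizedAt ℓ) Qb
            (e0.repr ⟨φ, hφ⟩ j)) • (Module.Basis.mk hliQ htop) j) i := by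
      congr 2
      exact (hcomb φ hφ).trans (Finset.sum_congr rfl fun j _ => by rw [Module.Basis.mk_apply])
    rw [h4, Module.Basis.repr_sum_self]

end Order

/-! ### Descent of the coordinates: every `φ ∈ H'` has coordinates in `R^nr` -/

section Key

variable {ℓ : ℕ} (hℓ : ℓ.Prime) {A : ValuationSubring Qb} (hA : A.LiesOverPrime ℓ)
  {M : Type} [AddCommGroup M] [Fintype M] {act : GQ → M → M} (hact : IsGalAction act)
  {H' : Set (M → Qb)} (h : IsNrOrder ℓ A act H')
  {r : ℕ} (e : Module.Basis (Fin r) Qb (M → Qb))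
  (he : ∀ i, e i ∈ descended hℓ hA h)
  (hrepr : ∀ φ ∈ descended hℓ hA h, ∀ i, ∃ c : ratLocalizedAt ℓ,
    algebraMap (ratLocalizedAt ℓ) Qb c = e.repr φ i)

omit [Fintype M] in
theorem repr_equivFun_symm (c : Fin r → Qb) (i : Fin r) : e.repr (e.equivFun.symm c) i = c i := by
  rw [← Module.Basis.equivFun_apply, LinearEquiv.apply_symm_apply]

include hact he in
omit [Fintype M] in
/-- the semilinear action of `σ` in the coordinates of an equivariant basis -/
theorem twist_equivFun_symm (σ : GQ) (c : Fin r → Qb) :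
    (fun y => σ ((e.equivFun.symm c) (act σ⁻¹ y))) = e.equivFun.symm (fun i => σ (c i)) := by
  funext y
  rw [e.equivFun_symm_apply, e.equivFun_symm_apply]
  simp only [Finset.sum_apply, Pi.smul_apply, smul_eq_mul, map_sum, map_mul]
  refine Finset.sum_congr rfl fun i _ => ?_
  rw [← (he i).2 σ, act_act_inv hact]

open Classical in
include hℓ hA hact h he hrepr in
/-- **the key step** (minimal support + Frobenius): a combination `(1/ℓ) Σ sᵢ eᵢ ∈ H'` with
coefficients in `R^nr` has all coefficients in the maximal ideal. -/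
theorem key_nonunits : ∀ (k : ℕ) (s : Fin r → Qb),
    (Finset.univ.filter fun i => s i ∉ A.nonunits).card = k → (∀ i, IsUnr A (s i)) →
    e.equivFun.symm (fun i => s i * ((ℓ : Qb))⁻¹) ∈ H' → ∀ i, s i ∈ A.nonunits := by
  classical
  intro k
  induction k using Nat.strong_induction_on with
  | _ k IH =>
  intro s hcard hs hmem
  by_contra hne
  push Not at hne
  obtain ⟨i₀, hi₀⟩ := hne
  obtain ⟨φℓ, hφℓ⟩ := Fermat.Agent.N4F.Core.exists_isFrobeniusAt_of_liesOver ℓ hℓ A hA
  have hφD : φℓ ∈ A.decompositionSubgroup ℚ := hφℓ.mem_decompositionSubgroup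
  have hl0 : (ℓ : Qb) ≠ 0 := Nat.cast_ne_zero.mpr hℓ.ne_zero
  -- normalise `s i₀ = 1`
  have huU : IsUnr A (s i₀)⁻¹ := isUnr_inv (hs i₀) hi₀
  have hsi₀ : s i₀ ≠ 0 := fun h0 => hi₀ (by rw [h0]; exact zero_mem_nonunits)
  let s1 : Fin r → Qb := fun i => (s i₀)⁻¹ * s i
  have hs1 : ∀ i, IsUnr A (s1 i) := fun i => IsNrOrder.isUnr_mul huU (hs i)
  have hs1i₀ : s1 i₀ = 1 := inv_mul_cancel₀ hsi₀
  have hmem1 : e.equivFun.symm (fun i => s1 i * ((ℓ : Qb))⁻¹) ∈ H' := by
    have h1 : (fun i => s1 i * ((ℓ : Qb))⁻¹) = (s i₀)⁻¹ • (fun i => s i * ((ℓ : Qb))⁻¹) := by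
      funext i
      simp only [s1, Pi.smul_apply, smul_eq_mul, mul_assoc]
    rw [h1, map_smul]
    exact h.smul_mem huU hmem
  -- apply Frobenius and subtract
  let s2 : Fin r → Qb := fun i => φℓ (s1 i) - s1 i
  have hs2 : ∀ i, IsUnr A (s2 i) := fun i =>
    IsNrOrder.isUnr_sub (isUnr_apply hφD (hs1 i)) (hs1 i)
  have hmem2 : e.equivFun.symm (fun i => s2 i * ((ℓ : Qb))⁻¹) ∈ H' := by
    have h1 : (fun i => s2 i * ((ℓ : Qb))⁻¹)
        = (fun i => φℓ (s1 i * ((ℓ : Qb))⁻¹)) - (fun i => s1 i * ((ℓ : Qb))⁻¹) := by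
      funext i
      simp only [s2, Pi.sub_apply, map_mul, map_inv₀, map_natCast, sub_mul]
    rw [h1, map_sub, ← twist_equivFun_symm hℓ hA hact h e he φℓ]
    exact h.sub_mem (h.stable φℓ hφD _ hmem1) hmem1
  have hsub : (Finset.univ.filter fun i => s2 i ∉ A.nonunits)
      ⊆ (Finset.univ.filter fun i => s i ∉ A.nonunits) := by
    intro i hi
    rw [Finset.mem_filter] at hi ⊢
    refine ⟨Finset.mem_univ _, fun hsi => hi.2 ?_⟩
    have h1 : s1 i ∈ A.nonunits := mul_mem_nonunits huU.1 hsi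
    exact nonunits_sub
      (Fermat.Agent.S05.Inertia.apply_mem_nonunits_of_mem_decompositionSubgroup A hφD h1) h1
  have hssub : (Finset.univ.filter fun i => s2 i ∉ A.nonunits)
      ⊂ (Finset.univ.filter fun i => s i ∉ A.nonunits) := by
    refine (Finset.ssubset_iff_of_subset hsub).mpr ⟨i₀, ?_, ?_⟩
    · rw [Finset.mem_filter]; exact ⟨Finset.mem_univ _, hi₀⟩
    · rw [Finset.mem_filter]
      intro hi
      apply hi.2
      show φℓ (s1 i₀) - s1 i₀ ∈ A.nonunits
      rw [hs1i₀, map_one, sub_self]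
      exact zero_mem_nonunits
  have hlt : (Finset.univ.filter fun i => s2 i ∉ A.nonunits).card < k := by
    rw [← hcard]; exact Finset.card_lt_card hssub
  have hs2n : ∀ i, s2 i ∈ A.nonunits := IH _ hlt s2 rfl hs2 hmem2
  -- the coefficients are integers modulo `𝔪_A`
  have hint : ∀ i, ∃ t : ℤ, s1 i - (t : Qb) ∈ A.nonunits := fun i => by
    apply exists_int_sub_mem_nonunits hℓ hA (hs1 i).1
    have h1 := Fermat.Agent.N4.FrobDensity.sub_pow_mem_nonunits_of_isFrobeniusAt hφℓ (hs1 i).1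
    have h2 : s1 i ^ ℓ - s1 i = s2 i - (φℓ (s1 i) - s1 i ^ ℓ) := by
      simp only [s2]; ring
    rw [h2]
    exact nonunits_sub (hs2n i) h1
  choose t ht using hint
  let w : Fin r → Qb := fun i => (s1 i - (t i : Qb)) * ((ℓ : Qb))⁻¹
  have hw : ∀ i, IsUnr A (w i) := fun i =>
    isUnr_mul_inv hℓ hA (IsNrOrder.isUnr_sub (hs1 i) (IsNrOrder.isUnr_intCast _)) (ht i)
  have hmemt : e.equivFun.symm (fun i => (t i : Qb) * ((ℓ : Qb))⁻¹) ∈ H' := by
    have h1 : (fun i => (t i : Qb) * ((ℓ : Qb))⁻¹) = (fun i => s1 i * ((ℓ : Qb))⁻¹) - w := by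
      funext i
      simp only [w, Pi.sub_apply]
      ring
    rw [h1, map_sub]
    refine h.sub_mem hmem1 ?_
    rw [e.equivFun_symm_apply]
    exact h.sum_mem _ fun i _ => h.smul_mem (hw i) (he i).1
  have hequiv : ∀ (σ : GQ) (y : M),
      e.equivFun.symm (fun i => (t i : Qb) * ((ℓ : Qb))⁻¹) (act σ y)
        = σ (e.equivFun.symm (fun i => (t i : Qb) * ((ℓ : Qb))⁻¹) y) := by
    intro σ y
    rw [e.equivFun_symm_apply]
    simp only [Finset.sum_apply, Pi.smul_apply, smul_eq_mul, map_sum, map_mul, map_intCast,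
      map_inv₀, map_natCast]
    exact Finset.sum_congr rfl fun i _ => by rw [(he i).2 σ y]
  obtain ⟨c, hc⟩ := hrepr _ ⟨hmemt, hequiv⟩ i₀
  rw [repr_equivFun_symm] at hc
  have htA : (t i₀ : Qb) * ((ℓ : Qb))⁻¹ ∈ A := by
    rw [← hc]; exact (isUnr_algebraMap hℓ hA c).1
  have htn : (t i₀ : Qb) ∈ A.nonunits := by
    have h1 : (t i₀ : Qb) = ((t i₀ : Qb) * ((ℓ : Qb))⁻¹) * (ℓ : Qb) := by
      field_simp
    rw [h1]
    exact mul_mem_nonunits htA hA
  have h1n : (1 : Qb) ∈ A.nonunits := by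
    have h1 : (1 : Qb) = (s1 i₀ - (t i₀ : Qb)) + (t i₀ : Qb) := by rw [hs1i₀]; ring
    rw [h1]
    exact nonunits_add (ht i₀) htn
  exact one_not_mem_nonunits h1n

include hℓ hA hact h he hrepr in
/-- **descent of the coordinates**: every `φ ∈ H'` has coordinates in `R^nr` with respect to a
`ℤ_(ℓ)`-basis of the descended order. -/
theorem isUnr_repr {φ : M → Qb} (hφ : φ ∈ H') (i : Fin r) : IsUnr A (e.repr φ i) := by
  have hl0 : (ℓ : Qb) ≠ 0 := Nat.cast_ne_zero.mpr hℓ.ne_zero
  have hfix : ∀ i, ∀ σ ∈ A.inertiaSubgroupIn ℚ, σ (e.repr φ i) = e.repr φ i := fun i σ hσ =>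
    repr_apply_fixed hact e σ (fun j y => (he j).2 σ y) (h.inertia φ hφ σ hσ) i
  obtain ⟨m, hm⟩ := exists_pow_mul_mem_fin hℓ hA (fun i => e.repr φ i)
  have hall : ∀ m : ℕ, (∀ i, (ℓ : Qb) ^ m * e.repr φ i ∈ A) → ∀ i, e.repr φ i ∈ A := by
    intro m
    induction m with
    | zero =>
      intro h0 i
      have := h0 i
      rwa [pow_zero, one_mul] at this
    | succ m ih =>
      intro hm1
      apply ih
      have hs : ∀ i, IsUnr A ((ℓ : Qb) ^ (m + 1) * e.repr φ i) := fun i =>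
        ⟨hm1 i, fun σ hσ => by rw [map_mul, map_pow, map_natCast, hfix i σ hσ]⟩
      have hmem : e.equivFun.symm
          (fun i => ((ℓ : Qb) ^ (m + 1) * e.repr φ i) * ((ℓ : Qb))⁻¹) ∈ H' := by
        have h1 : (fun i => ((ℓ : Qb) ^ (m + 1) * e.repr φ i) * ((ℓ : Qb))⁻¹)
            = ((ℓ : Qb) ^ m) • (e.equivFun φ) := by
          funext i
          rw [Pi.smul_apply, Module.Basis.equivFun_apply, smul_eq_mul, pow_succ]
          field_simp
        rw [h1, map_smul, LinearEquiv.symm_apply_apply]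
        exact h.smul_mem (isUnr_pow (IsNrOrder.isUnr_natCast ℓ) m) hφ
      have hn := key_nonunits hℓ hA hact h e he hrepr _ _ rfl hs hmem
      intro i
      have h2 := (isUnr_mul_inv hℓ hA (hs i) (hn i)).1
      have h3 : (ℓ : Qb) ^ (m + 1) * e.repr φ i * ((ℓ : Qb))⁻¹ = (ℓ : Qb) ^ m * e.repr φ i := by
        rw [pow_succ]
        field_simp
      rwa [h3] at h2
  exact ⟨hall m hm i, hfix i⟩

omit [AddCommGroup M] in
/-- independence of the products `eᵢ(y) eⱼ(y')` -/
theorem eq_zero_of_sum_mul_eq_zero (d : Fin r → Fin r → Qb)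
    (hd : ∀ y y' : M, ∑ i, ∑ j, d i j * (e i y * e j y') = 0) : ∀ i j, d i j = 0 := by
  have hli := e.linearIndependent
  rw [Fintype.linearIndependent_iff] at hli
  have h1 : ∀ y' i, ∑ j, d i j * e j y' = 0 := by
    intro y'
    apply hli (fun i => ∑ j, d i j * e j y')
    funext y
    simp only [Finset.sum_apply, Pi.smul_apply, smul_eq_mul, Pi.zero_apply]
    rw [← hd y y']
    refine Finset.sum_congr rfl fun i _ => ?_
    rw [Finset.sum_mul]
    exact Finset.sum_congr rfl fun j _ => by ring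
  intro i
  apply hli (fun j => d i j)
  funext y'
  simp only [Finset.sum_apply, Pi.smul_apply, smul_eq_mul, Pi.zero_apply]
  exact h1 y' i

include hℓ hA hact h he hrepr in
/-- **the descended order is closed under comultiplication** -/
theorem descended_comul {φ : M → Qb} (hφ : φ ∈ descended hℓ hA h) :
    ∃ (n : ℕ) (a b : Fin n → M → Qb), (∀ j, a j ∈ descended hℓ hA h) ∧
      (∀ j, b j ∈ descended hℓ hA h) ∧ ∀ y y' : M, φ (y + y') = ∑ j, a j y * b j y' := by
  obtain ⟨n, a, b, ha, hb, hab⟩ := h.comul φ hφ.1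
  let c : Fin r → Fin r → Qb := fun i j => ∑ k, e.repr (a k) i * e.repr (b k) j
  have hcU : ∀ i j, IsUnr A (c i j) := fun i j =>
    IsNrOrder.isUnr_sum _ fun k _ =>
      IsNrOrder.isUnr_mul (isUnr_repr hℓ hA hact h e he hrepr (ha k) i)
        (isUnr_repr hℓ hA hact h e he hrepr (hb k) j)
  have hval : ∀ (ψ : M → Qb) (y : M), ψ y = ∑ i, e.repr ψ i * e i y := by
    intro ψ y
    have h1 := congrFun (e.sum_repr ψ) y
    rw [← h1]
    simp only [Finset.sum_apply, Pi.smul_apply, smul_eq_mul]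
  have hexp : ∀ y y', φ (y + y') = ∑ i, ∑ j, c i j * (e i y * e j y') := by
    intro y y'
    rw [hab]
    have h1 : ∀ k, a k y * b k y'
        = ∑ i, ∑ j, (e.repr (a k) i * e.repr (b k) j) * (e i y * e j y') := by
      intro k
      rw [hval (a k) y, hval (b k) y', Finset.sum_mul_sum]
      exact Finset.sum_congr rfl fun i _ => Finset.sum_congr rfl fun j _ => by ring
    rw [Finset.sum_congr rfl fun k _ => h1 k, Finset.sum_comm]
    refine Finset.sum_congr rfl fun i _ => ?_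
    rw [Finset.sum_comm]
    refine Finset.sum_congr rfl fun j _ => ?_
    rw [← Finset.sum_mul]
  have hfix : ∀ (σ : GQ) i j, σ (c i j) = c i j := by
    intro σ
    have h0 := eq_zero_of_sum_mul_eq_zero e (fun i j => σ (c i j) - c i j) ?_
    · intro i j
      exact sub_eq_zero.mp (h0 i j)
    intro z z'
    obtain ⟨y, rfl⟩ := act_surjective hact σ z
    obtain ⟨y', rfl⟩ := act_surjective hact σ z'
    have h1 : φ (act σ y + act σ y') = σ (φ (y + y')) := by rw [← hact.add, hφ.2]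
    have h2 := hexp (act σ y) (act σ y')
    rw [h1, hexp y y'] at h2
    simp only [map_sum, map_mul] at h2
    simp only [sub_mul, Finset.sum_sub_distrib]
    rw [sub_eq_zero, ← h2]
    exact Finset.sum_congr rfl fun i _ => Finset.sum_congr rfl fun j _ => by
      rw [(he i).2 σ y, (he j).2 σ y']
  have hrat : ∀ i j, ∃ q : ratLocalizedAt ℓ, algebraMap (ratLocalizedAt ℓ) Qb q = c i j :=
    fun i j => exists_ratLoc_of_fixed hℓ hA (hcU i j).1 (fun σ => hfix σ i j)
  choose q hq using hrat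
  refine ⟨r * r,
    fun p => (q (finProdFinEquiv.symm p).1 (finProdFinEquiv.symm p).2) •
      (e (finProdFinEquiv.symm p).1 : M → Qb),
    fun p => e (finProdFinEquiv.symm p).2,
    fun p => Subalgebra.smul_mem _ (he _) _, fun p => he _, fun y y' => ?_⟩
  rw [hexp, ← Fintype.sum_prod_type']
  refine Fintype.sum_equiv finProdFinEquiv _ _ fun x => ?_
  show c x.1 x.2 * (e x.1 y * e x.2 y') =
    (q (finProdFinEquiv.symm (finProdFinEquiv x)).1 (finProdFinEquiv.symm (finProdFinEquiv x)).2 •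
      (e (finProdFinEquiv.symm (finProdFinEquiv x)).1 : M → Qb)) y *
      e (finProdFinEquiv.symm (finProdFinEquiv x)).2 y'
  rw [Equiv.symm_apply_apply, Pi.smul_apply, Algebra.smul_def, hq]
  ring

end Key

/-! ### The main theorem -/

/-- **ORD-B: an `R^nr`-order descends to a Hopf order over `ℤ_(ℓ)`.**  The Hopf order is
`descended`: the `G_ℚ`-equivariant functions of `H'`. -/
theorem exists_isHopfOrder_of_isNrOrder (ℓ : ℕ) [Fact ℓ.Prime] (A : ValuationSubring Qb)
    (hA : A.LiesOverPrime ℓ) {M : Type} [AddCommGroup M] [Finite M] {act : GQ → M → M}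
    (hact : IsGalAction act)
    (hopen : ∀ y : M, ∃ E : IntermediateField ℚ Qb, FiniteDimensional ℚ E ∧
      ∀ σ : GQ, (∀ x ∈ E, σ x = x) → act σ y = y)
    {H' : Set (M → Qb)} (h : IsNrOrder ℓ A act H') :
    ∃ Hs : Subalgebra (ratLocalizedAt ℓ) (M → Qb), IsHopfOrder ℓ act Hs := by
  have hℓ : ℓ.Prime := Fact.out
  cases nonempty_fintype M
  obtain ⟨r, e, he, hrepr⟩ := exists_basis_descended hℓ hA hact h hopen
  exact ⟨descended hℓ hA h,
    ⟨fun φ hφ σ y => hφ.2 σ y, descended_fg hℓ hA hact h hopen,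
      descended_separates hℓ hA hact h hopen,
      fun φ hφ => descended_comul hℓ hA hact h e he hrepr hφ⟩⟩

/-! ### Wiring: `Coord.OrderTarget` from the deliverable of ORD-A -/

/-- **Deliverable of ORD-A**: every finite `G_ℚ`-stable subgroup `M` of `Jb` carries an
`R^nr`-order, given a coordinate system. -/
def NrOrderTarget : Prop :=
  ∀ (ℓ : ℕ) [Fact ℓ.Prime] (A : ValuationSubring Qb), A.LiesOverPrime ℓ →
    ∀ (Jb : Type) [AddCommGroup Jb] (actJ : GQ → Jb → Jb), IsGalAction actJ →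
      CoordSystem ℓ A Jb actJ →
      (∀ y : Jb, ∃ E : IntermediateField ℚ Qb, FiniteDimensional ℚ E ∧
        ∀ σ : GQ, (∀ x ∈ E, σ x = x) → actJ σ y = y) →
      ∀ (M : AddSubgroup Jb), Finite M → ∀ (hM : ∀ σ, ∀ y ∈ M, actJ σ y ∈ M),
        ∃ H' : Set (M → Qb),
          IsNrOrder ℓ A (fun σ (y : M) => (⟨actJ σ y, hM σ y y.2⟩ : M)) H'

/-- the restriction of a Galois action to a stable subgroup is a Galois action -/
theorem isGalAction_restrict {Jb : Type} [AddCommGroup Jb] {actJ : GQ → Jb → Jb}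
    (hact : IsGalAction actJ) (M : AddSubgroup Jb) (hM : ∀ σ, ∀ y ∈ M, actJ σ y ∈ M) :
    IsGalAction (fun σ (y : M) => (⟨actJ σ y, hM σ y y.2⟩ : M)) where
  one y := Subtype.ext (hact.one y.1)
  mul σ τ y := Subtype.ext (hact.mul σ τ y.1)
  add σ y y' := Subtype.ext (hact.add σ y.1 y'.1)

/-- **`OrderTarget` = ORD-B ∘ ORD-A.** -/
theorem orderTarget_of_nrOrderTarget (hNr : NrOrderTarget) : OrderTarget := by
  intro ℓ _ A hA Jb _ actJ hactJ C hopen M hMfin hM
  obtain ⟨H', hH'⟩ := hNr ℓ A hA Jb actJ hactJ C hopen M hMfin hM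
  have : Finite M := hMfin
  refine exists_isHopfOrder_of_isNrOrder ℓ A hA (isGalAction_restrict hactJ M hM) ?_ hH'
  intro y
  obtain ⟨E, hE, hfix⟩ := hopen y.1
  exact ⟨E, hE, fun σ hσ => Subtype.ext (hfix σ hσ)⟩

end Fermat.Agent.S19.Order.DescentNr
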