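/-
S19 / ORD-A (order layer) — **the abstract interface of the ORD-A leaves** (helper6; approved by
the blueprint owner helper22, board #2221).  Definitions only.

`M` is a finite abelian group with an action `act` of `G_ℚ`, `A` a valuation subring of `ℚ̄` over
`ℓ`, `I = A.inertiaSubgroupIn ℚ`, `D = A.decompositionSubgroup ℚ`, `R^nr = A ∩ ℚ̄^I` (`IsUnr A`).

A `CosetCoords ℓ A act g` packages what the contract `Coord.CoordSystem` gives on a finite
`G_ℚ`-stable subgroup `M ≤ Jb` once centres `x_c ∈ U` of the cosets `c` of `M` modulo the kernel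
of reduction `J1` have been chosen (leaf [O1]: `CoordSystem + M ⇒ CosetCoords`):

* `rel y y'`    : `y` and `y'` lie in the same coset of `M ∩ J1` (an `I`-stable equivalence,
                  compatible with `+` and with the decomposition group);
* `Co n y a`    : `a ∈ 𝔪_A^g` represents the level-`n` coordinate `T_n(y - x_{c(y)})`
                  (`Co n y a := CS.IsCoord n (y - x y) a`, NO ramification bound inside);
* `e`           : a global ramification bound; `stab` delivers representatives with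
                  `a i ^ e ∈ ℓA` (and then, for `n ≥ 1`, every level-`n` representative satisfies the
                  bound, see `Stabilise.bound_of_Co`);
* `congr`, `of_congr`, `mono`, `nonunit` : (C0), (C2), (C4);
* `inertia`     : (C3) for the inertia group + `U_fixed`;
* `stab`        : (C9) `rational_stab` (+ existence (C1) + the bound);
* `separated`   : (C6) + the group law: two points of one coset with a common representative at
                  every level are equal;
* `add`         : (C5) on cosets: `T_n(y + y' - x_{c+c'}) = G(T_n(y - x_c), T_n(y' - x_{c'}))`,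
                  `G = F(F(·,·), d_{cc'})` over `R^nr`;
* `twist`       : (C3) on cosets, twisted equivariance under the decomposition group.

`Omax` is the maximal order (the `I`-equivariant `A`-valued functions), `Happ n` the functions
that are, coset by coset, congruent modulo `ℓⁿA` to a polynomial over `R^nr` in the level-`n`
coordinates, and `Hinf = ⋂ₙ Happ n` is the `R^nr`-order `H'` of the blueprint.

`LagrangeHyp` is the statement of leaf [A1] (equivariant Lagrange interpolation) in the exact form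
consumed by `Stabilise.lean`.
-/
import Mathlib
import Fermat.Prelude.Def_FLTPrelim_Ramification
import Fermat.Agent.S19.Abs.Defs
import Fermat.Agent.S19.Coord.Defs

set_option autoImplicit false

namespace Fermat.Agent.S19.Order.Stabilise

open Fermat.Agent.S19.Abs Fermat.Agent.S19.Coord

/-- Level-wise coordinates on a finite `G_ℚ`-module partitioned into cosets. -/
structure CosetCoords (ℓ : ℕ) (A : ValuationSubring Qb) {M : Type} [AddCommGroup M]
    (act : GQ → M → M) (g : ℕ) where
  /-- same coset modulo the kernel of reduction -/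
  rel : M → M → Prop
  rel_equiv : Equivalence rel
  /-- the cosets are stable under inertia -/
  rel_inertia : ∀ σ ∈ A.inertiaSubgroupIn ℚ, ∀ y, rel (act σ y) y
  rel_add : ∀ {y y₀ y' y₀'}, rel y y₀ → rel y' y₀' → rel (y + y') (y₀ + y₀')
  rel_act : ∀ σ ∈ A.decompositionSubgroup ℚ, ∀ {y y₀}, rel y y₀ → rel (act σ y) (act σ y₀)
  /-- `Co n y a`: `a` represents the level-`n` coordinate of `y` (relative to the centre of its
  coset) -/
  Co : ℕ → M → (Fin g → Qb) → Prop
  /-- the global ramification bound -/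
  e : ℕ
  e_pos : 0 < e
  nonunit : ∀ {n y a}, Co n y a → ∀ i, a i ∈ A.nonunits
  congr : ∀ {n y a a'}, Co n y a → Co n y a' → ∀ i, a i - a' i ∈ lpow A ℓ n
  of_congr : ∀ {n y a a'}, Co n y a → (∀ i, a' i ∈ A.nonunits) →
    (∀ i, a i - a' i ∈ lpow A ℓ n) → Co n y a'
  mono : ∀ {n y a}, Co (n + 1) y a → Co n y a
  /-- strict equivariance under the inertia group -/
  inertia : ∀ σ ∈ A.inertiaSubgroupIn ℚ, ∀ {n y a}, Co n y a →
    Co n (act σ y) (fun i => σ (a i))
  /-- existence + rationality + bound: a representative of ramification `≤ e` fixed by the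
  inertia-stabiliser of the point -/
  stab : ∀ n y, ∃ a, Co n y a ∧ (∀ i, a i ^ e ∈ lpow A ℓ 1) ∧
    ∀ σ ∈ A.inertiaSubgroupIn ℚ, act σ y = y → ∀ i, σ (a i) = a i
  /-- separation inside a coset -/
  separated : ∀ {y y'}, rel y y' → (∀ n, ∃ a, Co n y a ∧ Co n y' a) → y = y'
  /-- the group law on cosets, polynomial over `R^nr` -/
  add : ∀ n y₀ y₀', ∃ G : Fin g → MvPolynomial (Fin g ⊕ Fin g) Qb, (∀ i, UnrCoeffs A (G i)) ∧
    ∀ y y', rel y y₀ → rel y' y₀' → ∀ a a', Co n y a → Co n y' a' →
      (∀ i, a i ^ e ∈ lpow A ℓ 1) → (∀ i, a' i ^ e ∈ lpow A ℓ 1) →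
      Co n (y + y') (fun i => MvPolynomial.aeval (Sum.elim a a') (G i))
  /-- twisted equivariance under the decomposition group, on cosets -/
  twist : ∀ σ ∈ A.decompositionSubgroup ℚ, ∀ n y₀, ∃ Ψ : Fin g → MvPolynomial (Fin g) Qb,
    (∀ i, UnrCoeffs A (Ψ i)) ∧ ∀ y, rel y y₀ → ∀ a, Co n y a → (∀ i, a i ^ e ∈ lpow A ℓ 1) →
      Co n (act σ y) (fun i => σ (MvPolynomial.aeval a (Ψ i)))

variable {ℓ : ℕ} {A : ValuationSubring Qb} {M : Type} [AddCommGroup M] {act : GQ → M → M} {g : ℕ}

/-- (C1) existence of representatives (a consequence of `stab`). -/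
theorem CosetCoords.exists_rep (CC : CosetCoords ℓ A act g) (n : ℕ) (y : M) :
    ∃ a, CC.Co n y a := by
  obtain ⟨a, ha, -⟩ := CC.stab n y
  exact ⟨a, ha⟩

/-- The maximal order: `A`-valued functions on `M` equivariant under the inertia group. -/
def Omax (A : ValuationSubring Qb) {M : Type} (act : GQ → M → M) : Set (M → Qb) :=
  {φ | (∀ y, φ y ∈ A) ∧ ∀ σ ∈ A.inertiaSubgroupIn ℚ, ∀ y, φ (act σ y) = σ (φ y)}

/-- Functions approximable at level `n`: on every coset congruent modulo `ℓⁿA` to a polynomial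
with coefficients in `R^nr` in the level-`n` coordinates. -/
def Happ (CC : CosetCoords ℓ A act g) (n : ℕ) : Set (M → Qb) :=
  {φ | φ ∈ Omax A act ∧ ∀ y₀, ∃ P : MvPolynomial (Fin g) Qb, UnrCoeffs A P ∧
    ∀ y, CC.rel y y₀ → ∀ a, CC.Co n y a → φ y - MvPolynomial.aeval a P ∈ lpow A ℓ n}

/-- The `R^nr`-order `H'`: functions approximable at every level. -/
def Hinf (CC : CosetCoords ℓ A act g) : Set (M → Qb) :=
  {φ | ∀ n, φ ∈ Happ CC n}

/-- Leaf [A1] (equivariant Lagrange interpolation) in the form consumed by [A2]: on an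
inertia-stable subset `Z` of `M`, equivariant integral functions `f₁, …, f_k` separating the
points of `Z` modulo `ℓ^m A` interpolate `ℓ^(m · #M) ψ` for every equivariant integral `ψ`, by a
polynomial with coefficients in `R^nr`. -/
def LagrangeHyp (ℓ : ℕ) (A : ValuationSubring Qb) {M : Type} (act : GQ → M → M) : Prop :=
  ∀ (Z : Set M), (∀ σ ∈ A.inertiaSubgroupIn ℚ, ∀ y ∈ Z, act σ y ∈ Z) →
  ∀ (k : ℕ) (f : M → Fin k → Qb), (∀ y ∈ Z, ∀ i, f y i ∈ A) →
    (∀ σ ∈ A.inertiaSubgroupIn ℚ, ∀ y ∈ Z, ∀ i, f (act σ y) i = σ (f y i)) →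
  ∀ (m : ℕ), (∀ y ∈ Z, ∀ y' ∈ Z, y ≠ y' → ∃ i, f y i - f y' i ∉ lpow A ℓ m) →
  ∀ (ψ : M → Qb), (∀ y ∈ Z, ψ y ∈ A) →
    (∀ σ ∈ A.inertiaSubgroupIn ℚ, ∀ y ∈ Z, ψ (act σ y) = σ (ψ y)) →
  ∃ P : MvPolynomial (Fin k) Qb, UnrCoeffs A P ∧
    ∀ y ∈ Z, MvPolynomial.aeval (f y) P = (ℓ : Qb) ^ (m * Nat.card M) * ψ y

end Fermat.Agent.S19.Order.Stabilise
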