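/-
S19 / ORD-A, leaf [A1]: **equivariant Lagrange interpolation** (DAG v1 of helper22; paper proof
helper26, board #2207 (e)).

`M` is a finite set with an action `act` of `G_ℚ`, `A` a valuation subring of `ℚ̄`,
`I = A.inertiaSubgroupIn ℚ`, `R^nr = A ∩ ℚ̄^I` (`IsUnr A`).  Let `Z ⊆ M` be `I`-stable and
`f₁, …, f_k : M → ℚ̄` be `A`-valued and `I`-equivariant on `Z`, separating the points of `Z`
modulo `ℓ^m A`.  Then for every `A`-valued `I`-equivariant `ψ` on `Z` there is a polynomial `P`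
with coefficients in `R^nr` such that `P(f(y)) = ℓ^(m · #M) ψ(y)` for all `y ∈ Z`
(`lagrangeHyp`: exactly the statement `Stabilise.LagrangeHyp` of `Order/CosetCoords.lean`).

Construction: `P = ∑_{y ∈ Z} ψ(y) ∏_{y' : M} fac y y'`, where for `y ≠ y'` in `Z`
`fac y y' = (T_i - f_i(y')) · ℓ^m/(f_i(y) - f_i(y'))` with `i` the LEAST separating index (so that
`i(σy, σy') = i(y, y')` and `σ(fac y y') = fac (σy) (σy')`), and `fac y y' = ℓ^m` otherwise (so that
each of the `#M` factors contributes exactly `ℓ^m` at the point `f(y)`).  `x ∉ ℓ^m A ⇒ ℓ^m/x ∈ A`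
because `A` is a valuation ring; `σ P = P` for `σ ∈ I` by reindexing along the permutation
`act σ` of `M`, hence the coefficients of `P` lie in `A^I = R^nr`.
-/
import Mathlib
import Fermat.Agent.S19.Coord.Defs
import Fermat.Agent.S19.Order.UnrPoly
import Fermat.Agent.S19.Order.CosetCoords

set_option autoImplicit false

namespace Fermat.Agent.S19.Order.Lagrange

open Fermat.Agent.S19.Abs Fermat.Agent.S19.Coord Fermat.Agent.S19.Order.UnrPoly
open Fermat.Agent.S19.Order.Stabilise MvPolynomial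

variable {ℓ : ℕ} {A : ValuationSubring Qb}

/-! ### Preliminaries on `I ⊆ D` and `ℓ^m A` -/

theorem mem_decomposition_of_mem_inertia {σ : GQ} (hσ : σ ∈ A.inertiaSubgroupIn ℚ) :
    σ ∈ A.decompositionSubgroup ℚ := by
  unfold ValuationSubring.inertiaSubgroupIn at hσ
  obtain ⟨τ, -, rfl⟩ := hσ
  exact τ.2

theorem apply_mem_lpow_of_inertia {σ : GQ} (hσ : σ ∈ A.inertiaSubgroupIn ℚ) {n : ℕ} {x : Qb}
    (hx : x ∈ lpow A ℓ n) : σ x ∈ lpow A ℓ n := by
  obtain ⟨a, ha, rfl⟩ := hx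
  exact ⟨σ a, apply_mem_of_mem_decomposition (mem_decomposition_of_mem_inertia hσ) ha,
    by rw [map_mul, map_pow, map_natCast]⟩

theorem apply_mem_lpow_iff {σ : GQ} (hσ : σ ∈ A.inertiaSubgroupIn ℚ) {n : ℕ} {x : Qb} :
    σ x ∈ lpow A ℓ n ↔ x ∈ lpow A ℓ n := by
  refine ⟨fun h => ?_, apply_mem_lpow_of_inertia hσ⟩
  have h1 := apply_mem_lpow_of_inertia (inv_mem hσ) h
  have h2 : σ⁻¹ (σ x) = x := σ.symm_apply_apply x
  rwa [h2] at h1

/-- `x ∉ ℓ^m A ⇒ ℓ^m / x ∈ A` (`A` is a valuation ring). -/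
theorem div_mem_of_not_mem_lpow {m : ℕ} {x : Qb} (hx : x ∉ lpow A ℓ m) :
    (ℓ : Qb) ^ m / x ∈ A := by
  rcases A.mem_or_inv_mem ((ℓ : Qb) ^ m / x) with h | h
  · exact h
  · by_cases h0 : (ℓ : Qb) ^ m = 0
    · rw [h0, zero_div]; exact A.zero_mem
    · exfalso
      apply hx
      refine ⟨((ℓ : Qb) ^ m / x)⁻¹, h, ?_⟩
      have hx0 : x ≠ 0 := by
        rintro rfl
        exact hx ⟨0, A.zero_mem, by simp⟩
      field_simp

theorem ne_zero_of_not_mem_lpow {m : ℕ} {x : Qb} (hx : x ∉ lpow A ℓ m) : x ≠ 0 := by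
  rintro rfl
  exact hx ⟨0, A.zero_mem, by simp⟩

/-! ### Polynomials with coefficients in `A` -/

section AR

variable {k : ℕ}

/-- the subring of polynomials with coefficients in `A` -/
noncomputable def AR (A : ValuationSubring Qb) (k : ℕ) : Subring (MvPolynomial (Fin k) Qb) :=
  (MvPolynomial.map (A.subtype : A →+* Qb)).range

theorem C_mem_AR {a : Qb} (ha : a ∈ A) : (C a : MvPolynomial (Fin k) Qb) ∈ AR A k :=
  ⟨C ⟨a, ha⟩, by simp⟩

theorem X_mem_AR (i : Fin k) : (X i : MvPolynomial (Fin k) Qb) ∈ AR A k :=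
  ⟨X i, by simp⟩

theorem coeff_mem_of_mem_AR {P : MvPolynomial (Fin k) Qb} (hP : P ∈ AR A k) (d : Fin k →₀ ℕ) :
    P.coeff d ∈ A := by
  obtain ⟨P₀, rfl⟩ := hP
  rw [coeff_map]
  exact (P₀.coeff d).2

end AR

/-! ### The Lagrange factors -/

section Factors

variable {M : Type} {k : ℕ}

/-- the set of indices separating `y` and `y'` modulo `ℓ^m A` -/
noncomputable def sepSet (A : ValuationSubring Qb) (ℓ m : ℕ) (f : M → Fin k → Qb) (y y' : M) :
    Finset (Fin k) := by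
  classical exact Finset.univ.filter fun i => f y i - f y' i ∉ lpow A ℓ m

theorem mem_sepSet {m : ℕ} {f : M → Fin k → Qb} {y y' : M} {i : Fin k} :
    i ∈ sepSet A ℓ m f y y' ↔ f y i - f y' i ∉ lpow A ℓ m := by
  classical
  simp [sepSet]

/-- the factor for a given index -/
noncomputable def facAt (ℓ m : ℕ) (f : M → Fin k → Qb) (i : Fin k) (y y' : M) :
    MvPolynomial (Fin k) Qb :=
  (X i - C (f y' i)) * C ((ℓ : Qb) ^ m / (f y i - f y' i))

/-- the factor for the least index of a set of indices -/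
noncomputable def facS (ℓ m : ℕ) (f : M → Fin k → Qb) (S : Finset (Fin k)) (y y' : M) :
    MvPolynomial (Fin k) Qb :=
  if h : S.Nonempty then facAt ℓ m f (S.min' h) y y' else C ((ℓ : Qb) ^ m)

open Classical in
/-- the Lagrange factor -/
noncomputable def fac (A : ValuationSubring Qb) (ℓ m : ℕ) (Z : Set M) (f : M → Fin k → Qb)
    (y y' : M) : MvPolynomial (Fin k) Qb :=
  if y ∈ Z ∧ y' ∈ Z then facS ℓ m f (sepSet A ℓ m f y y') y y' else C ((ℓ : Qb) ^ m)

variable {m : ℕ} {Z : Set M} {f : M → Fin k → Qb}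

theorem pow_mem_A (m : ℕ) : (ℓ : Qb) ^ m ∈ A := A.pow_mem (natCast_mem A ℓ) m

theorem fac_mem_AR (hfA : ∀ y ∈ Z, ∀ i, f y i ∈ A) (y y' : M) : fac A ℓ m Z f y y' ∈ AR A k := by
  classical
  unfold fac
  split_ifs with h
  · unfold facS
    split_ifs with hS
    · have hmem := Finset.min'_mem _ hS
      rw [mem_sepSet] at hmem
      unfold facAt
      exact mul_mem (sub_mem (X_mem_AR _) (C_mem_AR (hfA y' h.2 _)))
        (C_mem_AR (div_mem_of_not_mem_lpow hmem))
    · exact C_mem_AR (pow_mem_A m)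
  · exact C_mem_AR (pow_mem_A m)

theorem aeval_fac_self (y y' : M) : aeval (f y) (fac A ℓ m Z f y y') = (ℓ : Qb) ^ m := by
  classical
  unfold fac
  split_ifs with h
  · unfold facS
    split_ifs with hS
    · have hmem := Finset.min'_mem _ hS
      rw [mem_sepSet] at hmem
      have h0 := ne_zero_of_not_mem_lpow hmem
      unfold facAt
      simp only [map_mul, map_sub, aeval_X, aeval_C, Algebra.algebraMap_self, RingHom.id_apply]
      field_simp
    · simp
  · simp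

theorem aeval_fac_other (hsep : ∀ y ∈ Z, ∀ y' ∈ Z, y ≠ y' → ∃ i, f y i - f y' i ∉ lpow A ℓ m)
    {y y' : M} (hy : y ∈ Z) (hy' : y' ∈ Z) (hne : y ≠ y') :
    aeval (f y') (fac A ℓ m Z f y y') = 0 := by
  classical
  unfold fac
  rw [if_pos ⟨hy, hy'⟩]
  unfold facS
  have hS : (sepSet A ℓ m f y y').Nonempty := by
    obtain ⟨i, hi⟩ := hsep y hy y' hy' hne
    exact ⟨i, mem_sepSet.2 hi⟩
  rw [dif_pos hS]
  unfold facAt
  simp

/-! ### Equivariance of the factors -/

variable {act : GQ → M → M}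

theorem mem_iff_act_mem (hone : ∀ y, act 1 y = y)
    (hmul : ∀ σ τ y, act (σ * τ) y = act σ (act τ y))
    (hZ : ∀ σ ∈ A.inertiaSubgroupIn ℚ, ∀ y ∈ Z, act σ y ∈ Z)
    {σ : GQ} (hσ : σ ∈ A.inertiaSubgroupIn ℚ) (y : M) : act σ y ∈ Z ↔ y ∈ Z := by
  refine ⟨fun h => ?_, hZ σ hσ y⟩
  have h1 := hZ σ⁻¹ (inv_mem hσ) _ h
  rwa [← hmul, inv_mul_cancel, hone] at h1

theorem sepSet_act (hfI : ∀ σ ∈ A.inertiaSubgroupIn ℚ, ∀ y ∈ Z, ∀ i, f (act σ y) i = σ (f y i))
    {σ : GQ} (hσ : σ ∈ A.inertiaSubgroupIn ℚ) {y y' : M} (hy : y ∈ Z) (hy' : y' ∈ Z) :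
    sepSet A ℓ m f (act σ y) (act σ y') = sepSet A ℓ m f y y' := by
  ext i
  rw [mem_sepSet, mem_sepSet, hfI σ hσ y hy i, hfI σ hσ y' hy' i, ← map_sub,
    apply_mem_lpow_iff hσ]

theorem map_facAt (hfI : ∀ σ ∈ A.inertiaSubgroupIn ℚ, ∀ y ∈ Z, ∀ i, f (act σ y) i = σ (f y i))
    {σ : GQ} (hσ : σ ∈ A.inertiaSubgroupIn ℚ) {y y' : M} (hy : y ∈ Z) (hy' : y' ∈ Z) (i : Fin k) :
    MvPolynomial.map (σ : Qb →+* Qb) (facAt ℓ m f i y y') = facAt ℓ m f i (act σ y) (act σ y') := by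
  unfold facAt
  rw [hfI σ hσ y hy i, hfI σ hσ y' hy' i]
  simp only [map_mul, map_sub, MvPolynomial.map_X, MvPolynomial.map_C, RingHom.coe_coe,
    map_div₀, map_pow, map_natCast]

theorem map_C_pow (σ : GQ) :
    MvPolynomial.map (σ : Qb →+* Qb) (C ((ℓ : Qb) ^ m) : MvPolynomial (Fin k) Qb)
      = C ((ℓ : Qb) ^ m) := by
  simp only [MvPolynomial.map_C, RingHom.coe_coe, map_pow, map_natCast]

theorem map_fac (hone : ∀ y, act 1 y = y) (hmul : ∀ σ τ y, act (σ * τ) y = act σ (act τ y))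
    (hZ : ∀ σ ∈ A.inertiaSubgroupIn ℚ, ∀ y ∈ Z, act σ y ∈ Z)
    (hfI : ∀ σ ∈ A.inertiaSubgroupIn ℚ, ∀ y ∈ Z, ∀ i, f (act σ y) i = σ (f y i))
    {σ : GQ} (hσ : σ ∈ A.inertiaSubgroupIn ℚ) (y y' : M) :
    MvPolynomial.map (σ : Qb →+* Qb) (fac A ℓ m Z f y y')
      = fac A ℓ m Z f (act σ y) (act σ y') := by
  classical
  unfold fac
  by_cases h : y ∈ Z ∧ y' ∈ Z
  · have h' : act σ y ∈ Z ∧ act σ y' ∈ Z := ⟨hZ σ hσ y h.1, hZ σ hσ y' h.2⟩
    rw [if_pos h, if_pos h', sepSet_act hfI hσ h.1 h.2]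
    unfold facS
    split_ifs with hS
    · exact map_facAt hfI hσ h.1 h.2 _
    · exact map_C_pow σ
  · have h' : ¬ (act σ y ∈ Z ∧ act σ y' ∈ Z) := by
      rw [mem_iff_act_mem hone hmul hZ hσ, mem_iff_act_mem hone hmul hZ hσ]
      exact h
    rw [if_neg h, if_neg h']
    exact map_C_pow σ

end Factors

/-! ### The theorem -/

section Main

variable {M : Type} {act : GQ → M → M}

/-- the permutation of `M` induced by `σ` -/
noncomputable def actEquiv (hone : ∀ y, act 1 y = y) (hmul : ∀ σ τ y, act (σ * τ) y = act σ (act τ y))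
    (σ : GQ) : M ≃ M where
  toFun := act σ
  invFun := act σ⁻¹
  left_inv y := by rw [← hmul, inv_mul_cancel, hone]
  right_inv y := by rw [← hmul, mul_inv_cancel, hone]

/-- **[A1] Equivariant Lagrange interpolation**, in the exact form `Stabilise.LagrangeHyp`. -/
theorem lagrangeHyp [Finite M] (hone : ∀ y, act 1 y = y)
    (hmul : ∀ σ τ y, act (σ * τ) y = act σ (act τ y)) : LagrangeHyp ℓ A act := by
  classical
  intro Z hZ k f hfA hfI m hsep ψ hψA hψI
  let _ : Fintype M := Fintype.ofFinite M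
  -- the interpolant
  let L : M → MvPolynomial (Fin k) Qb := fun y => ∏ y' : M, fac A ℓ m Z f y y'
  let T : M → MvPolynomial (Fin k) Qb := fun y => if y ∈ Z then C (ψ y) * L y else 0
  have hmapL : ∀ σ ∈ A.inertiaSubgroupIn ℚ, ∀ y,
      MvPolynomial.map (σ : Qb →+* Qb) (L y) = L (act σ y) := by
    intro σ hσ y
    simp only [L, map_prod]
    rw [← Equiv.prod_comp (actEquiv hone hmul σ) (fun y'' => fac A ℓ m Z f (act σ y) y'')]
    exact Finset.prod_congr rfl fun y' _ => map_fac hone hmul hZ hfI hσ y y'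
  have hmapT : ∀ σ ∈ A.inertiaSubgroupIn ℚ, ∀ y,
      MvPolynomial.map (σ : Qb →+* Qb) (T y) = T (act σ y) := by
    intro σ hσ y
    simp only [T]
    by_cases hy : y ∈ Z
    · rw [if_pos hy, if_pos (hZ σ hσ y hy), map_mul, hmapL σ hσ y, MvPolynomial.map_C,
        hψI σ hσ y hy]
      rfl
    · rw [if_neg hy, if_neg (by rwa [mem_iff_act_mem hone hmul hZ hσ]), map_zero]
  refine ⟨∑ y : M, T y, fun d => ⟨?_, fun σ hσ => ?_⟩, fun y₀ hy₀ => ?_⟩
  · -- coefficients in `A`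
    refine coeff_mem_of_mem_AR (sum_mem fun y _ => ?_) d
    simp only [T]
    split_ifs with hy
    · exact mul_mem (C_mem_AR (hψA y hy)) (prod_mem fun y' _ => fac_mem_AR hfA y y')
    · exact zero_mem _
  · -- coefficients fixed by the inertia group
    have h1 : MvPolynomial.map (σ : Qb →+* Qb) (∑ y : M, T y) = ∑ y : M, T y := by
      rw [map_sum]
      rw [← Equiv.sum_comp (actEquiv hone hmul σ) T]
      exact Finset.sum_congr rfl fun y _ => hmapT σ hσ y
    have h2 := congrArg (fun Q => MvPolynomial.coeff d Q) h1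
    simp only [coeff_map] at h2
    exact h2
  · -- the values
    rw [map_sum, Finset.sum_eq_single y₀]
    · simp only [T, if_pos hy₀, L, map_mul, map_prod, aeval_C, Algebra.algebraMap_self,
        RingHom.id_apply, aeval_fac_self, Finset.prod_const, Finset.card_univ]
      rw [← pow_mul, Nat.card_eq_fintype_card, mul_comm]
    · intro y _ hne
      simp only [T]
      split_ifs with hy
      · rw [map_mul]
        have : aeval (f y₀) (L y) = 0 := by
          simp only [L, map_prod]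
          exact Finset.prod_eq_zero (Finset.mem_univ y₀) (aeval_fac_other hsep hy hy₀ hne)
        rw [this, mul_zero]
      · exact map_zero _
    · intro h
      exact absurd (Finset.mem_univ y₀) h

end Main

end Fermat.Agent.S19.Order.Lagrange
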