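/-
S19 / order layer, block (O3) (helper3; board #2206, helper26's step (g) of #2207):
**closure of the congruence-defined order `H'` under comultiplication**, abstractly.

`A` a valuation subring of `ℚ̄` over `ℓ`, `I = A.inertiaSubgroupIn ℚ`, `R^nr = A ∩ ℚ̄^I` (`IsUnr A`),
`M` an abelian group with an action `act` of `G_ℚ`.  The input is a `CosetData`: a map
`cls : M → C` to a finite type (the cosets of `M ∩ J1`), stable under inertia and compatible with
addition, and level-`n` coordinate predicates `IsCo n y a` ("`a ∈ A^g` represents the formal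
coordinate of `y − x_{cls y}` modulo `ℓⁿ`") satisfying the polynomial addition law over `R^nr`
(`law`: composite of (C5) twice and (C8) of the contract `Coord.CoordSystem`).

`Mem ℓ D φ` : `φ : M → ℚ̄` is `A`-valued, `I`-equivariant and, for every level `n` and every coset, is
congruent modulo `ℓⁿ A` to an `R^nr`-polynomial in the level-`n` coordinates  (the order `H'`).

Main result `comul` : under
* `hlift` : for all large `n` there are honest coordinate functions `τ : M → A^g` with all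
  components in `H'` and `IsCo n y (τ y)`;
* `hcond` : the product conductor: `ℓ^d₂ ·` (`A`-valued `I`-equivariant functions on `M × M`) is
  contained in the image of `H' ⊗ H'` (equivariant Lagrange interpolation on `M × M`);
every `φ ∈ H'` has `φ (y + y') = ∑ a_j y * b_j y'` with `a_j, b_j ∈ H'`
(the field `comul` of `IsNrOrder`).
-/
import Mathlib
import Fermat.Prelude.Def_FLTPrelim_Ramification
import Fermat.Agent.S19.Coord.Defs

set_option autoImplicit false
set_option linter.unusedSectionVars false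

namespace Fermat.Agent.S19.Order.ComulCore

open Fermat.Agent.S19.Abs Fermat.Agent.S19.Coord MvPolynomial

/-! ### `R^nr` as a subring, polynomials over it -/

section Basics

variable (A : ValuationSubring Qb)

theorem isUnr_zero : IsUnr A 0 := ⟨A.zero_mem, fun σ _ => map_zero σ⟩

theorem isUnr_one : IsUnr A 1 := ⟨A.one_mem, fun σ _ => map_one σ⟩

variable {A}

theorem IsUnr.add {x y : Qb} (hx : IsUnr A x) (hy : IsUnr A y) : IsUnr A (x + y) :=
  ⟨A.add_mem _ _ hx.1 hy.1, fun σ hσ => by rw [map_add, hx.2 σ hσ, hy.2 σ hσ]⟩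

theorem IsUnr.mul {x y : Qb} (hx : IsUnr A x) (hy : IsUnr A y) : IsUnr A (x * y) :=
  ⟨A.mul_mem _ _ hx.1 hy.1, fun σ hσ => by rw [map_mul, hx.2 σ hσ, hy.2 σ hσ]⟩

theorem IsUnr.neg {x : Qb} (hx : IsUnr A x) : IsUnr A (-x) :=
  ⟨A.neg_mem _ hx.1, fun σ hσ => by rw [map_neg, hx.2 σ hσ]⟩

variable (A)

/-- `R^nr = A ∩ ℚ̄^I` as a subring of `ℚ̄`. -/
def unrSubring : Subring Qb where
  carrier := {x | IsUnr A x}
  mul_mem' := IsUnr.mul
  one_mem' := isUnr_one A
  add_mem' := IsUnr.add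
  zero_mem' := isUnr_zero A
  neg_mem' := IsUnr.neg

variable {A}

@[simp] theorem mem_unrSubring {x : Qb} : x ∈ unrSubring A ↔ IsUnr A x := Iff.rfl

theorem isUnr_natCast (n : ℕ) : IsUnr A (n : Qb) := natCast_mem (unrSubring A) n

theorem isUnr_natCast_pow (ℓ n : ℕ) : IsUnr A ((ℓ : Qb) ^ n) :=
  (unrSubring A).pow_mem (isUnr_natCast ℓ) n

/-- A polynomial with coefficients in a subring takes values in the subring on its points. -/
theorem aeval_mem_subring {σ : Type*} (S : Subring Qb) (P : MvPolynomial σ Qb)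
    (hP : ∀ m, P.coeff m ∈ S) (a : σ → Qb) (ha : ∀ i, a i ∈ S) : aeval a P ∈ S := by
  rw [aeval_def, eval₂_eq]
  refine S.sum_mem fun d _ => S.mul_mem ?_ (S.prod_mem fun i _ => S.pow_mem (ha i) _)
  simpa using hP d

theorem UnrCoeffs.aeval_mem {σ : Type*} {P : MvPolynomial σ Qb} (hP : UnrCoeffs A P)
    {a : σ → Qb} (ha : ∀ i, a i ∈ A) : aeval a P ∈ A :=
  aeval_mem_subring A.toSubring P (fun m => (hP m).1) a ha

theorem unrCoeffs_iff_mem_range {σ : Type*} {P : MvPolynomial σ Qb} :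
    UnrCoeffs A P ↔ P ∈ (MvPolynomial.map (unrSubring A).subtype).range := by
  rw [RingHom.mem_range, ← Set.mem_range, mem_range_map_iff_coeffs_subset]
  constructor
  · intro h c hc
    rw [Finset.mem_coe, mem_coeffs_iff] at hc
    obtain ⟨m, -, rfl⟩ := hc
    exact ⟨⟨_, h m⟩, rfl⟩
  · intro h m
    by_cases hm : P.coeff m = 0
    · rw [hm]; exact isUnr_zero A
    · have : P.coeff m ∈ (P.coeffs : Set Qb) :=
        Finset.mem_coe.2 (coeff_mem_coeffs m hm)
      obtain ⟨⟨x, hx⟩, e⟩ := h this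
      rw [← e]; exact hx

theorem UnrCoeffs.add {σ : Type*} {P Q : MvPolynomial σ Qb} (hP : UnrCoeffs A P)
    (hQ : UnrCoeffs A Q) : UnrCoeffs A (P + Q) := by
  rw [unrCoeffs_iff_mem_range] at *; exact add_mem hP hQ

theorem UnrCoeffs.mul {σ : Type*} {P Q : MvPolynomial σ Qb} (hP : UnrCoeffs A P)
    (hQ : UnrCoeffs A Q) : UnrCoeffs A (P * Q) := by
  rw [unrCoeffs_iff_mem_range] at *; exact mul_mem hP hQ

theorem unrCoeffs_C {σ : Type*} {c : Qb} (hc : IsUnr A c) :
    UnrCoeffs A (C c : MvPolynomial σ Qb) := by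
  rw [unrCoeffs_iff_mem_range]
  exact ⟨C ⟨c, hc⟩, by simp⟩

theorem UnrCoeffs.bind₁ {σ τ : Type*} {G : σ → MvPolynomial τ Qb} {P : MvPolynomial σ Qb}
    (hG : ∀ i, UnrCoeffs A (G i)) (hP : UnrCoeffs A P) : UnrCoeffs A (bind₁ G P) := by
  rw [unrCoeffs_iff_mem_range] at hP ⊢
  obtain ⟨P', rfl⟩ := hP
  have hG' : ∀ i, ∃ G' : MvPolynomial τ (unrSubring A),
      MvPolynomial.map (unrSubring A).subtype G' = G i := fun i => by
    have := hG i
    rw [unrCoeffs_iff_mem_range] at this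
    exact this
  choose G' hG' using hG'
  refine ⟨MvPolynomial.bind₁ G' P', ?_⟩
  rw [map_bind₁]
  have : (fun i => MvPolynomial.map (unrSubring A).subtype (G' i)) = G := funext hG'
  rw [this]

/-! ### the "ideals" `ℓⁿ A` -/

variable {ℓ : ℕ}

theorem zero_mem_lpow (n : ℕ) : (0 : Qb) ∈ lpow A ℓ n := ⟨0, A.zero_mem, by ring⟩

theorem lpow_add {n : ℕ} {x y : Qb} (hx : x ∈ lpow A ℓ n) (hy : y ∈ lpow A ℓ n) :
    x + y ∈ lpow A ℓ n := by
  obtain ⟨a, ha, rfl⟩ := hx
  obtain ⟨b, hb, rfl⟩ := hy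
  exact ⟨a + b, A.add_mem _ _ ha hb, by ring⟩

theorem lpow_sub {n : ℕ} {x y : Qb} (hx : x ∈ lpow A ℓ n) (hy : y ∈ lpow A ℓ n) :
    x - y ∈ lpow A ℓ n := by
  obtain ⟨a, ha, rfl⟩ := hx
  obtain ⟨b, hb, rfl⟩ := hy
  exact ⟨a - b, sub_mem ha hb, by ring⟩

theorem lpow_mul_left {n : ℕ} {c x : Qb} (hc : c ∈ A) (hx : x ∈ lpow A ℓ n) :
    c * x ∈ lpow A ℓ n := by
  obtain ⟨a, ha, rfl⟩ := hx
  exact ⟨c * a, A.mul_mem _ _ hc ha, by ring⟩

theorem lpow_mono {n m : ℕ} (h : n ≤ m) {x : Qb} (hx : x ∈ lpow A ℓ m) : x ∈ lpow A ℓ n := by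
  obtain ⟨a, ha, rfl⟩ := hx
  refine ⟨(ℓ : Qb) ^ (m - n) * a, A.mul_mem _ _ (isUnr_natCast_pow ℓ (m - n)).1 ha, ?_⟩
  rw [← mul_assoc, ← pow_add, Nat.add_sub_cancel' h]

end Basics

/-! ### the data -/

variable (ℓ : ℕ) (A : ValuationSubring Qb) {M : Type} [AddCommGroup M] (act : GQ → M → M)
  (C : Type) (g : ℕ)

/-- Cosets of `M ∩ J1` in `M` and level-wise coordinates relative to unramified centres. -/
structure CosetData where
  /-- the coset of a point -/
  cls : M → C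
  /-- `IsCo n y a` : `a` represents the level-`n` coordinate of `y − x_{cls y}` -/
  IsCo : ℕ → M → (Fin g → Qb) → Prop
  co_mem : ∀ {n y a}, IsCo n y a → ∀ i, a i ∈ A
  cls_inertia : ∀ σ ∈ A.inertiaSubgroupIn ℚ, ∀ y, cls (act σ y) = cls y
  cls_add : ∀ y₁ y₁' y₂ y₂', cls y₁ = cls y₂ → cls y₁' = cls y₂' → cls (y₁ + y₁') = cls (y₂ + y₂')
  /-- the addition law in coordinates, polynomial over `R^nr` -/
  law : ∀ (n : ℕ) (c c' : C), ∃ G : Fin g → MvPolynomial (Fin g ⊕ Fin g) Qb,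
    (∀ i, UnrCoeffs A (G i)) ∧ ∀ {y y' a a'}, cls y = c → cls y' = c' → IsCo n y a → IsCo n y' a' →
      IsCo n (y + y') (fun i => aeval (Sum.elim a a') (G i))

variable {ℓ A act C g}

/-- **The order `H'`**: `A`-valued, inertia-equivariant functions which are, at every level and on
every coset, congruent to an `R^nr`-polynomial in the coordinates. -/
def Mem (ℓ : ℕ) (D : CosetData A act C g) (φ : M → Qb) : Prop :=
  (∀ y, φ y ∈ A) ∧ (∀ σ ∈ A.inertiaSubgroupIn ℚ, ∀ y, φ (act σ y) = σ (φ y)) ∧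
    ∀ (n : ℕ) (c : C), ∃ P : MvPolynomial (Fin g) Qb, UnrCoeffs A P ∧
      ∀ y a, D.cls y = c → D.IsCo n y a → φ y - aeval a P ∈ lpow A ℓ n

namespace Mem

variable {D : CosetData A act C g}

theorem const {c : Qb} (hc : IsUnr A c) : Mem ℓ D (fun _ => c) :=
  ⟨fun _ => hc.1, fun σ hσ _ => (hc.2 σ hσ).symm, fun n _ =>
    ⟨MvPolynomial.C c, unrCoeffs_C hc, fun y a _ _ => by
      simp only [aeval_C, Algebra.algebraMap_self, RingHom.id_apply, sub_self]
      exact zero_mem_lpow n⟩⟩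

theorem add {φ ψ : M → Qb} (hφ : Mem ℓ D φ) (hψ : Mem ℓ D ψ) : Mem ℓ D (fun y => φ y + ψ y) := by
  refine ⟨fun y => A.add_mem _ _ (hφ.1 y) (hψ.1 y), fun σ hσ y => ?_, fun n c => ?_⟩
  · beta_reduce
    rw [hφ.2.1 σ hσ, hψ.2.1 σ hσ, map_add]
  · obtain ⟨P, hP, h⟩ := hφ.2.2 n c
    obtain ⟨Q, hQ, h'⟩ := hψ.2.2 n c
    refine ⟨P + Q, UnrCoeffs.add hP hQ, fun y a hy ha => ?_⟩
    beta_reduce
    have := lpow_add (h y a hy ha) (h' y a hy ha)
    rw [map_add]
    convert this using 1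
    ring

theorem mul {φ ψ : M → Qb} (hφ : Mem ℓ D φ) (hψ : Mem ℓ D ψ) : Mem ℓ D (fun y => φ y * ψ y) := by
  refine ⟨fun y => A.mul_mem _ _ (hφ.1 y) (hψ.1 y), fun σ hσ y => ?_, fun n c => ?_⟩
  · beta_reduce
    rw [hφ.2.1 σ hσ, hψ.2.1 σ hσ, map_mul]
  · obtain ⟨P, hP, h⟩ := hφ.2.2 n c
    obtain ⟨Q, hQ, h'⟩ := hψ.2.2 n c
    refine ⟨P * Q, UnrCoeffs.mul hP hQ, fun y a hy ha => ?_⟩
    beta_reduce
    have hQa : aeval a Q ∈ A := UnrCoeffs.aeval_mem hQ (D.co_mem ha)
    have := lpow_add (lpow_mul_left (hφ.1 y) (h' y a hy ha)) (lpow_mul_left hQa (h y a hy ha))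
    rw [map_mul]
    convert this using 1
    ring

theorem one : Mem ℓ D (fun _ => (1 : Qb)) := const (isUnr_one A)

theorem zero : Mem ℓ D (fun _ => (0 : Qb)) := const (isUnr_zero A)

theorem pow {φ : M → Qb} (hφ : Mem ℓ D φ) (k : ℕ) : Mem ℓ D (fun y => φ y ^ k) := by
  induction k with
  | zero => simpa using (one : Mem ℓ D _)
  | succ k ih =>
    have := ih.mul hφ
    simpa [pow_succ] using this

theorem prod {ι : Type*} (s : Finset ι) {φ : ι → M → Qb} (hφ : ∀ i ∈ s, Mem ℓ D (φ i)) :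
    Mem ℓ D (fun y => ∏ i ∈ s, φ i y) := by
  classical
  induction s using Finset.induction_on with
  | empty => simpa using (one : Mem ℓ D _)
  | insert k s hk ih =>
    have h1 := hφ k (Finset.mem_insert_self k s)
    have h2 := ih fun i hi => hφ i (Finset.mem_insert_of_mem hi)
    have := h1.mul h2
    simpa [Finset.prod_insert hk] using this

/-- the coset idempotents lie in `H'`. -/
theorem idem [DecidableEq C] (c : C) : Mem ℓ D (fun y => if D.cls y = c then (1 : Qb) else 0) := by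
  refine ⟨fun y => ?_, fun σ hσ y => ?_, fun n c' => ?_⟩
  · beta_reduce
    split_ifs
    · exact A.one_mem
    · exact A.zero_mem
  · beta_reduce
    rw [D.cls_inertia σ hσ y]
    split_ifs <;> simp
  · by_cases hc : c' = c
    · refine ⟨MvPolynomial.C 1, unrCoeffs_C (isUnr_one A), fun y a hy _ => ?_⟩
      beta_reduce
      rw [if_pos (hy.trans hc)]
      simp only [aeval_C, Algebra.algebraMap_self, RingHom.id_apply, sub_self]
      exact zero_mem_lpow n
    · refine ⟨MvPolynomial.C 0, unrCoeffs_C (isUnr_zero A), fun y a hy _ => ?_⟩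
      beta_reduce
      rw [if_neg (fun h => hc (hy.symm.trans h))]
      simp only [map_zero, sub_self]
      exact zero_mem_lpow n

end Mem

/-! ### sums of products `∑ a_j(y) b_j(y')` with `a_j, b_j ∈ H'` -/

/-- `ψ` lies in the image of `H' ⊗ H'`. -/
def IsTensor (ℓ : ℕ) (D : CosetData A act C g) (ψ : M → M → Qb) : Prop :=
  ∃ (m : ℕ) (a b : Fin m → M → Qb), (∀ j, Mem ℓ D (a j)) ∧ (∀ j, Mem ℓ D (b j)) ∧
    ∀ y y', ψ y y' = ∑ j, a j y * b j y'

namespace IsTensor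

variable {D : CosetData A act C g}

theorem congr {ψ ψ' : M → M → Qb} (h : IsTensor ℓ D ψ) (e : ∀ y y', ψ' y y' = ψ y y') :
    IsTensor ℓ D ψ' := by
  obtain ⟨m, a, b, ha, hb, hab⟩ := h
  exact ⟨m, a, b, ha, hb, fun y y' => (e y y').trans (hab y y')⟩

theorem zero : IsTensor ℓ D (fun _ _ => (0 : Qb)) :=
  ⟨0, fun j => j.elim0, fun j => j.elim0, fun j => j.elim0, fun j => j.elim0, fun _ _ => by simp⟩

theorem add {ψ ψ' : M → M → Qb} (h : IsTensor ℓ D ψ) (h' : IsTensor ℓ D ψ') :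
    IsTensor ℓ D (fun y y' => ψ y y' + ψ' y y') := by
  obtain ⟨m, a, b, ha, hb, hab⟩ := h
  obtain ⟨m', a', b', ha', hb', hab'⟩ := h'
  refine ⟨m + m', Fin.append a a', Fin.append b b', fun j => ?_, fun j => ?_, fun y y' => ?_⟩
  · refine Fin.addCases (fun i => ?_) (fun i => ?_) j
    · rw [Fin.append_left]; exact ha i
    · rw [Fin.append_right]; exact ha' i
  · refine Fin.addCases (fun i => ?_) (fun i => ?_) j
    · rw [Fin.append_left]; exact hb i
    · rw [Fin.append_right]; exact hb' i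
  · beta_reduce
    rw [Fin.sum_univ_add, hab, hab']
    simp only [Fin.append_left, Fin.append_right]

theorem of_mul {a b : M → Qb} (ha : Mem ℓ D a) (hb : Mem ℓ D b) :
    IsTensor ℓ D (fun y y' => a y * b y') :=
  ⟨1, fun _ => a, fun _ => b, fun _ => ha, fun _ => hb, fun _ _ => by simp⟩

theorem mul {ψ ψ' : M → M → Qb} (h : IsTensor ℓ D ψ) (h' : IsTensor ℓ D ψ') :
    IsTensor ℓ D (fun y y' => ψ y y' * ψ' y y') := by
  obtain ⟨m, a, b, ha, hb, hab⟩ := h
  obtain ⟨m', a', b', ha', hb', hab'⟩ := h'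
  -- induction on m: ψ = ∑_j a_j ⊗ b_j, multiply each term
  have key : ∀ (s : Finset (Fin m × Fin m')),
      IsTensor ℓ D (fun y y' => ∑ p ∈ s, (a p.1 y * a' p.2 y) * (b p.1 y' * b' p.2 y')) := by
    intro s
    classical
    induction s using Finset.induction_on with
    | empty => simpa using (zero : IsTensor ℓ D _)
    | insert p s hp ih =>
      have h1 : IsTensor ℓ D (fun y y' => (a p.1 y * a' p.2 y) * (b p.1 y' * b' p.2 y')) :=
        of_mul ((ha p.1).mul (ha' p.2)) ((hb p.1).mul (hb' p.2))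
      refine (h1.add ih).congr fun y y' => ?_
      rw [Finset.sum_insert hp]
  refine (key Finset.univ).congr fun y y' => ?_
  rw [hab, hab', Finset.sum_mul_sum, ← Finset.sum_product']
  refine Finset.sum_congr rfl fun p _ => ?_
  ring

theorem const {c : Qb} (hc : IsUnr A c) : IsTensor ℓ D (fun _ _ => c) :=
  (of_mul (Mem.const hc) Mem.one).congr fun _ _ => by simp

theorem left {a : M → Qb} (ha : Mem ℓ D a) : IsTensor ℓ D (fun y _ => a y) :=
  (of_mul ha Mem.one).congr fun _ _ => by simp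

theorem right {b : M → Qb} (hb : Mem ℓ D b) : IsTensor ℓ D (fun _ y' => b y') :=
  (of_mul Mem.one hb).congr fun _ _ => by simp

theorem pow {ψ : M → M → Qb} (h : IsTensor ℓ D ψ) (k : ℕ) :
    IsTensor ℓ D (fun y y' => ψ y y' ^ k) := by
  induction k with
  | zero => exact (const (isUnr_one A)).congr fun _ _ => by simp
  | succ k ih => exact (ih.mul h).congr fun _ _ => by rw [pow_succ]

theorem sum {ι : Type*} (s : Finset ι) {ψ : ι → M → M → Qb} (h : ∀ i ∈ s, IsTensor ℓ D (ψ i)) :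
    IsTensor ℓ D (fun y y' => ∑ i ∈ s, ψ i y y') := by
  classical
  induction s using Finset.induction_on with
  | empty => simpa using (zero : IsTensor ℓ D _)
  | insert k s hk ih =>
    refine ((h k (Finset.mem_insert_self k s)).add
      (ih fun i hi => h i (Finset.mem_insert_of_mem hi))).congr fun y y' => ?_
    rw [Finset.sum_insert hk]

theorem prod {ι : Type*} (s : Finset ι) {ψ : ι → M → M → Qb} (h : ∀ i ∈ s, IsTensor ℓ D (ψ i)) :
    IsTensor ℓ D (fun y y' => ∏ i ∈ s, ψ i y y') := by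
  classical
  induction s using Finset.induction_on with
  | empty => exact (const (isUnr_one A)).congr fun _ _ => by simp
  | insert k s hk ih =>
    refine ((h k (Finset.mem_insert_self k s)).mul
      (ih fun i hi => h i (Finset.mem_insert_of_mem hi))).congr fun y y' => ?_
    rw [Finset.prod_insert hk]

/-- an `R^nr`-polynomial in tensors is a tensor. -/
theorem aeval {σ : Type*} {x : σ → M → M → Qb} (hx : ∀ i, IsTensor ℓ D (x i))
    {Q : MvPolynomial σ Qb} (hQ : UnrCoeffs A Q) :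
    IsTensor ℓ D (fun y y' => MvPolynomial.aeval (fun i => x i y y') Q) := by
  have : ∀ y y', MvPolynomial.aeval (fun i => x i y y') Q
      = ∑ d ∈ Q.support, Q.coeff d * ∏ i ∈ d.support, x i y y' ^ d i := by
    intro y y'
    rw [aeval_def, eval₂_eq]
    rfl
  refine (sum Q.support (ψ := fun d y y' => Q.coeff d * ∏ i ∈ d.support, x i y y' ^ d i)
    fun d _ => ?_).congr this
  exact (const (hQ d)).mul (prod d.support fun i _ => (hx i).pow (d i))

end IsTensor

/-! ### the main theorem -/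

section Main

variable [Fintype C] [DecidableEq C] (D : CosetData A act C g)

/-- **Closure of `H'` under comultiplication.** -/
theorem comul (hℓ : ℓ ≠ 0) (hadd : ∀ σ y y', act σ (y + y') = act σ y + act σ y')
    (hlift : ∃ n₀, ∀ n, n₀ ≤ n → ∃ τ : M → Fin g → Qb,
      (∀ i, Mem ℓ D (fun y => τ y i)) ∧ ∀ y, D.IsCo n y (τ y))
    (hcond : ∃ d₂ : ℕ, ∀ ψ : M → M → Qb, (∀ y y', ψ y y' ∈ A) →
      (∀ σ ∈ A.inertiaSubgroupIn ℚ, ∀ y y', ψ (act σ y) (act σ y') = σ (ψ y y')) →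
        IsTensor ℓ D (fun y y' => (ℓ : Qb) ^ d₂ * ψ y y'))
    {φ : M → Qb} (hφ : Mem ℓ D φ) :
    ∃ (m : ℕ) (a b : Fin m → M → Qb), (∀ j, Mem ℓ D (a j)) ∧ (∀ j, Mem ℓ D (b j)) ∧
      ∀ y y', φ (y + y') = ∑ j, a j y * b j y' := by
  obtain ⟨n₀, hlift⟩ := hlift
  obtain ⟨d₂, hcond⟩ := hcond
  set n := max n₀ d₂ with hn
  obtain ⟨τ, hτM, hτ⟩ := hlift n (le_max_left _ _)
  have hℓ0 : (ℓ : Qb) ≠ 0 := Nat.cast_ne_zero.2 hℓ
  -- the polynomials
  have hQ : ∀ c c' : C, ∃ Q : MvPolynomial (Fin g ⊕ Fin g) Qb, UnrCoeffs A Q ∧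
      ∀ y y', D.cls y = c → D.cls y' = c' →
        φ (y + y') - MvPolynomial.aeval (Sum.elim (τ y) (τ y')) Q ∈ lpow A ℓ n := by
    intro c c'
    obtain ⟨G, hG, hlaw⟩ := D.law n c c'
    by_cases hne : ∃ y₀ y₀', D.cls y₀ = c ∧ D.cls y₀' = c'
    · obtain ⟨y₀, y₀', hy₀, hy₀'⟩ := hne
      obtain ⟨P, hP, hPφ⟩ := hφ.2.2 n (D.cls (y₀ + y₀'))
      refine ⟨bind₁ G P, UnrCoeffs.bind₁ hG hP, fun y y' hy hy' => ?_⟩
      have h1 := hlaw hy hy' (hτ y) (hτ y')
      have h2 := hPφ (y + y') _ (D.cls_add y y' y₀ y₀' (hy.trans hy₀.symm) (hy'.trans hy₀'.symm)) h1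
      rw [aeval_bind₁]
      exact h2
    · exact ⟨0, fun m => by simpa using isUnr_zero A, fun y y' hy hy' =>
        absurd ⟨y, y', hy, hy'⟩ hne⟩
  choose Q hQ hQφ using hQ
  -- the approximating tensor
  set Ψ : M → M → Qb := fun y y' =>
    ∑ c, ∑ c', ((if D.cls y = c then (1 : Qb) else 0) * (if D.cls y' = c' then (1 : Qb) else 0)) *
      MvPolynomial.aeval (Sum.elim (τ y) (τ y')) (Q c c') with hΨ
  have hx : ∀ i : Fin g ⊕ Fin g, IsTensor ℓ D (fun y y' => Sum.elim (τ y) (τ y') i) := by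
    rintro (i | i)
    · exact IsTensor.left (hτM i)
    · exact IsTensor.right (hτM i)
  have hΨT : IsTensor ℓ D Ψ := by
    refine IsTensor.sum _ fun c _ => IsTensor.sum _ fun c' _ => ?_
    exact (IsTensor.of_mul (Mem.idem c) (Mem.idem c')).mul (IsTensor.aeval hx (hQ c c'))
  have hΨeq : ∀ y y', Ψ y y' = MvPolynomial.aeval (Sum.elim (τ y) (τ y')) (Q (D.cls y) (D.cls y')) := by
    intro y y'
    rw [hΨ]
    simp only
    rw [Finset.sum_eq_single (D.cls y), Finset.sum_eq_single (D.cls y')]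
    · simp
    · intro c' _ hc'
      rw [if_neg (Ne.symm hc')]; simp
    · intro h; exact absurd (Finset.mem_univ _) h
    · intro c _ hc
      refine Finset.sum_eq_zero fun c' _ => ?_
      rw [if_neg (Ne.symm hc)]; simp
    · intro h; exact absurd (Finset.mem_univ _) h
  -- values and equivariance of Ψ
  obtain ⟨mΨ, aΨ, bΨ, haΨ, hbΨ, habΨ⟩ := hΨT
  have hΨA : ∀ y y', Ψ y y' ∈ A := fun y y' => by
    rw [habΨ]
    exact A.toSubring.sum_mem fun j _ => A.mul_mem _ _ ((haΨ j).1 y) ((hbΨ j).1 y')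
  have hΨI : ∀ σ ∈ A.inertiaSubgroupIn ℚ, ∀ y y', Ψ (act σ y) (act σ y') = σ (Ψ y y') := by
    intro σ hσ y y'
    rw [habΨ, habΨ, map_sum]
    refine Finset.sum_congr rfl fun j _ => ?_
    rw [(haΨ j).2.1 σ hσ, (hbΨ j).2.1 σ hσ, map_mul]
  -- the error term
  have herr : ∀ y y', φ (y + y') - Ψ y y' ∈ lpow A ℓ n := fun y y' => by
    rw [hΨeq]; exact hQφ _ _ y y' rfl rfl
  choose χ hχA hχ using herr
  have hχI : ∀ σ ∈ A.inertiaSubgroupIn ℚ, ∀ y y', χ (act σ y) (act σ y') = σ (χ y y') := by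
    intro σ hσ y y'
    have h1 := hχ (act σ y) (act σ y')
    rw [← hadd, hφ.2.1 σ hσ, hΨI σ hσ, ← map_sub, hχ y y', map_mul, map_pow, map_natCast] at h1
    exact (mul_left_cancel₀ (pow_ne_zero n hℓ0) h1).symm
  have hT := hcond χ hχA hχI
  have hfin : IsTensor ℓ D (fun y y' => Ψ y y' + (ℓ : Qb) ^ (n - d₂) * ((ℓ : Qb) ^ d₂ * χ y y')) :=
    (IsTensor.congr ⟨mΨ, aΨ, bΨ, haΨ, hbΨ, habΨ⟩ fun _ _ => rfl).add
      ((IsTensor.const (isUnr_natCast_pow ℓ (n - d₂))).mul hT)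
  obtain ⟨m, a, b, ha, hb, hab⟩ := hfin
  refine ⟨m, a, b, ha, hb, fun y y' => ?_⟩
  rw [← hab]
  beta_reduce
  rw [← mul_assoc, ← pow_add, Nat.sub_add_cancel (le_max_right _ _), ← hχ y y']
  ring

end Main

end Fermat.Agent.S19.Order.ComulCore
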