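/-
S19 / ORD-A, leaf [A3c] (helper28; DAG v1.1): **the field `comul` of `IsNrOrder` for the order
`Hinf CC` of a `CosetCoords`**, from

* helper3's abstract closure theorem `ComulCore.comul`,
* leaf [A1] (equivariant Lagrange interpolation, `Stabilise.LagrangeHyp`) applied to `M × M`
  (the "product form": `ℓ^d₂ · 𝒪(M × M) ⊂ image of H' ⊗ H'`),
* leaf [A2] in the form `hlift`: for all large `n` there are level-`n` coordinate functions
  `τ : M → A^g` with `CC.Co n y (τ y)` all of whose components lie in `Hinf CC`.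

Contents:
* `bound_of_Co`        : for `n ≥ 1` every level-`n` representative satisfies the ramification bound;
* `toCosetData`        : the bridge `CosetCoords ⟶ ComulCore.CosetData` (cosets = `Quotient rel`);
* `mem_iff`            : `ComulCore.Mem ℓ (toCosetData CC) φ ↔ φ ∈ Hinf CC`;
* `exists_sep_level`   : one level `m₀` at which distinct points of a coset have no common
  representative (from `separated` and finiteness of `M`);
* `isTensor_of_lagrange` : the product conductor (hypothesis `hcond` of `ComulCore.comul`);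
* `comul_Hinf`         : the field `comul` for `Hinf CC`.
-/
import Mathlib
import Fermat.Agent.S19.Order.CosetCoords
import Fermat.Agent.S19.Order.ComulCore
import Fermat.Agent.S19.Order.UnrPoly

set_option autoImplicit false

namespace Fermat.Agent.S19.Order.Comul

open Fermat.Agent.S19.Abs Fermat.Agent.S19.Coord Fermat.Agent.S19.Order.Stabilise
  Fermat.Agent.S19.Order.ComulCore

variable {ℓ : ℕ} {A : ValuationSubring Qb} {M : Type} [AddCommGroup M] {act : GQ → M → M} {g : ℕ}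

/-! ### preliminaries -/

theorem mem_of_nonunit {x : Qb} (hx : x ∈ A.nonunits) : x ∈ A := ValuationSubring.nonunits_le hx

theorem lpow_zero_iff {x : Qb} : x ∈ lpow A ℓ 0 ↔ x ∈ A := by
  constructor
  · rintro ⟨a, ha, rfl⟩
    simpa using ha
  · intro hx
    exact ⟨x, hx, by simp⟩

/-- `x ≡ y (mod ℓⁿA)` with `x, y ∈ A` implies `x ^ k ≡ y ^ k (mod ℓⁿA)`. -/
theorem pow_sub_pow_mem_lpow {n : ℕ} {x y : Qb} (hx : x ∈ A) (hy : y ∈ A)
    (h : x - y ∈ lpow A ℓ n) (k : ℕ) : x ^ k - y ^ k ∈ lpow A ℓ n := by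
  induction k with
  | zero => simpa using UnrPoly.zero_mem_lpow (A := A) (ℓ := ℓ) n
  | succ k ih =>
    have e : x ^ (k + 1) - y ^ (k + 1) = x ^ k * (x - y) + y * (x ^ k - y ^ k) := by ring
    rw [e]
    exact UnrPoly.add_mem_lpow (UnrPoly.mul_mem_lpow (pow_mem hx k) h)
      (UnrPoly.mul_mem_lpow hy ih)

theorem Co_mono_le (CC : CosetCoords ℓ A act g) {m n : ℕ} (h : m ≤ n) {y : M} {a : Fin g → Qb}
    (ha : CC.Co n y a) : CC.Co m y a := by
  induction n with
  | zero =>
    have : m = 0 := Nat.le_zero.1 h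
    subst this
    exact ha
  | succ n ih =>
    rcases Nat.lt_or_ge m (n + 1) with hlt | hge
    · exact ih (Nat.lt_succ_iff.1 hlt) (CC.mono ha)
    · have : m = n + 1 := le_antisymm h hge
      subst this
      exact ha

/-- For `n ≥ 1` every level-`n` representative satisfies the ramification bound. -/
theorem bound_of_Co (CC : CosetCoords ℓ A act g) {n : ℕ} (hn : 1 ≤ n) {y : M} {a : Fin g → Qb}
    (ha : CC.Co n y a) (i : Fin g) : a i ^ CC.e ∈ lpow A ℓ 1 := by
  obtain ⟨a₀, ha₀, hb, -⟩ := CC.stab n y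
  have h1 : a i - a₀ i ∈ lpow A ℓ 1 := UnrPoly.lpow_mono hn (CC.congr ha ha₀ i)
  have h2 := pow_sub_pow_mem_lpow (mem_of_nonunit (CC.nonunit ha i))
    (mem_of_nonunit (CC.nonunit ha₀ i)) h1 CC.e
  have e : a i ^ CC.e = (a i ^ CC.e - a₀ i ^ CC.e) + a₀ i ^ CC.e := by ring
  rw [e]
  exact UnrPoly.add_mem_lpow h2 (hb i)

/-! ### the bridge `CosetCoords ⟶ CosetData` -/

/-- The setoid "same coset". -/
def relSetoid (CC : CosetCoords ℓ A act g) : Setoid M := ⟨CC.rel, CC.rel_equiv⟩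

/-- The type of cosets. -/
abbrev Cls (CC : CosetCoords ℓ A act g) : Type := Quotient (relSetoid CC)

theorem rel_out (CC : CosetCoords ℓ A act g) {y : M} {c : Cls CC}
    (h : Quotient.mk (relSetoid CC) y = c) : CC.rel y c.out := by
  have h1 : Quotient.mk (relSetoid CC) y = Quotient.mk (relSetoid CC) c.out := by
    rw [h, Quotient.out_eq]
  exact Quotient.exact h1

/-- The coordinate predicate of the bridge: level `0` carries no information (any point of `A^g`),
levels `n ≥ 1` are the `Co n` of the `CosetCoords` (where the ramification bound is automatic). -/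
def IsCo' (CC : CosetCoords ℓ A act g) (n : ℕ) (y : M) (a : Fin g → Qb) : Prop :=
  (n = 0 ∧ ∀ i, a i ∈ A) ∨ (n ≠ 0 ∧ CC.Co n y a)

theorem isCo'_of_ne_zero (CC : CosetCoords ℓ A act g) {n : ℕ} (hn : n ≠ 0) {y : M}
    {a : Fin g → Qb} : IsCo' CC n y a ↔ CC.Co n y a := by
  constructor
  · rintro (⟨h, -⟩ | ⟨-, h⟩)
    · exact absurd h hn
    · exact h
  · intro h
    exact Or.inr ⟨hn, h⟩

/-- **The bridge.** -/
noncomputable def toCosetData (CC : CosetCoords ℓ A act g) : CosetData A act (Cls CC) g where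
  cls := fun y => Quotient.mk (relSetoid CC) y
  IsCo := IsCo' CC
  co_mem := by
    rintro n y a (⟨-, h⟩ | ⟨-, h⟩) i
    · exact h i
    · exact mem_of_nonunit (CC.nonunit h i)
  cls_inertia := fun σ hσ y => Quotient.sound (CC.rel_inertia σ hσ y)
  cls_add := by
    intro y₁ y₁' y₂ y₂' h h'
    exact Quotient.sound (CC.rel_add (Quotient.exact h) (Quotient.exact h'))
  law := by
    intro n c c'
    obtain ⟨G, hG, hadd⟩ := CC.add n c.out c'.out
    refine ⟨G, hG, ?_⟩
    intro y y' a a' hy hy' ha ha'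
    by_cases hn : n = 0
    · have haA : ∀ i, a i ∈ A := by
        rcases ha with ⟨-, h⟩ | ⟨h, -⟩
        · exact h
        · exact absurd hn h
      have haA' : ∀ i, a' i ∈ A := by
        rcases ha' with ⟨-, h⟩ | ⟨h, -⟩
        · exact h
        · exact absurd hn h
      refine Or.inl ⟨hn, fun i => ?_⟩
      refine UnrPoly.aeval_mem (fun m => (hG i m).1) ?_
      rintro (j | j)
      · exact haA j
      · exact haA' j
    · rw [isCo'_of_ne_zero CC hn] at ha ha' ⊢
      have hn1 : 1 ≤ n := Nat.one_le_iff_ne_zero.2 hn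
      exact hadd y y' (rel_out CC hy) (rel_out CC hy') a a' ha ha' (bound_of_Co CC hn1 ha)
        (bound_of_Co CC hn1 ha')

@[simp] theorem toCosetData_cls (CC : CosetCoords ℓ A act g) (y : M) :
    (toCosetData CC).cls y = Quotient.mk (relSetoid CC) y := rfl

theorem toCosetData_isCo (CC : CosetCoords ℓ A act g) {n : ℕ} (hn : n ≠ 0) {y : M}
    {a : Fin g → Qb} : (toCosetData CC).IsCo n y a ↔ CC.Co n y a :=
  isCo'_of_ne_zero CC hn

/-- **The order of the bridge is `Hinf`.** -/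
theorem mem_iff (CC : CosetCoords ℓ A act g) (φ : M → Qb) :
    Mem ℓ (toCosetData CC) φ ↔ φ ∈ Hinf CC := by
  constructor
  · rintro ⟨h1, h2, h3⟩ n
    refine ⟨⟨h1, h2⟩, fun y₀ => ?_⟩
    by_cases hn : n = 0
    · subst hn
      refine ⟨0, UnrPoly.unrCoeffs_zero, fun y _ a _ => ?_⟩
      rw [map_zero, sub_zero, lpow_zero_iff]
      exact h1 y
    · obtain ⟨P, hP, h⟩ := h3 n (Quotient.mk (relSetoid CC) y₀)
      refine ⟨P, hP, fun y hy a ha => h y a (Quotient.sound hy) ?_⟩
      exact (toCosetData_isCo CC hn).2 ha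
  · intro h
    refine ⟨(h 0).1.1, (h 0).1.2, fun n c => ?_⟩
    by_cases hn : n = 0
    · subst hn
      refine ⟨0, UnrPoly.unrCoeffs_zero, fun y a _ _ => ?_⟩
      rw [map_zero, sub_zero, lpow_zero_iff]
      exact (h 0).1.1 y
    · obtain ⟨P, hP, hP'⟩ := (h n).2 c.out
      refine ⟨P, hP, fun y a hy ha => hP' y (rel_out CC hy) a ?_⟩
      exact (toCosetData_isCo CC hn).1 ha

/-! ### the separation level -/

/-- There is one level `m₀` at which distinct points of one coset have no common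
representative. -/
theorem exists_sep_level [Finite M] (CC : CosetCoords ℓ A act g) :
    ∃ m₀ : ℕ, ∀ y y', CC.rel y y' → y ≠ y' → ¬ ∃ a, CC.Co m₀ y a ∧ CC.Co m₀ y' a := by
  classical
  have key : ∀ p : M × M, ∃ n : ℕ, CC.rel p.1 p.2 → p.1 ≠ p.2 →
      ¬ ∃ a, CC.Co n p.1 a ∧ CC.Co n p.2 a := by
    intro p
    by_cases h : CC.rel p.1 p.2 ∧ p.1 ≠ p.2
    · by_contra hcon
      push Not at hcon
      refine h.2 (CC.separated h.1 fun n => ?_)
      obtain ⟨-, -, a, ha⟩ := hcon n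
      exact ⟨a, ha⟩
    · exact ⟨0, fun h1 h2 => absurd ⟨h1, h2⟩ h⟩
  choose N hN using key
  have : Fintype (M × M) := Fintype.ofFinite _
  refine ⟨Finset.univ.sup N, fun y y' hrel hne hcom => ?_⟩
  obtain ⟨a, ha, ha'⟩ := hcom
  have hle : N (y, y') ≤ Finset.univ.sup N := Finset.le_sup (Finset.mem_univ _)
  exact hN (y, y') hrel hne ⟨a, Co_mono_le CC hle ha, Co_mono_le CC hle ha'⟩

/-! ### the product conductor -/

/-- The diagonal action on `M × M`. -/
def act₂ (act : GQ → M → M) : GQ → M × M → M × M := fun σ p => (act σ p.1, act σ p.2)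

/-- **Product form of the Lagrange conductor**: with honest level-`n` coordinate functions `τ` in
`H'` (`n ≥ m₀`, `n ≥ 1`), every `A`-valued diagonally inertia-equivariant function on `M × M`,
multiplied by `ℓ ^ (m₀ * #(M × M))`, lies in the image of `H' ⊗ H'`. -/
theorem isTensor_of_lagrange [Finite M] (CC : CosetCoords ℓ A act g)
    (hL : LagrangeHyp ℓ A (act₂ act)) {m₀ n : ℕ}
    (hm₀ : ∀ y y', CC.rel y y' → y ≠ y' → ¬ ∃ a, CC.Co m₀ y a ∧ CC.Co m₀ y' a)
    (hmn : m₀ ≤ n) (τ : M → Fin g → Qb)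
    (hτM : ∀ i, Mem ℓ (toCosetData CC) (fun y => τ y i)) (hτ : ∀ y, CC.Co n y (τ y))
    (ψ : M → M → Qb) (hψA : ∀ y y', ψ y y' ∈ A)
    (hψI : ∀ σ ∈ A.inertiaSubgroupIn ℚ, ∀ y y', ψ (act σ y) (act σ y') = σ (ψ y y')) :
    IsTensor ℓ (toCosetData CC)
      (fun y y' => (ℓ : Qb) ^ (m₀ * Nat.card (M × M)) * ψ y y') := by
  classical
  have : Fintype (Cls CC) := Fintype.ofFinite _
  set D := toCosetData CC with hD
  -- the coordinate functions on `M × M`
  set f : M × M → Fin (g + g) → Qb := fun p => Fin.append (τ p.1) (τ p.2) with hf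
  have hfA : ∀ p i, f p i ∈ A := by
    intro p i
    refine Fin.addCases (fun j => ?_) (fun j => ?_) i
    · rw [hf]; simp only; rw [Fin.append_left]; exact (hτM j).1 p.1
    · rw [hf]; simp only; rw [Fin.append_right]; exact (hτM j).1 p.2
  have hfI : ∀ σ ∈ A.inertiaSubgroupIn ℚ, ∀ p i, f (act₂ act σ p) i = σ (f p i) := by
    intro σ hσ p i
    refine Fin.addCases (fun j => ?_) (fun j => ?_) i
    · rw [hf]; simp only [act₂]; rw [Fin.append_left, Fin.append_left]
      exact (hτM j).2.1 σ hσ p.1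
    · rw [hf]; simp only [act₂]; rw [Fin.append_right, Fin.append_right]
      exact (hτM j).2.1 σ hσ p.2
  -- separation inside a coset
  have hsep1 : ∀ y y', CC.rel y y' → y ≠ y' → ∃ j, τ y j - τ y' j ∉ lpow A ℓ m₀ := by
    intro y y' hrel hne
    by_contra hcon
    push Not at hcon
    refine hm₀ y y' hrel hne ⟨τ y', ?_, Co_mono_le CC hmn (hτ y')⟩
    exact CC.of_congr (Co_mono_le CC hmn (hτ y)) (fun i => CC.nonunit (hτ y') i) hcon
  -- Lagrange on each product of cosets
  have hP : ∀ c c' : Cls CC, ∃ P : MvPolynomial (Fin (g + g)) Qb, UnrCoeffs A P ∧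
      ∀ p : M × M, D.cls p.1 = c → D.cls p.2 = c' →
        MvPolynomial.aeval (f p) P = (ℓ : Qb) ^ (m₀ * Nat.card (M × M)) * ψ p.1 p.2 := by
    intro c c'
    set Z : Set (M × M) := {p | D.cls p.1 = c ∧ D.cls p.2 = c'} with hZ
    have hZst : ∀ σ ∈ A.inertiaSubgroupIn ℚ, ∀ p ∈ Z, act₂ act σ p ∈ Z := by
      rintro σ hσ p ⟨h1, h2⟩
      exact ⟨(D.cls_inertia σ hσ p.1).trans h1, (D.cls_inertia σ hσ p.2).trans h2⟩
    have hsep : ∀ p ∈ Z, ∀ p' ∈ Z, p ≠ p' → ∃ i, f p i - f p' i ∉ lpow A ℓ m₀ := by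
      rintro p ⟨h1, h2⟩ p' ⟨h1', h2'⟩ hne
      by_cases h : p.1 = p'.1
      · have hne2 : p.2 ≠ p'.2 := fun h' => hne (Prod.ext h h')
        have hrel : CC.rel p.2 p'.2 := Quotient.exact (h2.trans h2'.symm)
        obtain ⟨j, hj⟩ := hsep1 _ _ hrel hne2
        refine ⟨Fin.natAdd g j, ?_⟩
        rw [hf]; simp only; rw [Fin.append_right, Fin.append_right]; exact hj
      · have hrel : CC.rel p.1 p'.1 := Quotient.exact (h1.trans h1'.symm)
        obtain ⟨j, hj⟩ := hsep1 _ _ hrel h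
        refine ⟨Fin.castAdd g j, ?_⟩
        rw [hf]; simp only; rw [Fin.append_left, Fin.append_left]; exact hj
    obtain ⟨P, hP, hPv⟩ := hL Z hZst (g + g) f (fun p _ i => hfA p i)
      (fun σ hσ p _ i => hfI σ hσ p i) m₀ hsep (fun p => ψ p.1 p.2) (fun p _ => hψA p.1 p.2)
      (fun σ hσ p _ => hψI σ hσ p.1 p.2)
    exact ⟨P, hP, fun p h1 h2 => hPv p ⟨h1, h2⟩⟩
  choose P hPU hPv using hP
  -- assemble
  have hx : ∀ i : Fin (g + g), IsTensor ℓ D (fun y y' => f (y, y') i) := by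
    intro i
    refine Fin.addCases (fun j => ?_) (fun j => ?_) i
    · refine (IsTensor.left (hτM j)).congr fun y y' => ?_
      rw [hf]; simp only; rw [Fin.append_left]
    · refine (IsTensor.right (hτM j)).congr fun y y' => ?_
      rw [hf]; simp only; rw [Fin.append_right]
  have hT : IsTensor ℓ D (fun y y' => ∑ c, ∑ c',
      ((if D.cls y = c then (1 : Qb) else 0) * (if D.cls y' = c' then (1 : Qb) else 0)) *
        MvPolynomial.aeval (fun i => f (y, y') i) (P c c')) := by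
    refine IsTensor.sum _ fun c _ => IsTensor.sum _ fun c' _ => ?_
    exact (IsTensor.of_mul (Mem.idem c) (Mem.idem c')).mul (IsTensor.aeval hx (hPU c c'))
  refine hT.congr fun y y' => ?_
  rw [Finset.sum_eq_single (D.cls y), Finset.sum_eq_single (D.cls y')]
  · rw [if_pos rfl, if_pos rfl, one_mul, one_mul]
    exact (hPv (D.cls y) (D.cls y') (y, y') rfl rfl).symm
  · intro c' _ hc'
    rw [if_neg (Ne.symm hc')]; simp
  · intro h; exact absurd (Finset.mem_univ _) h
  · intro c _ hc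
    refine Finset.sum_eq_zero fun c' _ => ?_
    rw [if_neg (Ne.symm hc)]; simp
  · intro h; exact absurd (Finset.mem_univ _) h

/-! ### the field `comul` -/

/-- **The field `comul` of `IsNrOrder` for `Hinf CC`.**  Inputs: [A1] on `M × M` (`hL`) and [A2]
in the form `hlift` (level-`n` coordinate functions with components in `Hinf CC`, for all large
`n`). -/
theorem comul_Hinf [Finite M] (CC : CosetCoords ℓ A act g) (hℓ : ℓ ≠ 0)
    (hadd : ∀ σ y y', act σ (y + y') = act σ y + act σ y')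
    (hL : LagrangeHyp ℓ A (act₂ act))
    (hlift : ∃ n₀, ∀ n, n₀ ≤ n → ∃ τ : M → Fin g → Qb,
      (∀ i, (fun y => τ y i) ∈ Hinf CC) ∧ ∀ y, CC.Co n y (τ y))
    {φ : M → Qb} (hφ : φ ∈ Hinf CC) :
    ∃ (m : ℕ) (a b : Fin m → M → Qb), (∀ j, a j ∈ Hinf CC) ∧ (∀ j, b j ∈ Hinf CC) ∧
      ∀ y y', φ (y + y') = ∑ j, a j y * b j y' := by
  classical
  have : Fintype (Cls CC) := Fintype.ofFinite _
  obtain ⟨n₀, hlift⟩ := hlift
  obtain ⟨m₀, hm₀⟩ := exists_sep_level CC
  -- `hlift` in the language of the bridge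
  have hlift' : ∃ n₁, ∀ n, n₁ ≤ n → ∃ τ : M → Fin g → Qb,
      (∀ i, Mem ℓ (toCosetData CC) (fun y => τ y i)) ∧ ∀ y, (toCosetData CC).IsCo n y (τ y) := by
    refine ⟨max n₀ 1, fun n hn => ?_⟩
    obtain ⟨τ, hτM, hτ⟩ := hlift n (le_trans (le_max_left _ _) hn)
    have hn0 : n ≠ 0 := by
      have : 1 ≤ n := le_trans (le_max_right _ _) hn
      omega
    exact ⟨τ, fun i => (mem_iff CC _).2 (hτM i), fun y => (toCosetData_isCo CC hn0).2 (hτ y)⟩
  -- the product conductor
  have hcond : ∃ d₂ : ℕ, ∀ ψ : M → M → Qb, (∀ y y', ψ y y' ∈ A) →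
      (∀ σ ∈ A.inertiaSubgroupIn ℚ, ∀ y y', ψ (act σ y) (act σ y') = σ (ψ y y')) →
        IsTensor ℓ (toCosetData CC) (fun y y' => (ℓ : Qb) ^ d₂ * ψ y y') := by
    obtain ⟨τ, hτM, hτ⟩ := hlift (max n₀ m₀) (le_max_left _ _)
    exact ⟨m₀ * Nat.card (M × M), fun ψ hψA hψI =>
      isTensor_of_lagrange CC hL hm₀ (le_max_right n₀ m₀) τ
        (fun i => (mem_iff CC _).2 (hτM i)) hτ ψ hψA hψI⟩
  obtain ⟨m, a, b, ha, hb, hab⟩ :=
    ComulCore.comul (toCosetData CC) hℓ hadd hlift' hcond ((mem_iff CC φ).2 hφ)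
  exact ⟨m, a, b, fun j => (mem_iff CC _).1 (ha j), fun j => (mem_iff CC _).1 (hb j), hab⟩

end Fermat.Agent.S19.Order.Comul
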