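/-
S19 / ORD-A, leaf [A3s]: **the order `H' = Hinf CC` is stable under the (semilinear) action of the
decomposition group** — the field `stable` of `IsNrOrder`.

For `σ ∈ D_A` and `φ ∈ Hinf CC` the function `φ^σ : y ↦ σ (φ (act σ⁻¹ y))` lies in `Hinf CC`:
it is `A`-valued (`σ A = A`), inertia-equivariant (`I_A` is normal in `D_A`), and on the coset of
`y₀` it is approximated modulo `ℓⁿ A` by `(P^σ) ∘ Ψ`, where `P` approximates `φ` on the coset of
`σ⁻¹ y₀` and `Ψ` is the twist polynomial of `σ⁻¹` (`CosetCoords.twist`).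
-/
import Mathlib
import Fermat.Agent.S19.Order.CosetCoords
import Fermat.Agent.S19.Order.UnrPoly

set_option autoImplicit false

namespace Fermat.Agent.S19.Order.Stable

open Fermat.Agent.S19.Abs Fermat.Agent.S19.Coord Fermat.Agent.S19.Order.Stabilise
  Fermat.Agent.S19.Order.UnrPoly MvPolynomial

variable {ℓ : ℕ} {A : ValuationSubring Qb} {M : Type} [AddCommGroup M] {act : GQ → M → M} {g : ℕ}

/-- `σ (ℓⁿ A) ⊆ ℓⁿ A` for `σ` in the decomposition group. -/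
theorem apply_mem_lpow {σ : GQ} (hσ : σ ∈ A.decompositionSubgroup ℚ) {n : ℕ} {x : Qb}
    (hx : x ∈ lpow A ℓ n) : σ x ∈ lpow A ℓ n := by
  obtain ⟨a, ha, rfl⟩ := hx
  exact ⟨σ a, apply_mem_of_mem_decomposition hσ ha, by rw [map_mul, map_pow, map_natCast]⟩

/-- `ℓ⁰ A = A`. -/
theorem mem_lpow_zero {x : Qb} (hx : x ∈ A) : x ∈ lpow A ℓ 0 :=
  ⟨x, hx, by rw [pow_zero, one_mul]⟩

/-- congruent integral elements have congruent powers: if `x ≡ x' mod ℓⁿA` (`n ≥ 1`) and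
`x'^e ∈ ℓA` then `x^e ∈ ℓA`. -/
theorem pow_mem_lpow_one_of_congr {n : ℕ} (hn : 1 ≤ n) {x x' : Qb} (hx : x ∈ A) (hx' : x' ∈ A)
    (hxx : x - x' ∈ lpow A ℓ n) {e : ℕ} (he : x' ^ e ∈ lpow A ℓ 1) : x ^ e ∈ lpow A ℓ 1 := by
  have h1 : x ^ e = x' ^ e + (∑ i ∈ Finset.range e, x ^ i * x' ^ (e - 1 - i)) * (x - x') := by
    rw [geom_sum₂_mul]; ring
  rw [h1]
  refine add_mem_lpow he (mul_mem_lpow ?_ (lpow_mono hn hxx))
  exact A.toSubring.sum_mem fun i _ => A.mul_mem _ _ (pow_mem hx _) (pow_mem hx' _)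

/-- at levels `n ≥ 1` every representative satisfies the ramification bound. -/
theorem bound_of_Co (CC : CosetCoords ℓ A act g) {n : ℕ} (hn : 1 ≤ n) {y : M} {a : Fin g → Qb}
    (h : CC.Co n y a) : ∀ i, a i ^ CC.e ∈ lpow A ℓ 1 := by
  obtain ⟨a', ha', hb', -⟩ := CC.stab n y
  intro i
  refine pow_mem_lpow_one_of_congr hn (ValuationSubring.nonunits_le (CC.nonunit h i))
    (ValuationSubring.nonunits_le (CC.nonunit ha' i)) (CC.congr h ha' i) (hb' i)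

/-- the semilinear action of `G_ℚ` on functions -/
noncomputable def twistFun (act : GQ → M → M) (σ : GQ) (φ : M → Qb) : M → Qb :=
  fun y => σ (φ (act σ⁻¹ y))

theorem twistFun_mem_Omax (hact : IsGalAction act) {σ : GQ}
    (hσ : σ ∈ A.decompositionSubgroup ℚ) {φ : M → Qb} (hφ : φ ∈ Omax A act) :
    twistFun act σ φ ∈ Omax A act := by
  refine ⟨fun y => apply_mem_of_mem_decomposition hσ (hφ.1 _), fun τ hτ y => ?_⟩
  have hτ' := conj_mem_inertia hσ hτ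
  have h1 : act σ⁻¹ (act τ y) = act (σ⁻¹ * τ * σ) (act σ⁻¹ y) := by
    rw [← hact.mul, ← hact.mul]
    congr 1
    group
  show σ (φ (act σ⁻¹ (act τ y))) = τ (σ (φ (act σ⁻¹ y)))
  rw [h1, hφ.2 _ hτ']
  show σ (σ⁻¹ (τ (σ (φ (act σ⁻¹ y))))) = τ (σ (φ (act σ⁻¹ y)))
  rw [AlgEquiv.aut_inv, AlgEquiv.apply_symm_apply]

theorem twistFun_mem_Happ (hact : IsGalAction act) (CC : CosetCoords ℓ A act g) {σ : GQ}
    (hσ : σ ∈ A.decompositionSubgroup ℚ) {n : ℕ} {φ : M → Qb} (hφ : φ ∈ Happ CC n) :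
    twistFun act σ φ ∈ Happ CC n := by
  have hO := twistFun_mem_Omax hact hσ hφ.1
  refine ⟨hO, fun y₀ => ?_⟩
  rcases Nat.eq_zero_or_pos n with hn | hn
  · subst hn
    refine ⟨0, unrCoeffs_zero, fun y _ a _ => ?_⟩
    rw [map_zero, sub_zero]
    exact mem_lpow_zero (hO.1 y)
  · have hσ' : σ⁻¹ ∈ A.decompositionSubgroup ℚ := inv_mem hσ
    obtain ⟨P, hP, hPφ⟩ := hφ.2 (act σ⁻¹ y₀)
    obtain ⟨Ψ, hΨ, hΨco⟩ := CC.twist σ⁻¹ hσ' n y₀
    refine ⟨bind₁ Ψ (MvPolynomial.map (σ : Qb →+* Qb) P),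
      UnrCoeffs.bind₁ (UnrCoeffs.map_of_mem_decomposition hσ hP) hΨ, fun y hy a ha => ?_⟩
    have hco := hΨco y hy a ha (bound_of_Co CC hn ha)
    have h1 := hPφ (act σ⁻¹ y) (CC.rel_act σ⁻¹ hσ' hy) _ hco
    have h2 := apply_mem_lpow hσ h1
    rw [map_sub, apply_aeval] at h2
    have h3 : (fun i => σ (σ⁻¹ (aeval a (Ψ i)))) = fun i => aeval a (Ψ i) := by
      funext i
      rw [AlgEquiv.aut_inv, AlgEquiv.apply_symm_apply]
    rw [h3] at h2
    rw [aeval_bind₁]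
    exact h2

/-- **[A3s]**: the order `Hinf CC` is stable under the decomposition group (the field `stable` of
`IsNrOrder`). -/
theorem stable (hact : IsGalAction act) (CC : CosetCoords ℓ A act g) :
    ∀ σ ∈ A.decompositionSubgroup ℚ, ∀ φ ∈ Hinf CC,
      (fun y : M => σ (φ (act σ⁻¹ y))) ∈ Hinf CC :=
  fun _ hσ _ hφ n => twistFun_mem_Happ hact CC hσ (hφ n)

end Fermat.Agent.S19.Order.Stable
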