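/-
S19 / ORD-A, assembly: **`Hinf CC` is an `R^nr`-order** (`IsNrOrder`), given its two non-formal
properties (`separates`: leaf [A2]; `comul`: leaf [A3c]); and `Coord.OrderTarget` from the leaves
[O1] (`CoordSystem + M ⇒ CosetCoords`), ORD-A and ORD-B.

The formal fields (`add_mem`, `mul_mem`, `const_mem`, `integral`, `inertia`) are proved here,
`stable` is `Order/Stable.lean`.
-/
import Mathlib
import Fermat.Agent.S19.Order.CosetCoords
import Fermat.Agent.S19.Order.NrDefs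
import Fermat.Agent.S19.Order.UnrPoly
import Fermat.Agent.S19.Order.Stable

set_option autoImplicit false
set_option linter.unusedSectionVars false

namespace Fermat.Agent.S19.Order.MainWire

open Fermat.Agent.S19.Abs Fermat.Agent.S19.Coord Fermat.Agent.S19.Order.Stabilise
  Fermat.Agent.S19.Order.UnrPoly Fermat.Agent.S19.Order.NrDefs MvPolynomial

variable {ℓ : ℕ} {A : ValuationSubring Qb} {M : Type} [AddCommGroup M] {act : GQ → M → M} {g : ℕ}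

/-! ### the formal closure properties of `Omax`, `Happ n`, `Hinf` -/

theorem Omax_add {φ ψ : M → Qb} (hφ : φ ∈ Omax A act) (hψ : ψ ∈ Omax A act) :
    φ + ψ ∈ Omax A act :=
  ⟨fun y => A.add_mem _ _ (hφ.1 y) (hψ.1 y), fun σ hσ y => by
    rw [Pi.add_apply, Pi.add_apply, hφ.2 σ hσ, hψ.2 σ hσ, map_add]⟩

theorem Omax_mul {φ ψ : M → Qb} (hφ : φ ∈ Omax A act) (hψ : ψ ∈ Omax A act) :
    φ * ψ ∈ Omax A act :=
  ⟨fun y => A.mul_mem _ _ (hφ.1 y) (hψ.1 y), fun σ hσ y => by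
    rw [Pi.mul_apply, Pi.mul_apply, hφ.2 σ hσ, hψ.2 σ hσ, map_mul]⟩

theorem Omax_const {c : Qb} (hc : IsUnr A c) : (fun _ : M => c) ∈ Omax A act :=
  ⟨fun _ => hc.1, fun σ hσ _ => (hc.2 σ hσ).symm⟩

theorem Happ_add (CC : CosetCoords ℓ A act g) {n : ℕ} {φ ψ : M → Qb} (hφ : φ ∈ Happ CC n)
    (hψ : ψ ∈ Happ CC n) : φ + ψ ∈ Happ CC n := by
  refine ⟨Omax_add hφ.1 hψ.1, fun y₀ => ?_⟩
  obtain ⟨P, hP, hPφ⟩ := hφ.2 y₀
  obtain ⟨Q, hQ, hQψ⟩ := hψ.2 y₀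
  refine ⟨P + Q, UnrCoeffs.add hP hQ, fun y hy a ha => ?_⟩
  have h1 := add_mem_lpow (hPφ y hy a ha) (hQψ y hy a ha)
  rw [Pi.add_apply, map_add]
  convert h1 using 1
  ring

theorem Happ_mul (CC : CosetCoords ℓ A act g) {n : ℕ} {φ ψ : M → Qb} (hφ : φ ∈ Happ CC n)
    (hψ : ψ ∈ Happ CC n) : φ * ψ ∈ Happ CC n := by
  refine ⟨Omax_mul hφ.1 hψ.1, fun y₀ => ?_⟩
  obtain ⟨P, hP, hPφ⟩ := hφ.2 y₀
  obtain ⟨Q, hQ, hQψ⟩ := hψ.2 y₀
  refine ⟨P * Q, UnrCoeffs.mul hP hQ, fun y hy a ha => ?_⟩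
  have haA : ∀ i, a i ∈ A := fun i => ValuationSubring.nonunits_le (CC.nonunit ha i)
  have hQa : aeval a Q ∈ A := aeval_mem (fun m => (hQ m).1) haA
  have h1 := add_mem_lpow (mul_mem_lpow (hφ.1.1 y) (hQψ y hy a ha))
    (mul_mem_lpow hQa (hPφ y hy a ha))
  rw [Pi.mul_apply, map_mul]
  convert h1 using 1
  ring

theorem Happ_const (CC : CosetCoords ℓ A act g) (n : ℕ) {c : Qb} (hc : IsUnr A c) :
    (fun _ : M => c) ∈ Happ CC n := by
  refine ⟨Omax_const hc, fun y₀ => ⟨C c, unrCoeffs_C hc, fun y _ a _ => ?_⟩⟩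
  rw [aeval_C, Algebra.algebraMap_self, RingHom.id_apply, sub_self]
  exact zero_mem_lpow n

/-! ### assembly of `IsNrOrder` -/

/-- **ORD-A**: `Hinf CC` is an `R^nr`-order, given `separates` ([A2]) and `comul` ([A3c]). -/
theorem isNrOrder_Hinf (hact : IsGalAction act) (CC : CosetCoords ℓ A act g)
    (hsep : ∀ y y' : M, y ≠ y' → ∃ φ ∈ Hinf CC, φ y ≠ φ y')
    (hcomul : ∀ φ ∈ Hinf CC, ∃ (n : ℕ) (a b : Fin n → M → Qb), (∀ j, a j ∈ Hinf CC) ∧
      (∀ j, b j ∈ Hinf CC) ∧ ∀ y y' : M, φ (y + y') = ∑ j, a j y * b j y') :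
    IsNrOrder ℓ A act (Hinf CC) where
  add_mem hφ hψ n := Happ_add CC (hφ n) (hψ n)
  mul_mem hφ hψ n := Happ_mul CC (hφ n) (hψ n)
  const_mem hc n := Happ_const CC n hc
  integral _ hφ y := (hφ 0).1.1 y
  inertia _ hφ σ hσ y := (hφ 0).1.2 σ hσ y
  stable := Stable.stable hact CC
  separates := hsep
  comul := hcomul

/-- The statement of leaf [O1]: a coordinate system induces coset coordinates on every finite
`G_ℚ`-stable subgroup. -/
def CosetTarget : Prop :=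
  ∀ (ℓ : ℕ) [Fact ℓ.Prime] (A : ValuationSubring Qb), A.LiesOverPrime ℓ →
    ∀ (Jb : Type) [AddCommGroup Jb] (actJ : GQ → Jb → Jb), IsGalAction actJ →
      CoordSystem ℓ A Jb actJ →
      (∀ y : Jb, ∃ E : IntermediateField ℚ Qb, FiniteDimensional ℚ E ∧
        ∀ σ : GQ, (∀ x ∈ E, σ x = x) → actJ σ y = y) →
      ∀ (M : AddSubgroup Jb), Finite M → ∀ (hM : ∀ σ, ∀ y ∈ M, actJ σ y ∈ M),
        ∃ (g : ℕ), Nonempty (CosetCoords ℓ A (fun σ (y : M) => (⟨actJ σ y, hM σ y y.2⟩ : M)) g)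

/-- The statement of the leaves [A2] + [A3c] (with [A1]): the two non-formal fields of
`IsNrOrder` for `Hinf CC`, for a finite module with open stabilisers. -/
def HinfTarget : Prop :=
  ∀ (ℓ : ℕ) [Fact ℓ.Prime] (A : ValuationSubring Qb), A.LiesOverPrime ℓ →
    ∀ (M : Type) [AddCommGroup M] [Finite M] (act : GQ → M → M), IsGalAction act →
      (∀ y : M, ∃ E : IntermediateField ℚ Qb, FiniteDimensional ℚ E ∧
        ∀ σ : GQ, (∀ x ∈ E, σ x = x) → act σ y = y) →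
      ∀ (g : ℕ) (CC : CosetCoords ℓ A act g),
        (∀ y y' : M, y ≠ y' → ∃ φ ∈ Hinf CC, φ y ≠ φ y') ∧
        (∀ φ ∈ Hinf CC, ∃ (n : ℕ) (a b : Fin n → M → Qb), (∀ j, a j ∈ Hinf CC) ∧
          (∀ j, b j ∈ Hinf CC) ∧ ∀ y y' : M, φ (y + y') = ∑ j, a j y * b j y')

/-- The statement of ORD-B (`Order/DescentNr.lean`). -/
def DescentTarget : Prop :=
  ∀ (ℓ : ℕ) [Fact ℓ.Prime] (A : ValuationSubring Qb), A.LiesOverPrime ℓ →
    ∀ (M : Type) [AddCommGroup M] [Finite M] (act : GQ → M → M), IsGalAction act →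
      (∀ y : M, ∃ E : IntermediateField ℚ Qb, FiniteDimensional ℚ E ∧
        ∀ σ : GQ, (∀ x ∈ E, σ x = x) → act σ y = y) →
      ∀ (H' : Set (M → Qb)), IsNrOrder ℓ A act H' →
        ∃ Hs : Subalgebra (GaloisRep.ratLocalizedAt ℓ) (M → Qb), IsHopfOrder ℓ act Hs

/-- **`Coord.OrderTarget` from the three blocks.** -/
theorem orderTarget_of_blocks (hO1 : CosetTarget) (hA : HinfTarget) (hB : DescentTarget) :
    Coord.OrderTarget := by
  intro ℓ _ A hA' Jb _ actJ hactJ CS hopen M hMfin hM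
  obtain ⟨g, ⟨CC⟩⟩ := hO1 ℓ A hA' Jb actJ hactJ CS hopen M hMfin hM
  have hact : IsGalAction (fun σ (y : M) => (⟨actJ σ y, hM σ y y.2⟩ : M)) :=
    { one := fun y => Subtype.ext (hactJ.one y)
      mul := fun σ τ y => Subtype.ext (hactJ.mul σ τ y)
      add := fun σ y y' => Subtype.ext (hactJ.add σ y y') }
  have hopenM : ∀ y : M, ∃ E : IntermediateField ℚ Qb, FiniteDimensional ℚ E ∧
      ∀ σ : GQ, (∀ x ∈ E, σ x = x) → (⟨actJ σ y, hM σ y y.2⟩ : M) = y := by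
    intro y
    obtain ⟨E, hE, hfix⟩ := hopen y
    exact ⟨E, hE, fun σ hσ => Subtype.ext (hfix σ hσ)⟩
  obtain ⟨hsep, hcomul⟩ := hA ℓ A hA' M _ hact hopenM g CC
  exact hB ℓ A hA' M _ hact hopenM _ (isNrOrder_Hinf hact CC hsep hcomul)

end Fermat.Agent.S19.Order.MainWire
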