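/-
S19 / ORD-A (order layer), leaf [A2] of helper22's DAG v1 (helper6):
**structure of the congruence-defined `R^nr`-order `H' = Hinf CC`** attached to a `CosetCoords`.

Setting of `CosetCoords.lean`: `M` a finite abelian group with an action of `G_ℚ`, `A` a valuation
subring of `ℚ̄` over `ℓ`, `I` its inertia group, `Omax` the `I`-equivariant `A`-valued functions,
`Happ CC n` the functions approximable at level `n`, `Hinf CC = ⋂ₙ Happ CC n`.

Results (`CC : CosetCoords ℓ A act g`, `M` finite, `act` a group action):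

* `bound_of_Co`        : for `n ≥ 1` every level-`n` representative has ramification `≤ CC.e`;
* `Happ_anti`, `Happ_mono_le` : `Happ CC (n+1) ⊆ Happ CC n`;
* `Happ.add/.mul/.neg/.const/.idem` and the same for `Hinf` : `R^nr`-subalgebras containing
  the coset idempotents;
* `exists_equivariant_lift` (T2) : `I`-equivariant representatives `τ : M → Fin g → ℚ̄` at every
  level (from `stab` + `inertia`);
* `exists_sep_level` (T3) : a level `n₁` such that for `n ≥ n₁` level-`n` representatives of two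
  distinct points of one coset differ modulo `ℓ^{n₁}A` in some coordinate (from `separated`);
* `exists_conductor` (T4a) : given [A1] (`LagrangeHyp`), `ℓ^s · Omax ⊆ Happ CC n` for all `n`,
  with `s` independent of `n`;
* `exists_stable_level` (T4b) : `Happ CC n = Hinf CC` for all `n ≥ n₂`;
* `exists_coord_mem_Hinf` (T5) : for `n ≥ n₂` there are coordinate functions `τ` with
  `Co n y (τ y)` all of whose components lie in `Hinf CC` (the `hlift` of `ComulCore.comul`);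
* `Hinf_separates` (T6) : if `Omax` separates the points of `M`, so does `Hinf CC`.
-/
import Mathlib
import Fermat.Agent.S19.Order.CosetCoords
import Fermat.Agent.S19.Order.ComulCore

set_option autoImplicit false
set_option linter.unusedSectionVars false

namespace Fermat.Agent.S19.Order.Stabilise

open Fermat.Agent.S19.Abs Fermat.Agent.S19.Coord MvPolynomial
open Fermat.Agent.S19.Order.ComulCore
open scoped Pointwise

variable {ℓ : ℕ} {A : ValuationSubring Qb}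

/-! ### The inertia group preserves `A` and `ℓⁿA` -/

theorem mem_decomposition_of_mem_inertia {σ : GQ} (hσ : σ ∈ A.inertiaSubgroupIn ℚ) :
    σ ∈ A.decompositionSubgroup ℚ := by
  unfold ValuationSubring.inertiaSubgroupIn at hσ
  obtain ⟨τ, -, rfl⟩ := hσ
  exact τ.2

theorem decomposition_apply_mem {σ : GQ} (hσ : σ ∈ A.decompositionSubgroup ℚ) {x : Qb}
    (hx : x ∈ A) : σ x ∈ A := by
  have h : σ • A = A := hσ
  have := ValuationSubring.smul_mem_pointwise_smul σ x A hx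
  rw [h] at this
  exact this

theorem inertia_apply_mem {σ : GQ} (hσ : σ ∈ A.inertiaSubgroupIn ℚ) {x : Qb} (hx : x ∈ A) :
    σ x ∈ A :=
  decomposition_apply_mem (mem_decomposition_of_mem_inertia hσ) hx

theorem inertia_apply_mem_lpow {σ : GQ} (hσ : σ ∈ A.inertiaSubgroupIn ℚ) {n : ℕ} {x : Qb}
    (hx : x ∈ lpow A ℓ n) : σ x ∈ lpow A ℓ n := by
  obtain ⟨a, ha, rfl⟩ := hx
  exact ⟨σ a, inertia_apply_mem hσ ha, by rw [map_mul, map_pow, map_natCast]⟩

/-! ### More on `ℓⁿA` -/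

theorem lpow_subset {n : ℕ} {x : Qb} (hx : x ∈ lpow A ℓ n) : x ∈ A := by
  obtain ⟨a, ha, rfl⟩ := hx
  exact A.mul_mem _ _ (pow_mem (natCast_mem A ℓ) n) ha

theorem mem_lpow_zero {x : Qb} (hx : x ∈ A) : x ∈ lpow A ℓ 0 := ⟨x, hx, by simp⟩

theorem pow_mul_mem_lpow (n : ℕ) {x : Qb} (hx : x ∈ A) : (ℓ : Qb) ^ n * x ∈ lpow A ℓ n :=
  ⟨x, hx, rfl⟩

theorem lpow_neg {n : ℕ} {x : Qb} (hx : x ∈ lpow A ℓ n) : -x ∈ lpow A ℓ n := by
  obtain ⟨a, ha, rfl⟩ := hx
  exact ⟨-a, A.neg_mem _ ha, by ring⟩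

theorem lpow_sub_comm {n : ℕ} {x y : Qb} (h : x - y ∈ lpow A ℓ n) : y - x ∈ lpow A ℓ n := by
  have := lpow_neg h
  rwa [neg_sub] at this

theorem lpow_mul_right {n : ℕ} {c x : Qb} (hc : c ∈ A) (hx : x ∈ lpow A ℓ n) :
    x * c ∈ lpow A ℓ n := by
  rw [mul_comm]; exact lpow_mul_left hc hx

theorem lpow_sum {n : ℕ} {ι : Type*} (s : Finset ι) (f : ι → Qb)
    (h : ∀ i ∈ s, f i ∈ lpow A ℓ n) : ∑ i ∈ s, f i ∈ lpow A ℓ n := by
  classical
  induction s using Finset.induction_on with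
  | empty => simpa using zero_mem_lpow (A := A) (ℓ := ℓ) n
  | insert i s hi ih =>
    rw [Finset.sum_insert hi]
    exact lpow_add (h i (Finset.mem_insert_self i s))
      (ih fun j hj => h j (Finset.mem_insert_of_mem hj))

/-- `x ≡ x' mod ℓⁿA` implies `x^k ≡ x'^k`. -/
theorem pow_sub_pow_mem_lpow {n : ℕ} {x x' : Qb} (hx : x ∈ A) (hx' : x' ∈ A)
    (h : x - x' ∈ lpow A ℓ n) (k : ℕ) : x ^ k - x' ^ k ∈ lpow A ℓ n := by
  have e : x ^ k - x' ^ k = (∑ i ∈ Finset.range k, x ^ i * x' ^ (k - 1 - i)) * (x - x') :=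
    ((Commute.all x x').geom_sum₂_mul k).symm
  rw [e]
  refine lpow_mul_left ?_ h
  exact A.toSubring.sum_mem fun i _ => A.mul_mem _ _ (pow_mem hx i) (pow_mem hx' _)

/-- products of congruent factors are congruent -/
theorem prod_sub_prod_mem_lpow {n : ℕ} {ι : Type*} (s : Finset ι) (x x' : ι → Qb)
    (hx : ∀ i, x i ∈ A) (hx' : ∀ i, x' i ∈ A) (h : ∀ i, x i - x' i ∈ lpow A ℓ n) :
    ∏ i ∈ s, x i - ∏ i ∈ s, x' i ∈ lpow A ℓ n := by
  classical
  induction s using Finset.induction_on with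
  | empty => simpa using zero_mem_lpow (A := A) (ℓ := ℓ) n
  | insert i s hi ih =>
    rw [Finset.prod_insert hi, Finset.prod_insert hi]
    have e : x i * ∏ j ∈ s, x j - x' i * ∏ j ∈ s, x' j =
        x i * (∏ j ∈ s, x j - ∏ j ∈ s, x' j) + (x i - x' i) * ∏ j ∈ s, x' j := by ring
    rw [e]
    exact lpow_add (lpow_mul_left (hx i) ih)
      (lpow_mul_right (A.toSubring.prod_mem fun j _ => hx' j) (h i))

/-! ### Polynomials over `R^nr` -/

/-- congruent points have congruent values -/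
theorem aeval_sub_aeval_mem_lpow {k : ℕ} {P : MvPolynomial (Fin k) Qb} (hP : UnrCoeffs A P)
    {n : ℕ} {a a' : Fin k → Qb} (ha : ∀ i, a i ∈ A) (ha' : ∀ i, a' i ∈ A)
    (h : ∀ i, a i - a' i ∈ lpow A ℓ n) : aeval a P - aeval a' P ∈ lpow A ℓ n := by
  rw [aeval_def, aeval_def, eval₂_eq', eval₂_eq', ← Finset.sum_sub_distrib]
  refine lpow_sum _ _ fun d _ => ?_
  rw [← mul_sub]
  refine lpow_mul_left ?_ ?_
  · simpa using (hP d).1
  · exact prod_sub_prod_mem_lpow _ _ _ (fun i => pow_mem (ha i) _) (fun i => pow_mem (ha' i) _)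
      fun i => pow_sub_pow_mem_lpow (ha i) (ha' i) (h i) _

/-- equivariance of polynomial maps over `R^nr` under inertia -/
theorem inertia_aeval {k : ℕ} {P : MvPolynomial (Fin k) Qb} (hP : UnrCoeffs A P) {σ : GQ}
    (hσ : σ ∈ A.inertiaSubgroupIn ℚ) (a : Fin k → Qb) :
    σ (aeval a P) = aeval (fun i => σ (a i)) P := by
  rw [aeval_def, aeval_def, eval₂_eq', eval₂_eq', map_sum]
  refine Finset.sum_congr rfl fun d _ => ?_
  rw [map_mul, map_prod]
  congr 1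
  · simpa using (hP d).2 σ hσ
  · exact Finset.prod_congr rfl fun i _ => map_pow σ _ _

theorem unrCoeffs_X {k : ℕ} (i : Fin k) : UnrCoeffs A (X i : MvPolynomial (Fin k) Qb) := by
  intro m
  rw [coeff_X]
  split_ifs
  · exact isUnr_one A
  · exact isUnr_zero A

theorem unrCoeffs_zero {k : ℕ} : UnrCoeffs A (0 : MvPolynomial (Fin k) Qb) := by
  intro m
  simpa using isUnr_zero A

theorem unrCoeffs_one {k : ℕ} : UnrCoeffs A (1 : MvPolynomial (Fin k) Qb) := by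
  have := unrCoeffs_C (A := A) (σ := Fin k) (isUnr_one A)
  simpa using this

theorem unrCoeffs_neg {k : ℕ} {P : MvPolynomial (Fin k) Qb} (hP : UnrCoeffs A P) :
    UnrCoeffs A (-P) := by
  intro m
  rw [coeff_neg]
  exact IsUnr.neg (hP m)

/-! ### Basic facts on a `CosetCoords` -/

section Main

variable {M : Type} [AddCommGroup M] {act : GQ → M → M} {g : ℕ} (CC : CosetCoords ℓ A act g)

namespace CosetCoords

theorem mem {n : ℕ} {y : M} {a : Fin g → Qb} (h : CC.Co n y a) (i : Fin g) : a i ∈ A :=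
  ValuationSubring.nonunits_le (CC.nonunit h i)

theorem mono_add {m : ℕ} {y : M} (k : ℕ) : ∀ {a : Fin g → Qb}, CC.Co (m + k) y a → CC.Co m y a := by
  induction k with
  | zero => intro a h; simpa using h
  | succ k ih => intro a h; exact ih (CC.mono (by simpa [Nat.add_assoc] using h))

theorem mono_le {m n : ℕ} (h : m ≤ n) {y : M} {a : Fin g → Qb} (hc : CC.Co n y a) :
    CC.Co m y a := by
  obtain ⟨k, rfl⟩ := Nat.exists_eq_add_of_le h
  exact CC.mono_add k hc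

theorem rel_refl (y : M) : CC.rel y y := CC.rel_equiv.refl y

theorem rel_symm {y y' : M} (h : CC.rel y y') : CC.rel y' y := CC.rel_equiv.symm h

theorem rel_trans {y y' y'' : M} (h : CC.rel y y') (h' : CC.rel y' y'') : CC.rel y y'' :=
  CC.rel_equiv.trans h h'

theorem rel_inertia_iff {σ : GQ} (hσ : σ ∈ A.inertiaSubgroupIn ℚ) (y y₀ : M) :
    CC.rel (act σ y) y₀ ↔ CC.rel y y₀ :=
  ⟨fun h => CC.rel_trans (CC.rel_symm (CC.rel_inertia σ hσ y)) h,
    fun h => CC.rel_trans (CC.rel_inertia σ hσ y) h⟩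

end CosetCoords

/-- For `n ≥ 1` every level-`n` representative has ramification `≤ CC.e`: the bound hypotheses of
`CosetCoords.add` and `CosetCoords.twist` are automatic. -/
theorem bound_of_Co {n : ℕ} (hn : 1 ≤ n) {y : M} {a : Fin g → Qb} (h : CC.Co n y a) (i : Fin g) :
    a i ^ CC.e ∈ lpow A ℓ 1 := by
  obtain ⟨b, hb, hbound, -⟩ := CC.stab n y
  have h1 : a i - b i ∈ lpow A ℓ 1 := lpow_mono hn (CC.congr h hb i)
  have h2 := pow_sub_pow_mem_lpow (CC.mem h i) (CC.mem hb i) h1 CC.e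
  have := lpow_add h2 (hbound i)
  simpa using this

/-! ### Closure properties of `Omax`, `Happ`, `Hinf` -/

theorem Omax.const {c : Qb} (hc : IsUnr A c) : (fun _ : M => c) ∈ Omax A act :=
  ⟨fun _ => hc.1, fun σ hσ _ => (hc.2 σ hσ).symm⟩

theorem Omax.add {φ ψ : M → Qb} (hφ : φ ∈ Omax A act) (hψ : ψ ∈ Omax A act) :
    φ + ψ ∈ Omax A act :=
  ⟨fun y => A.add_mem _ _ (hφ.1 y) (hψ.1 y), fun σ hσ y => by
    simp only [Pi.add_apply, map_add, hφ.2 σ hσ y, hψ.2 σ hσ y]⟩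

theorem Omax.mul {φ ψ : M → Qb} (hφ : φ ∈ Omax A act) (hψ : ψ ∈ Omax A act) :
    φ * ψ ∈ Omax A act :=
  ⟨fun y => A.mul_mem _ _ (hφ.1 y) (hψ.1 y), fun σ hσ y => by
    simp only [Pi.mul_apply, map_mul, hφ.2 σ hσ y, hψ.2 σ hσ y]⟩

theorem Omax.neg {φ : M → Qb} (hφ : φ ∈ Omax A act) : -φ ∈ Omax A act :=
  ⟨fun y => A.neg_mem _ (hφ.1 y), fun σ hσ y => by
    simp only [Pi.neg_apply, map_neg, hφ.2 σ hσ y]⟩

theorem Omax.pow_mul (s : ℕ) {ψ : M → Qb} (hψ : ψ ∈ Omax A act) :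
    (fun y => (ℓ : Qb) ^ s * ψ y) ∈ Omax A act :=
  ⟨fun y => A.mul_mem _ _ (pow_mem (natCast_mem A ℓ) s) (hψ.1 y), fun σ hσ y => by
    simp only [map_mul, map_pow, map_natCast, hψ.2 σ hσ y]⟩

theorem Happ.omax {n : ℕ} {φ : M → Qb} (h : φ ∈ Happ CC n) : φ ∈ Omax A act := h.1

theorem Happ.const (n : ℕ) {c : Qb} (hc : IsUnr A c) : (fun _ : M => c) ∈ Happ CC n :=
  ⟨Omax.const hc, fun _ => ⟨C c, unrCoeffs_C hc, fun y _ a _ => by
    simp only [aeval_C, Algebra.algebraMap_self, RingHom.id_apply, sub_self]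
    exact zero_mem_lpow n⟩⟩

theorem Happ.add {n : ℕ} {φ ψ : M → Qb} (hφ : φ ∈ Happ CC n) (hψ : ψ ∈ Happ CC n) :
    φ + ψ ∈ Happ CC n := by
  refine ⟨Omax.add hφ.1 hψ.1, fun y₀ => ?_⟩
  obtain ⟨P, hP, hPφ⟩ := hφ.2 y₀
  obtain ⟨Q, hQ, hQψ⟩ := hψ.2 y₀
  refine ⟨P + Q, UnrCoeffs.add hP hQ, fun y hy a ha => ?_⟩
  have e : (φ + ψ) y - aeval a (P + Q) = (φ y - aeval a P) + (ψ y - aeval a Q) := by
    rw [Pi.add_apply, map_add]; ring
  rw [e]
  exact lpow_add (hPφ y hy a ha) (hQψ y hy a ha)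

theorem Happ.neg {n : ℕ} {φ : M → Qb} (hφ : φ ∈ Happ CC n) : -φ ∈ Happ CC n := by
  refine ⟨Omax.neg hφ.1, fun y₀ => ?_⟩
  obtain ⟨P, hP, hPφ⟩ := hφ.2 y₀
  refine ⟨-P, unrCoeffs_neg hP, fun y hy a ha => ?_⟩
  have e : (-φ) y - aeval a (-P) = -(φ y - aeval a P) := by
    rw [Pi.neg_apply, map_neg]; ring
  rw [e]
  exact lpow_neg (hPφ y hy a ha)

theorem Happ.mul {n : ℕ} {φ ψ : M → Qb} (hφ : φ ∈ Happ CC n) (hψ : ψ ∈ Happ CC n) :
    φ * ψ ∈ Happ CC n := by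
  refine ⟨Omax.mul hφ.1 hψ.1, fun y₀ => ?_⟩
  obtain ⟨P, hP, hPφ⟩ := hφ.2 y₀
  obtain ⟨Q, hQ, hQψ⟩ := hψ.2 y₀
  refine ⟨P * Q, UnrCoeffs.mul hP hQ, fun y hy a ha => ?_⟩
  have e : (φ * ψ) y - aeval a (P * Q) =
      ψ y * (φ y - aeval a P) + aeval a P * (ψ y - aeval a Q) := by
    rw [Pi.mul_apply, map_mul]; ring
  rw [e]
  exact lpow_add (lpow_mul_left (hψ.1.1 y) (hPφ y hy a ha))
    (lpow_mul_left (UnrCoeffs.aeval_mem hP (CC.mem ha)) (hQψ y hy a ha))

/-- the idempotent of a coset -/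
theorem Happ.idem (n : ℕ) (y₁ : M) [DecidablePred fun y => CC.rel y y₁] :
    (fun y => if CC.rel y y₁ then (1 : Qb) else 0) ∈ Happ CC n := by
  refine ⟨⟨fun y => ?_, fun σ hσ y => ?_⟩, fun y₀ => ?_⟩
  · beta_reduce
    split_ifs
    · exact A.one_mem
    · exact A.zero_mem
  · beta_reduce
    by_cases hy : CC.rel y y₁
    · rw [if_pos hy, if_pos ((CC.rel_inertia_iff hσ y y₁).2 hy), map_one]
    · rw [if_neg hy, if_neg (mt (CC.rel_inertia_iff hσ y y₁).1 hy), map_zero]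
  · by_cases h0 : CC.rel y₀ y₁
    · refine ⟨1, unrCoeffs_one, fun y hy a _ => ?_⟩
      beta_reduce
      rw [if_pos (CC.rel_trans hy h0), map_one, sub_self]
      exact zero_mem_lpow n
    · refine ⟨0, unrCoeffs_zero, fun y hy a _ => ?_⟩
      beta_reduce
      rw [if_neg (fun h => h0 (CC.rel_trans (CC.rel_symm hy) h)), map_zero, sub_self]
      exact zero_mem_lpow n

/-- `Happ` is decreasing in the level. -/
theorem Happ_anti (n : ℕ) : Happ CC (n + 1) ⊆ Happ CC n := by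
  intro φ hφ
  refine ⟨hφ.1, fun y₀ => ?_⟩
  obtain ⟨P, hP, hPφ⟩ := hφ.2 y₀
  refine ⟨P, hP, fun y hy a ha => ?_⟩
  obtain ⟨a', ha'⟩ := CC.exists_rep (n + 1) y
  have h1 : φ y - aeval a' P ∈ lpow A ℓ n := lpow_mono (Nat.le_succ n) (hPφ y hy a' ha')
  have h2 : aeval a' P - aeval a P ∈ lpow A ℓ n :=
    aeval_sub_aeval_mem_lpow hP (CC.mem ha') (CC.mem ha) (CC.congr (CC.mono ha') ha)
  have := lpow_add h1 h2
  simpa using this

theorem Happ_mono_le {m n : ℕ} (h : m ≤ n) : Happ CC n ⊆ Happ CC m := by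
  obtain ⟨k, rfl⟩ := Nat.exists_eq_add_of_le h
  induction k with
  | zero => simp
  | succ k ih =>
    exact (Happ_anti CC (m + k)).trans (ih (Nat.le_add_right m k))

theorem Hinf_subset_Happ (n : ℕ) : Hinf CC ⊆ Happ CC n := fun _ h => h n

theorem Hinf.omax {φ : M → Qb} (h : φ ∈ Hinf CC) : φ ∈ Omax A act := (h 0).1

theorem Hinf.const {c : Qb} (hc : IsUnr A c) : (fun _ : M => c) ∈ Hinf CC :=
  fun n => Happ.const CC n hc

theorem Hinf.add {φ ψ : M → Qb} (hφ : φ ∈ Hinf CC) (hψ : ψ ∈ Hinf CC) : φ + ψ ∈ Hinf CC :=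
  fun n => Happ.add CC (hφ n) (hψ n)

theorem Hinf.neg {φ : M → Qb} (hφ : φ ∈ Hinf CC) : -φ ∈ Hinf CC :=
  fun n => Happ.neg CC (hφ n)

theorem Hinf.mul {φ ψ : M → Qb} (hφ : φ ∈ Hinf CC) (hψ : ψ ∈ Hinf CC) : φ * ψ ∈ Hinf CC :=
  fun n => Happ.mul CC (hφ n) (hψ n)

theorem Hinf.idem (y₁ : M) [DecidablePred fun y => CC.rel y y₁] :
    (fun y => if CC.rel y y₁ then (1 : Qb) else 0) ∈ Hinf CC :=
  fun n => Happ.idem CC n y₁

/-- Membership in `Happ CC n` can be tested on ONE family of representatives. -/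
theorem mem_Happ_of_lift {n : ℕ} {τ : M → Fin g → Qb} (hτ : ∀ y, CC.Co n y (τ y)) {φ : M → Qb}
    (hφ : φ ∈ Omax A act)
    (h : ∀ y₀, ∃ P : MvPolynomial (Fin g) Qb, UnrCoeffs A P ∧
      ∀ y, CC.rel y y₀ → φ y - aeval (τ y) P ∈ lpow A ℓ n) : φ ∈ Happ CC n := by
  refine ⟨hφ, fun y₀ => ?_⟩
  obtain ⟨P, hP, hPφ⟩ := h y₀
  refine ⟨P, hP, fun y hy a ha => ?_⟩
  have h2 : aeval (τ y) P - aeval a P ∈ lpow A ℓ n :=
    aeval_sub_aeval_mem_lpow hP (CC.mem (hτ y)) (CC.mem ha) (CC.congr (hτ y) ha)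
  have := lpow_add (hPφ y hy) h2
  simpa using this

/-! ### (T2) inertia-equivariant representatives -/

/-- **Equivariant lifts.**  At every level there is a family of representatives which is
equivariant under the inertia group (choose a `stab`-representative on one point of every
inertia-orbit and transport it by `inertia`). -/
theorem exists_equivariant_lift (hone : ∀ y, act 1 y = y)
    (hmul : ∀ σ τ y, act (σ * τ) y = act σ (act τ y)) (n : ℕ) :
    ∃ τ : M → Fin g → Qb, (∀ y, CC.Co n y (τ y)) ∧ (∀ y i, τ y i ^ CC.e ∈ lpow A ℓ 1) ∧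
      ∀ σ ∈ A.inertiaSubgroupIn ℚ, ∀ y i, τ (act σ y) i = σ (τ y i) := by
  classical
  set I := A.inertiaSubgroupIn ℚ with hI
  -- the orbit relation
  have hinv : ∀ σ y, act σ⁻¹ (act σ y) = y := fun σ y => by
    rw [← hmul, inv_mul_cancel, hone]
  let s : Setoid M :=
    { r := fun y y' => ∃ σ ∈ I, act σ y = y'
      iseqv :=
        ⟨fun y => ⟨1, I.one_mem, hone y⟩,
          fun {y y'} ⟨σ, hσ, h⟩ => ⟨σ⁻¹, I.inv_mem hσ, by rw [← h, hinv]⟩,
          fun {y y' y''} ⟨σ, hσ, h⟩ ⟨τ, hτ, h'⟩ => ⟨τ * σ, I.mul_mem hτ hσ, by rw [hmul, h, h']⟩⟩ }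
  let r : M → M := fun y => (Quotient.mk s y).out
  have hr : ∀ y, ∃ ρ ∈ I, act ρ (r y) = y := fun y =>
    Quotient.exact (Quotient.out_eq (Quotient.mk s y))
  have hr_eq : ∀ σ ∈ I, ∀ y, r (act σ y) = r y := by
    intro σ hσ y
    have : Quotient.mk s (act σ y) = Quotient.mk s y :=
      Quotient.sound ⟨σ⁻¹, I.inv_mem hσ, hinv σ y⟩
    show (Quotient.mk s (act σ y)).out = (Quotient.mk s y).out
    rw [this]
  choose ρ hρI hρ using hr
  choose a₀ ha₀ hb₀ hfix₀ using CC.stab n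
  refine ⟨fun y i => ρ y (a₀ (r y) i), fun y => ?_, fun y i => ?_, fun σ hσ y i => ?_⟩
  · have := CC.inertia (ρ y) (hρI y) (ha₀ (r y))
    rwa [hρ y] at this
  · rw [← map_pow]
    exact inertia_apply_mem_lpow (hρI y) (hb₀ (r y) i)
  · show ρ (act σ y) (a₀ (r (act σ y)) i) = σ (ρ y (a₀ (r y) i))
    have h1 : act (ρ (act σ y)) (r y) = act σ y := by
      have := hρ (act σ y)
      rwa [hr_eq σ hσ y] at this
    rw [hr_eq σ hσ y]
    have hθI : (σ * ρ y)⁻¹ * ρ (act σ y) ∈ I :=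
      I.mul_mem (I.inv_mem (I.mul_mem hσ (hρI y))) (hρI _)
    have hθ : act ((σ * ρ y)⁻¹ * ρ (act σ y)) (r y) = r y := by
      rw [hmul, h1]
      have h2 : act σ y = act (σ * ρ y) (r y) := by rw [hmul, hρ y]
      rw [h2, hinv]
    have hfix := hfix₀ (r y) _ hθI hθ i
    have e : ρ (act σ y) = (σ * ρ y) * ((σ * ρ y)⁻¹ * ρ (act σ y)) := by group
    calc ρ (act σ y) (a₀ (r y) i)
        = ((σ * ρ y) * ((σ * ρ y)⁻¹ * ρ (act σ y))) (a₀ (r y) i) := by rw [← e]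
      _ = (σ * ρ y) (((σ * ρ y)⁻¹ * ρ (act σ y)) (a₀ (r y) i)) := AlgEquiv.mul_apply _ _ _
      _ = (σ * ρ y) (a₀ (r y) i) := by rw [hfix]
      _ = σ (ρ y (a₀ (r y) i)) := AlgEquiv.mul_apply _ _ _

/-! ### (T3) the separation level -/

/-- **Separation level.**  There is `n₁` such that for every `n ≥ n₁`, level-`n` representatives
of two distinct points of one coset differ modulo `ℓ^{n₁}A` in some coordinate. -/
theorem exists_sep_level [Finite M] :
    ∃ n₁ : ℕ, ∀ n, n₁ ≤ n → ∀ y y', CC.rel y y' → y ≠ y' → ∀ a a', CC.Co n y a → CC.Co n y' a' →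
      ∃ i, a i - a' i ∉ lpow A ℓ n₁ := by
  classical
  have key : ∀ y y', CC.rel y y' → y ≠ y' → ∃ N, ¬ ∃ a, CC.Co N y a ∧ CC.Co N y' a := by
    intro y y' hr hne
    by_contra h
    exact hne (CC.separated hr fun N => by
      by_contra hN
      exact h ⟨N, hN⟩)
  let N : M → M → ℕ := fun y y' =>
    if h : CC.rel y y' ∧ y ≠ y' then (key y y' h.1 h.2).choose else 0
  have := Fintype.ofFinite M
  refine ⟨Finset.univ.sup (fun p : M × M => N p.1 p.2), fun n hn y y' hr hne a a' ha ha' => ?_⟩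
  by_contra hcon'
  have hcon : ∀ i, a i - a' i ∈ lpow A ℓ (Finset.univ.sup (fun p : M × M => N p.1 p.2)) :=
    fun i => by
      by_contra hi
      exact hcon' ⟨i, hi⟩
  have hN : N y y' ≤ Finset.univ.sup (fun p : M × M => N p.1 p.2) :=
    Finset.le_sup (f := fun p : M × M => N p.1 p.2) (Finset.mem_univ (y, y'))
  have hspec : ¬ ∃ a, CC.Co (N y y') y a ∧ CC.Co (N y y') y' a := by
    simp only [N, dif_pos (And.intro hr hne)]
    exact (key y y' hr hne).choose_spec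
  apply hspec
  refine ⟨a, CC.mono_le (hN.trans hn) ha, ?_⟩
  exact CC.of_congr (CC.mono_le (hN.trans hn) ha') (CC.nonunit ha)
    (fun i => lpow_sub_comm (lpow_mono hN (hcon i)))

/-! ### (T4) conductor and stabilisation -/

/-- **Conductor** (uses [A1]): `ℓ^s · Omax ⊆ Happ CC n` for all `n ≥ n₁`, with `s` independent of
`n`. -/
theorem exists_conductor [Finite M] (hone : ∀ y, act 1 y = y)
    (hmul : ∀ σ τ y, act (σ * τ) y = act σ (act τ y)) (hEL : LagrangeHyp ℓ A act) :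
    ∃ s n₁ : ℕ, ∀ n, n₁ ≤ n → ∀ ψ ∈ Omax A act, (fun y => (ℓ : Qb) ^ s * ψ y) ∈ Happ CC n := by
  obtain ⟨n₁, hsep⟩ := exists_sep_level CC
  refine ⟨n₁ * Nat.card M, n₁, fun n hn ψ hψ => ?_⟩
  obtain ⟨τ, hτ, -, hτI⟩ := exists_equivariant_lift CC hone hmul n
  refine mem_Happ_of_lift CC hτ (Omax.pow_mul _ hψ) fun y₀ => ?_
  obtain ⟨P, hP, hPeq⟩ := hEL {y | CC.rel y y₀}
    (fun σ hσ y hy => (CC.rel_inertia_iff hσ y y₀).2 hy) g τ
    (fun y _ i => CC.mem (hτ y) i) (fun σ hσ y _ i => hτI σ hσ y i) n₁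
    (fun y hy y' hy' hne => hsep n hn y y' (CC.rel_trans hy (CC.rel_symm hy')) hne _ _
      (hτ y) (hτ y'))
    ψ (fun y _ => hψ.1 y) (fun σ hσ y _ => hψ.2 σ hσ y)
  refine ⟨P, hP, fun y hy => ?_⟩
  rw [hPeq y hy, sub_self]
  exact zero_mem_lpow n

/-- Above the conductor the orders `Happ CC m` increase with the level. -/
theorem Happ_subset_of_le [Finite M] (hℓ0 : ℓ ≠ 0) (hone : ∀ y, act 1 y = y)
    (hmul : ∀ σ τ y, act (σ * τ) y = act σ (act τ y)) {s n₁ : ℕ}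
    (hcond : ∀ n, n₁ ≤ n → ∀ ψ ∈ Omax A act, (fun y => (ℓ : Qb) ^ s * ψ y) ∈ Happ CC n)
    {m n : ℕ} (hsm : s ≤ m) (hn : n₁ ≤ n) (hmn : m ≤ n) : Happ CC m ⊆ Happ CC n := by
  classical
  intro φ hφ
  obtain ⟨hφO, hφP⟩ := hφ
  obtain ⟨τ, hτ, -, hτI⟩ := exists_equivariant_lift CC hone hmul n
  refine ⟨hφO, fun y₀ => ?_⟩
  obtain ⟨P, hP, hPφ⟩ := hφP y₀
  have hℓQ : (ℓ : Qb) ≠ 0 := Nat.cast_ne_zero.2 hℓ0
  have herr : ∀ y, CC.rel y y₀ → φ y - aeval (τ y) P ∈ lpow A ℓ m := fun y hy =>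
    hPφ y hy (τ y) (CC.mono_le hmn (hτ y))
  let ψ : M → Qb := fun y =>
    if CC.rel y y₀ then (φ y - aeval (τ y) P) / (ℓ : Qb) ^ m else 0
  have hψeq : ∀ y, CC.rel y y₀ → φ y - aeval (τ y) P = (ℓ : Qb) ^ m * ψ y := by
    intro y hy
    simp only [ψ, if_pos hy]
    rw [mul_div_cancel₀ _ (pow_ne_zero m hℓQ)]
  have hψO : ψ ∈ Omax A act := by
    constructor
    · intro y
      by_cases hy : CC.rel y y₀
      · obtain ⟨b, hb, e⟩ := herr y hy
        simp only [ψ, if_pos hy]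
        rw [e, mul_div_cancel_left₀ _ (pow_ne_zero m hℓQ)]
        exact hb
      · simp only [ψ, if_neg hy]
        exact A.zero_mem
    · intro σ hσ y
      by_cases hy : CC.rel y y₀
      · simp only [ψ, if_pos hy, if_pos ((CC.rel_inertia_iff hσ y y₀).2 hy)]
        rw [map_div₀, map_sub, map_pow, map_natCast, hφO.2 σ hσ y, inertia_aeval hP hσ]
        have : τ (act σ y) = fun i => σ (τ y i) := funext fun i => hτI σ hσ y i
        rw [this]
      · simp only [ψ, if_neg hy, if_neg (mt (CC.rel_inertia_iff hσ y y₀).1 hy), map_zero]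
  obtain ⟨-, hQ⟩ := hcond n hn ψ hψO
  obtain ⟨Q, hQ, hQψ⟩ := hQ y₀
  refine ⟨P + C ((ℓ : Qb) ^ (m - s)) * Q,
    UnrCoeffs.add hP (UnrCoeffs.mul (unrCoeffs_C (isUnr_natCast_pow ℓ (m - s))) hQ),
    fun y hy a ha => ?_⟩
  have h1 : aeval (τ y) P - aeval a P ∈ lpow A ℓ n :=
    aeval_sub_aeval_mem_lpow hP (CC.mem (hτ y)) (CC.mem ha) (CC.congr (hτ y) ha)
  have h2 : (ℓ : Qb) ^ s * ψ y - aeval a Q ∈ lpow A ℓ n := hQψ y hy a ha
  have hpow : (ℓ : Qb) ^ m = (ℓ : Qb) ^ (m - s) * (ℓ : Qb) ^ s := by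
    rw [← pow_add, Nat.sub_add_cancel hsm]
  have e : φ y - aeval a (P + C ((ℓ : Qb) ^ (m - s)) * Q) =
      (aeval (τ y) P - aeval a P) + (ℓ : Qb) ^ (m - s) * ((ℓ : Qb) ^ s * ψ y - aeval a Q) := by
    rw [map_add, map_mul, aeval_C]
    simp only [Algebra.algebraMap_self, RingHom.id_apply]
    linear_combination hψeq y hy + ψ y * hpow
  rw [e]
  exact lpow_add h1 (lpow_mul_left (pow_mem (natCast_mem A ℓ) _) h2)

/-- **Structure theorem for `H' = Hinf CC`** (uses [A1]): there are `s` and `n₂` such that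
* `ℓ^s · Omax ⊆ Hinf CC` (full rank / conductor),
* `Happ CC n = Hinf CC` for all `n ≥ n₂` (membership can be tested at ONE level),
* for all `n ≥ n₂` there are inertia-equivariant coordinate functions `τ` at level `n` all of
  whose components lie in `Hinf CC`. -/
theorem exists_structure [Finite M] (hℓ0 : ℓ ≠ 0) (hone : ∀ y, act 1 y = y)
    (hmul : ∀ σ τ y, act (σ * τ) y = act σ (act τ y)) (hEL : LagrangeHyp ℓ A act) :
    ∃ s n₂ : ℕ,
      (∀ ψ ∈ Omax A act, (fun y => (ℓ : Qb) ^ s * ψ y) ∈ Hinf CC) ∧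
      (∀ n, n₂ ≤ n → Happ CC n = Hinf CC) ∧
      (∀ n, n₂ ≤ n → ∃ τ : M → Fin g → Qb, (∀ y, CC.Co n y (τ y)) ∧
        (∀ σ ∈ A.inertiaSubgroupIn ℚ, ∀ y i, τ (act σ y) i = σ (τ y i)) ∧
        ∀ i, (fun y => τ y i) ∈ Hinf CC) := by
  obtain ⟨s, n₁, hcond⟩ := exists_conductor CC hone hmul hEL
  have hstab : ∀ n, max s n₁ ≤ n → Happ CC n = Hinf CC := by
    intro n hn
    refine Set.Subset.antisymm (fun φ hφ k => ?_) (Hinf_subset_Happ CC n)
    rcases le_total k n with hkn | hnk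
    · exact Happ_mono_le CC hkn hφ
    · exact Happ_subset_of_le CC hℓ0 hone hmul hcond ((le_max_left _ _).trans hn)
        ((le_max_right _ _).trans (hn.trans hnk)) hnk hφ
  refine ⟨s, max s n₁, fun ψ hψ k => ?_, hstab, fun n hn => ?_⟩
  · exact Happ_mono_le CC (le_max_left k n₁) (hcond _ (le_max_right k n₁) ψ hψ)
  · obtain ⟨τ, hτ, -, hτI⟩ := exists_equivariant_lift CC hone hmul n
    refine ⟨τ, hτ, hτI, fun i => ?_⟩
    rw [← hstab n hn]
    refine mem_Happ_of_lift CC hτ ⟨fun y => CC.mem (hτ y) i, fun σ hσ y => hτI σ hσ y i⟩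
      fun y₀ => ⟨X i, unrCoeffs_X i, fun y _ => ?_⟩
    rw [aeval_X, sub_self]
    exact zero_mem_lpow n

/-- (T6) If the maximal order separates the points of `M`, so does `Hinf CC`. -/
theorem Hinf_separates [Finite M] (hℓ0 : ℓ ≠ 0) (hone : ∀ y, act 1 y = y)
    (hmul : ∀ σ τ y, act (σ * τ) y = act σ (act τ y)) (hEL : LagrangeHyp ℓ A act)
    (hsep : ∀ y y' : M, y ≠ y' → ∃ ψ ∈ Omax A act, ψ y ≠ ψ y') :
    ∀ y y' : M, y ≠ y' → ∃ φ ∈ Hinf CC, φ y ≠ φ y' := by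
  obtain ⟨s, -, hs, -, -⟩ := exists_structure CC hℓ0 hone hmul hEL
  intro y y' hne
  obtain ⟨ψ, hψ, hψne⟩ := hsep y y' hne
  refine ⟨_, hs ψ hψ, fun h => hψne ?_⟩
  exact mul_left_cancel₀ (pow_ne_zero s (Nat.cast_ne_zero.2 hℓ0)) h

end Main

end Fermat.Agent.S19.Order.Stabilise
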