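/-
S19 / ORD-A, assembly: the leaves [A2] (`Stabilise.lean`) and [A3c] (`Comul.lean`) in the shape of
`MainWire.HinfTarget`, from leaf [A1] (equivariant Lagrange interpolation, for arbitrary finite
`G_ℚ`-sets) and the separation property of the maximal order `Omax`.
-/
import Mathlib
import Fermat.Agent.S19.Order.MainWire
import Fermat.Agent.S19.Order.Stabilise
import Fermat.Agent.S19.Order.Comul

set_option autoImplicit false

namespace Fermat.Agent.S19.Order.MainHinf

open Fermat.Agent.S19.Abs Fermat.Agent.S19.Coord Fermat.Agent.S19.Order.Stabilise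

/-- The statement of leaf [A1]: equivariant Lagrange interpolation on every finite set with an
action of `G_ℚ`. -/
def LagrangeTarget : Prop :=
  ∀ (ℓ : ℕ) [Fact ℓ.Prime] (A : ValuationSubring Qb), A.LiesOverPrime ℓ →
    ∀ (X : Type) [Finite X] (actX : GQ → X → X), (∀ y, actX 1 y = y) →
      (∀ σ τ y, actX (σ * τ) y = actX σ (actX τ y)) → LagrangeHyp ℓ A actX

/-- The maximal order separates points (finite module, open stabilisers). -/
def OmaxSepTarget : Prop :=
  ∀ (ℓ : ℕ) [Fact ℓ.Prime] (A : ValuationSubring Qb), A.LiesOverPrime ℓ →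
    ∀ (M : Type) [AddCommGroup M] [Finite M] (act : GQ → M → M), IsGalAction act →
      (∀ y : M, ∃ E : IntermediateField ℚ Qb, FiniteDimensional ℚ E ∧
        ∀ σ : GQ, (∀ x ∈ E, σ x = x) → act σ y = y) →
      ∀ y y' : M, y ≠ y' → ∃ ψ ∈ Omax A act, ψ y ≠ ψ y'

/-- **[A2] + [A3c]** in the shape consumed by `MainWire.orderTarget_of_blocks`. -/
theorem hinfTarget_of (hL : LagrangeTarget) (hO : OmaxSepTarget) : MainWire.HinfTarget := by
  intro ℓ hℓ A hA M _ _ act hact hopen g CC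
  have hℓ0 : ℓ ≠ 0 := hℓ.out.ne_zero
  have hEL : LagrangeHyp ℓ A act := hL ℓ A hA M act hact.one hact.mul
  have hEL₂ : LagrangeHyp ℓ A (Comul.act₂ act) :=
    hL ℓ A hA (M × M) (Comul.act₂ act) (fun p => Prod.ext (hact.one p.1) (hact.one p.2))
      (fun σ τ p => Prod.ext (hact.mul σ τ p.1) (hact.mul σ τ p.2))
  refine ⟨Stabilise.Hinf_separates CC hℓ0 hact.one hact.mul hEL (hO ℓ A hA M act hact hopen), ?_⟩
  intro φ hφ
  obtain ⟨s, n₂, -, -, hτ⟩ := Stabilise.exists_structure CC hℓ0 hact.one hact.mul hEL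
  refine Comul.comul_Hinf CC hℓ0 hact.add hEL₂ ⟨n₂, fun n hn => ?_⟩ hφ
  obtain ⟨τ, h1, -, h3⟩ := hτ n hn
  exact ⟨τ, h3, h1⟩

end Fermat.Agent.S19.Order.MainHinf
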