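/-
S19 / ORD-A (order layer), complement to leaf [A2] (helper6): **the maximal order separates the
points of `M`**.

`M` a set with an action `act` of `G_ℚ` with open stabilisers, `A` a valuation subring of `ℚ̄`,
`I = A.inertiaSubgroupIn ℚ`, `Omax A act` the `A`-valued `I`-equivariant functions on `M`.  For
`y ≠ y'` there is `ψ ∈ Omax A act` with `ψ y ≠ ψ y'`:

* if `y'` is not in the `I`-orbit of `y`: the indicator function of the orbit;
* if `y' = σ₀ y`, `σ₀ ∈ I`: the stabiliser `S` of `y` in `G_ℚ` is open, `σ₀ ∉ S`, so by (infinite)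
  Galois theory there is `α ∈ ℚ̄` fixed by `S` and moved by `σ₀`; replacing `α` by `α⁻¹` if
  necessary, `α ∈ A`; then `ψ (ρ y) := ρ α` (`ρ ∈ I`), `ψ = 0` off the orbit.

This is the hypothesis `hsep` of `Stabilise.Hinf_separates`.
-/
import Mathlib
import Fermat.Agent.S19.Order.Stabilise

set_option autoImplicit false
set_option linter.unusedSectionVars false

namespace Fermat.Agent.S19.Order.Stabilise

open Fermat.Agent.S19.Abs Fermat.Agent.S19.Coord

/-- `ℚ̄/ℚ` is an algebraic closure for the default algebra structure. -/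
theorem isAlgClosure_Qb : IsAlgClosure ℚ Qb := by
  have h : (DivisionRing.toRatAlgebra : Algebra ℚ Qb) = AlgebraicClosure.instAlgebra ℚ :=
    Subsingleton.elim _ _
  rw [h]; infer_instance

theorem isGalois_Qb : IsGalois ℚ Qb :=
  haveI := isAlgClosure_Qb
  inferInstance

/-- A subgroup of `G_ℚ` containing the fixing subgroup of a number field is the fixing subgroup of
its fixed field: an element outside it moves some element fixed by it. -/
theorem exists_fixed_moved {S : Subgroup GQ} {E : IntermediateField ℚ Qb}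
    [FiniteDimensional ℚ E] (hES : ∀ σ : GQ, (∀ x ∈ E, σ x = x) → σ ∈ S) {σ₀ : GQ}
    (hσ₀ : σ₀ ∉ S) : ∃ α : Qb, (∀ ρ ∈ S, ρ α = α) ∧ σ₀ α ≠ α := by
  have := isGalois_Qb
  have hle : E.fixingSubgroup ≤ S := by
    intro σ hσ
    refine hES σ fun x hx => ?_
    exact (IntermediateField.mem_fixingSubgroup_iff E σ).1 hσ x hx
  have hopen : IsOpen (S : Set GQ) :=
    Subgroup.isOpen_mono hle (IntermediateField.fixingSubgroup_isOpen E)
  have hclosed : IsClosed (S : Set GQ) := Subgroup.isClosed_of_isOpen S hopen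
  have h := InfiniteGalois.fixingSubgroup_fixedField (k := ℚ) (K := Qb) ⟨S, hclosed⟩
  have hσ₀' : σ₀ ∉ (IntermediateField.fixedField
      (⟨S, hclosed⟩ : ClosedSubgroup GQ).toSubgroup).fixingSubgroup := by
    rw [h]; exact hσ₀
  rw [IntermediateField.mem_fixingSubgroup_iff] at hσ₀'
  push Not at hσ₀'
  obtain ⟨α, hα, hne⟩ := hσ₀'
  refine ⟨α, fun ρ hρ => ?_, hne⟩
  exact (IntermediateField.mem_fixedField_iff _ α).1 hα ρ hρ

variable {A : ValuationSubring Qb} {M : Type} {act : GQ → M → M}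

/-- **The maximal order separates the points of `M`.** -/
theorem omax_separates (A : ValuationSubring Qb) (hone : ∀ y : M, act 1 y = y)
    (hmul : ∀ σ τ y, act (σ * τ) y = act σ (act τ y))
    (hopen : ∀ y : M, ∃ E : IntermediateField ℚ Qb, FiniteDimensional ℚ E ∧
      ∀ σ : GQ, (∀ x ∈ E, σ x = x) → act σ y = y) :
    ∀ y y' : M, y ≠ y' → ∃ ψ ∈ Omax A act, ψ y ≠ ψ y' := by
  classical
  intro y y' hne
  set I := A.inertiaSubgroupIn ℚ with hI
  have hinv : ∀ σ z, act σ⁻¹ (act σ z) = z := fun σ z => by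
    rw [← hmul, inv_mul_cancel, hone]
  have hinv' : ∀ σ z, act σ (act σ⁻¹ z) = z := fun σ z => by
    rw [← hmul, mul_inv_cancel, hone]
  -- the orbit of `y` is stable under `I`
  have horb : ∀ τ ∈ I, ∀ z, (∃ ρ ∈ I, act ρ y = z) ↔ ∃ ρ ∈ I, act ρ y = act τ z := by
    intro τ hτ z
    constructor
    · rintro ⟨ρ, hρ, rfl⟩
      exact ⟨τ * ρ, I.mul_mem hτ hρ, hmul τ ρ y⟩
    · rintro ⟨ρ, hρ, h⟩
      refine ⟨τ⁻¹ * ρ, I.mul_mem (I.inv_mem hτ) hρ, ?_⟩
      rw [hmul, h, hinv]
  by_cases horbit : ∃ σ₀ ∈ I, act σ₀ y = y'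
  · -- `y' = σ₀ y`
    obtain ⟨σ₀, hσ₀I, rfl⟩ := horbit
    -- the stabiliser of `y`
    let S : Subgroup GQ :=
      { carrier := {ρ | act ρ y = y}
        mul_mem' := fun {a b} ha hb => by
          show act (a * b) y = y
          rw [hmul, show act b y = y from hb, show act a y = y from ha]
        one_mem' := hone y
        inv_mem' := fun {a} ha => by
          show act a⁻¹ y = y
          have h := hinv a y
          rwa [show act a y = y from ha] at h }
    have hσ₀S : σ₀ ∉ S := fun h => hne (show act σ₀ y = y from h).symm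
    obtain ⟨E, hEfin, hE⟩ := hopen y
    have := hEfin
    obtain ⟨α₀, hα₀S, hα₀⟩ := exists_fixed_moved (S := S) (E := E) (fun σ hσ => hE σ hσ) hσ₀S
    -- move `α₀` into `A`
    obtain ⟨α, hαA, hαS, hα⟩ : ∃ α : Qb, α ∈ A ∧ (∀ ρ ∈ S, ρ α = α) ∧ σ₀ α ≠ α := by
      rcases A.mem_or_inv_mem α₀ with h | h
      · exact ⟨α₀, h, hα₀S, hα₀⟩
      · refine ⟨α₀⁻¹, h, fun ρ hρ => by rw [map_inv₀, hα₀S ρ hρ], fun hcon => hα₀ ?_⟩
        rw [map_inv₀] at hcon
        exact inv_injective hcon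
    -- well-definedness on the orbit
    have hwd : ∀ ρ ∈ I, ∀ ρ' ∈ I, act ρ y = act ρ' y → ρ α = ρ' α := by
      intro ρ _ ρ' _ h
      have hS : ρ'⁻¹ * ρ ∈ S := by
        show act (ρ'⁻¹ * ρ) y = y
        rw [hmul, h, hinv]
      have h1 := hαS _ hS
      rw [AlgEquiv.mul_apply] at h1
      have h2 := congrArg ρ' h1
      rw [← AlgEquiv.mul_apply, mul_inv_cancel, AlgEquiv.one_apply] at h2
      exact h2
    let ψ : M → Qb := fun z => if h : ∃ ρ ∈ I, act ρ y = z then h.choose α else 0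
    have hψ : ∀ ρ ∈ I, ψ (act ρ y) = ρ α := by
      intro ρ hρ
      have h : ∃ ρ' ∈ I, act ρ' y = act ρ y := ⟨ρ, hρ, rfl⟩
      simp only [ψ, dif_pos h]
      exact hwd _ h.choose_spec.1 _ hρ h.choose_spec.2
    refine ⟨ψ, ⟨fun z => ?_, fun τ hτ z => ?_⟩, ?_⟩
    · by_cases h : ∃ ρ ∈ I, act ρ y = z
      · simp only [ψ, dif_pos h]
        exact inertia_apply_mem h.choose_spec.1 hαA
      · simp only [ψ, dif_neg h]
        exact A.zero_mem
    · by_cases h : ∃ ρ ∈ I, act ρ y = z
      · obtain ⟨ρ, hρ, rfl⟩ := h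
        rw [← hmul, hψ _ (I.mul_mem hτ hρ), hψ ρ hρ, AlgEquiv.mul_apply]
      · have h' : ¬ ∃ ρ ∈ I, act ρ y = act τ z := fun hc => h ((horb τ hτ z).2 hc)
        simp only [ψ, dif_neg h, dif_neg h', map_zero]
    · have h1 : ψ y = α := by
        have := hψ 1 I.one_mem
        rwa [hone, AlgEquiv.one_apply] at this
      rw [h1, hψ σ₀ hσ₀I]
      exact fun h => hα h.symm
  · -- `y'` outside the orbit: the indicator function of the orbit
    refine ⟨fun z => if ∃ ρ ∈ I, act ρ y = z then 1 else 0, ⟨fun z => ?_, fun τ hτ z => ?_⟩, ?_⟩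
    · beta_reduce
      split_ifs
      · exact A.one_mem
      · exact A.zero_mem
    · beta_reduce
      by_cases h : ∃ ρ ∈ I, act ρ y = z
      · rw [if_pos h, if_pos ((horb τ hτ z).1 h), map_one]
      · rw [if_neg h, if_neg (fun hc => h ((horb τ hτ z).2 hc)), map_zero]
    · beta_reduce
      rw [if_pos ⟨1, I.one_mem, hone y⟩, if_neg horbit]
      exact one_ne_zero

end Fermat.Agent.S19.Order.Stabilise
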