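/-
S19 / ORDER layer, final assembly: **`Coord.OrderTarget`** — every finite `G_ℚ`-stable subgroup of
an abelian group with a coordinate system (and open stabilisers) carries a Hopf order over `ℤ_(ℓ)`.

`[O1]` `Cosets.cosetCoords` (helper12) + `[A1]` `Lagrange.lagrangeHyp` (helper24) + `[A2]`
`Stabilise` / `OmaxSeparates` (helper6) + `[A3c]` `Comul` / `ComulCore` (helper28, helper3) +
`[A3s]` `Stable` + ORD-B `DescentNr` (helper15), wired by `MainWire.orderTarget_of_blocks`.
-/
import Mathlib
import Fermat.Agent.S19.Order.MainWire
import Fermat.Agent.S19.Order.MainCoset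
import Fermat.Agent.S19.Order.MainHinf
import Fermat.Agent.S19.Order.Lagrange
import Fermat.Agent.S19.Order.OmaxSeparates
import Fermat.Agent.S19.Order.DescentNr

set_option autoImplicit false

namespace Fermat.Agent.S19.Order.OrderTargetProof

open Fermat.Agent.S19.Abs Fermat.Agent.S19.Coord Fermat.Agent.S19.Order.Stabilise

/-- leaf [A1] in the shape of `MainHinf.LagrangeTarget` -/
theorem lagrangeTarget : MainHinf.LagrangeTarget :=
  fun _ _ _ _ _ _ _ h1 h2 => Lagrange.lagrangeHyp h1 h2

/-- the maximal order separates points -/
theorem omaxSepTarget : MainHinf.OmaxSepTarget :=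
  fun _ _ A _ _ _ _ _ hact hopen => omax_separates A hact.one hact.mul hopen

/-- ORD-A: the two non-formal fields of `IsNrOrder` for `Hinf CC` -/
theorem hinfTarget : MainWire.HinfTarget :=
  MainHinf.hinfTarget_of lagrangeTarget omaxSepTarget

/-- ORD-B in the shape of `MainWire.DescentTarget` -/
theorem descentTarget : MainWire.DescentTarget :=
  fun ℓ _ A hA _ _ _ _ hact hopen _ h =>
    DescentNr.exists_isHopfOrder_of_isNrOrder ℓ A hA hact hopen h

/-- **The deliverable of the order layer.** -/
theorem orderTarget : Coord.OrderTarget :=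
  MainWire.orderTarget_of_blocks MainCoset.cosetTarget hinfTarget descentTarget

end Fermat.Agent.S19.Order.OrderTargetProof
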