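/-
S19 / ORD-A, leaf [O1] (helper12): **`CoordSystem` + a finite Galois-stable subgroup `M ≤ Jb`
⟹ `CosetCoords`** (the abstract interface of the ORD-A leaves, `Order/CosetCoords.lean`).

`M⁰ = M ∩ J1`; `rel y y' :⇔ y - y' ∈ J1`; centres `centre y ∈ U` with `y - centre y ∈ J1`, constant
on the cosets of `M⁰` (from (C7) `exists_lift`); `Co n y a := C.IsCoord n (y - centre y) a`.

The only input which is not in the contract is the "rank one" property of `A` (`RamBound`): every
element of `𝔪_A` has a power in `ℓA` (leaf [LOC] (L2), `Order/LocRam.lean`).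

* `Cosets.cosetCoords hA hact C hram M hM : CosetCoords ℓ A (actM M hM) C.g`.
-/
import Mathlib
import Fermat.Prelude.Def_FLTPrelim_Ramification
import Fermat.Agent.S19.Abs.Defs
import Fermat.Agent.S19.Coord.Defs
import Fermat.Agent.S19.Order.UnrPoly
import Fermat.Agent.S19.Order.CosetCoords

set_option autoImplicit false

namespace Fermat.Agent.S19.Order.Cosets

open Fermat.Agent.S19.Abs Fermat.Agent.S19.Coord Fermat.Agent.S19.Order.UnrPoly
  Fermat.Agent.S19.Order.Stabilise MvPolynomial

variable {ℓ : ℕ} {A : ValuationSubring Qb} {Jb : Type} [AddCommGroup Jb] {actJ : GQ → Jb → Jb}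

/-- **Bounded ramification** (rank one): every element of `𝔪_A` has a power in `ℓA`. -/
def RamBound (ℓ : ℕ) (A : ValuationSubring Qb) : Prop :=
  ∀ x : Qb, x ∈ A.nonunits → ∃ e : ℕ, 0 < e ∧ x ^ e ∈ lpow A ℓ 1

/-! ### Galois actions by additive maps -/

theorem act_zero (hact : IsGalAction actJ) (σ : GQ) : actJ σ 0 = 0 := by
  have h := hact.add σ 0 0
  rw [add_zero] at h
  exact left_eq_add.mp h

theorem act_neg (hact : IsGalAction actJ) (σ : GQ) (y : Jb) : actJ σ (-y) = -actJ σ y := by
  have h := hact.add σ y (-y)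
  rw [add_neg_cancel, act_zero hact] at h
  exact (neg_eq_of_add_eq_zero_right h.symm).symm

theorem act_sub (hact : IsGalAction actJ) (σ : GQ) (y y' : Jb) :
    actJ σ (y - y') = actJ σ y - actJ σ y' := by
  rw [sub_eq_add_neg, hact.add, act_neg hact, ← sub_eq_add_neg]

/-! ### Bounded tuples -/

/-- all coordinates have their `e`-th power in `ℓA` -/
def Bdd (ℓ : ℕ) (A : ValuationSubring Qb) (e : ℕ) {g : ℕ} (a : Fin g → Qb) : Prop :=
  ∀ i, a i ^ e ∈ lpow A ℓ 1

theorem zero_mem_nonunits : (0 : Qb) ∈ A.nonunits := by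
  rw [A.mem_nonunits_iff, map_zero]
  exact zero_lt_one

theorem mem_of_mem_nonunits {x : Qb} (hx : x ∈ A.nonunits) : x ∈ A :=
  ValuationSubring.nonunits_le hx

theorem pow_mem_lpow_of_le {x : Qb} (hx : x ∈ A) {e e' : ℕ} (h : e ≤ e')
    (hxe : x ^ e ∈ lpow A ℓ 1) : x ^ e' ∈ lpow A ℓ 1 := by
  obtain ⟨k, rfl⟩ := Nat.exists_eq_add_of_le h
  rw [pow_add, mul_comm]
  exact mul_mem_lpow (A.pow_mem hx k) hxe

theorem Bdd.mono {g : ℕ} {a : Fin g → Qb} {e e' : ℕ} (h : e ≤ e') (ha : ∀ i, a i ∈ A)
    (hb : Bdd ℓ A e a) : Bdd ℓ A e' a := fun i => pow_mem_lpow_of_le (ha i) h (hb i)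

theorem pow_mem_lpow_of_sub_mem {x x' : Qb} (hx : x ∈ A) (hx' : x' ∈ A) {e : ℕ}
    (h : x - x' ∈ lpow A ℓ 1) (hxe : x ^ e ∈ lpow A ℓ 1) : x' ^ e ∈ lpow A ℓ 1 := by
  have h1 : x' ^ e = x ^ e - (∑ i ∈ Finset.range e, x ^ i * x' ^ (e - 1 - i)) * (x - x') := by
    rw [(Commute.all x x').geom_sum₂_mul]
    ring
  rw [h1]
  refine sub_mem_lpow hxe ?_
  refine mul_mem_lpow ?_ h
  exact A.sum_mem fun i _ => A.mul_mem _ _ (A.pow_mem hx _) (A.pow_mem hx' _)

theorem Bdd.of_congr {g : ℕ} {a a' : Fin g → Qb} {e : ℕ} (ha : ∀ i, a i ∈ A)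
    (ha' : ∀ i, a' i ∈ A) (h : ∀ i, a i - a' i ∈ lpow A ℓ 1) (hb : Bdd ℓ A e a) :
    Bdd ℓ A e a' := fun i => pow_mem_lpow_of_sub_mem (ha i) (ha' i) (h i) (hb i)

theorem exists_bdd_of_nonunit (hram : RamBound ℓ A) {g : ℕ} (a : Fin g → Qb)
    (ha : ∀ i, a i ∈ A.nonunits) : ∃ e : ℕ, 0 < e ∧ Bdd ℓ A e a := by
  choose e he using fun i => hram (a i) (ha i)
  refine ⟨1 + ∑ i, e i, by omega, fun i => ?_⟩
  refine pow_mem_lpow_of_le (mem_of_mem_nonunits (ha i)) ?_ (he i).2
  have := Finset.single_le_sum (f := e) (fun j _ => Nat.zero_le _) (Finset.mem_univ i)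
  omega

/-! ### Consequences of the contract -/

section Contract

variable (C : CoordSystem ℓ A Jb actJ)

theorem mono_le {m n : ℕ} (h : m ≤ n) {z : Jb} {a : Fin C.g → Qb} (ha : C.IsCoord n z a) :
    C.IsCoord m z a := by
  induction n, h using Nat.le_induction with
  | base => exact ha
  | succ n _ ih => exact ih (C.mono ha)

theorem mem_A_of_isCoord {n : ℕ} {z : Jb} {a : Fin C.g → Qb} (ha : C.IsCoord n z a) (i : Fin C.g) :
    a i ∈ A := mem_of_mem_nonunits (C.nonunit ha i)

/-- at level `0` every tuple of `𝔪_A` is a representative -/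
theorem isCoord_zero_level {z : Jb} (hz : z ∈ C.J1) {a : Fin C.g → Qb}
    (ha : ∀ i, a i ∈ A.nonunits) : C.IsCoord 0 z a := by
  obtain ⟨b, hb⟩ := C.exists_rep hz 0
  refine C.of_congr hb ha fun i => ?_
  refine ⟨b i - a i, sub_mem (mem_A_of_isCoord C hb i) (mem_of_mem_nonunits (ha i)), ?_⟩
  rw [pow_zero, one_mul]

/-- a uniform ramification bound for all representatives (at levels `≥ 1`) of one point -/
theorem exists_bdd (hram : RamBound ℓ A) {z : Jb} (hz : z ∈ C.J1) :
    ∃ e : ℕ, 0 < e ∧ ∀ n, 1 ≤ n → ∀ a, C.IsCoord n z a → Bdd ℓ A e a := by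
  obtain ⟨a₁, ha₁⟩ := C.exists_rep hz 1
  obtain ⟨e, he, hb⟩ := exists_bdd_of_nonunit hram a₁ (C.nonunit ha₁)
  refine ⟨e, he, fun n hn a ha => ?_⟩
  exact hb.of_congr (mem_A_of_isCoord C ha₁) (mem_A_of_isCoord C ha)
    (C.congr ha₁ (mono_le C hn ha))

/-- a uniform ramification bound for a finite family of points -/
theorem exists_bdd_family (hram : RamBound ℓ A) {ι : Type*} [Finite ι] (z : ι → Jb)
    (hz : ∀ k, z k ∈ C.J1) :
    ∃ e : ℕ, 0 < e ∧ ∀ k n, 1 ≤ n → ∀ a, C.IsCoord n (z k) a → Bdd ℓ A e a := by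
  have := Fintype.ofFinite ι
  choose e he using fun k => exists_bdd C hram (hz k)
  refine ⟨1 + ∑ k, e k, by omega, fun k n hn a ha => ?_⟩
  refine ((he k).2 n hn a ha).mono ?_ (mem_A_of_isCoord C ha)
  have := Finset.single_le_sum (f := e) (fun j _ => Nat.zero_le _) (Finset.mem_univ k)
  omega

/-- **Separation through the group law**: two points of `J1` with a common representative at every
level are equal. -/
theorem eq_of_common_rep (hram : RamBound ℓ A) {z z' : Jb} (hz : z ∈ C.J1) (hz' : z' ∈ C.J1)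
    (h : ∀ n, ∃ a, C.IsCoord n z a ∧ C.IsCoord n z' a) : z = z' := by
  have hneg : -z' ∈ C.J1 := C.J1.neg_mem hz'
  have hsub : z - z' ∈ C.J1 := C.J1.sub_mem hz hz'
  have key : ∀ n, C.IsCoord n (z - z') 0 := by
    intro n
    obtain ⟨a, ha, ha'⟩ := h n
    obtain ⟨b, hb⟩ := C.exists_rep hneg n
    obtain ⟨e₁, he₁, hb₁⟩ := exists_bdd_of_nonunit hram a (C.nonunit ha)
    obtain ⟨e₂, he₂, hb₂⟩ := exists_bdd_of_nonunit hram b (C.nonunit hb)
    obtain ⟨F, -, hF⟩ := C.law n (e₁ + e₂) (by omega)
    have hba : Bdd ℓ A (e₁ + e₂) a := hb₁.mono (by omega) (mem_A_of_isCoord C ha)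
    have hbb : Bdd ℓ A (e₁ + e₂) b := hb₂.mono (by omega) (mem_A_of_isCoord C hb)
    have h1 := hF ha hb hba hbb
    have h2 := hF ha' hb hba hbb
    rw [← sub_eq_add_neg] at h1
    rw [add_neg_cancel] at h2
    have h3 := C.congr h2 (C.zero n)
    exact C.of_congr h1 (fun _ => zero_mem_nonunits) h3
  have := C.separated hsub key
  exact sub_eq_zero.1 this

end Contract

/-! ### Cosets of `M ∩ J1` and their centres -/

section Cosets

variable (C : CoordSystem ℓ A Jb actJ) (M : AddSubgroup Jb)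

/-- the restricted action (the same term as in `Coord.OrderTarget`) -/
abbrev actM (hM : ∀ σ, ∀ y ∈ M, actJ σ y ∈ M) : GQ → M → M :=
  fun σ (y : M) => (⟨actJ σ y, hM σ y y.2⟩ : M)

/-- same coset modulo the kernel of reduction -/
def rel (y y' : M) : Prop := (y : Jb) - (y' : Jb) ∈ C.J1

theorem rel_equiv : Equivalence (rel C M) where
  refl y := by
    unfold rel
    rw [sub_self]
    exact C.J1.zero_mem
  symm := by
    intro y y' h
    unfold rel at h ⊢
    rw [← neg_sub]
    exact C.J1.neg_mem h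
  trans := by
    intro y y' y'' h h'
    unfold rel at h h' ⊢
    have := C.J1.add_mem h h'
    rwa [sub_add_sub_cancel] at this

/-- the setoid of cosets -/
def relSetoid : Setoid M := ⟨rel C M, rel_equiv C M⟩

/-- a chosen representative of the coset -/
noncomputable def rep (y : M) : M :=
  @Quotient.out M (relSetoid C M) (@Quotient.mk M (relSetoid C M) y)

theorem rel_rep (y : M) : rel C M (rep C M y) y :=
  @Quotient.exact M (relSetoid C M) _ _ (@Quotient.out_eq M (relSetoid C M) _)

theorem rep_eq_of_rel {y y' : M} (h : rel C M y y') : rep C M y = rep C M y' := by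
  unfold rep
  rw [@Quotient.sound M (relSetoid C M) y y' h]

/-- the centre of the coset of `y`: an unramified class with the same reduction -/
noncomputable def centreOf (r : Jb) : Jb :=
  Classical.choose (C.exists_lift r)

/-- the centre of the coset of `y`: an unramified class with the same reduction -/
noncomputable def centre (y : M) : Jb := centreOf C (rep C M y : Jb)

theorem centre_mem_U (y : M) : centre C M y ∈ C.U :=
  (Classical.choose_spec (C.exists_lift (rep C M y : Jb))).1

theorem rep_sub_centre_mem (y : M) : (rep C M y : Jb) - centre C M y ∈ C.J1 :=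
  (Classical.choose_spec (C.exists_lift (rep C M y : Jb))).2

theorem centre_eq_of_rel {y y' : M} (h : rel C M y y') : centre C M y = centre C M y' :=
  congrArg (fun r : M => centreOf C (r : Jb)) (rep_eq_of_rel C M h)

theorem sub_centre_mem (y : M) : (y : Jb) - centre C M y ∈ C.J1 := by
  have h1 : (y : Jb) - (rep C M y : Jb) ∈ C.J1 := (rel_equiv C M).symm (rel_rep C M y)
  have := C.J1.add_mem h1 (rep_sub_centre_mem C M y)
  rwa [sub_add_sub_cancel] at this

/-- `a` represents the level-`n` coordinate of `y` relative to the centre of its coset -/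
def Co (n : ℕ) (y : M) (a : Fin C.g → Qb) : Prop :=
  C.IsCoord n ((y : Jb) - centre C M y) a

variable {M}
variable (hact : IsGalAction actJ) (hM : ∀ σ, ∀ y ∈ M, actJ σ y ∈ M)

omit hact in
theorem rel_inertia (σ : GQ) (hσ : σ ∈ A.inertiaSubgroupIn ℚ) (y : M) :
    rel C M (actM M hM σ y) y :=
  C.inertia_sub_mem σ hσ y

theorem rel_add {y y₀ y' y₀' : M} (h : rel C M y y₀) (h' : rel C M y' y₀') :
    rel C M (y + y') (y₀ + y₀') := by
  unfold rel at h h' ⊢
  have := C.J1.add_mem h h'
  rw [AddSubgroup.coe_add, AddSubgroup.coe_add]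
  rwa [sub_add_sub_comm] at this

include hact in
theorem rel_act (σ : GQ) (hσ : σ ∈ A.decompositionSubgroup ℚ) {y y₀ : M} (h : rel C M y y₀) :
    rel C M (actM M hM σ y) (actM M hM σ y₀) := by
  unfold rel at h ⊢
  have := C.J1_stable σ hσ _ h
  rwa [act_sub hact] at this

include hact in
/-- strict equivariance of the coset coordinates under the inertia group -/
theorem co_inertia (σ : GQ) (hσ : σ ∈ A.inertiaSubgroupIn ℚ) {n : ℕ} {y : M} {a : Fin C.g → Qb}
    (ha : Co C M n y a) : Co C M n (actM M hM σ y) (fun i => σ (a i)) := by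
  unfold Co at ha ⊢
  rw [centre_eq_of_rel C M (rel_inertia C hM σ hσ y)]
  have h1 := C.equivariant_inertia σ hσ ha
  rwa [act_sub hact, C.U_fixed σ hσ _ (centre_mem_U C M y)] at h1

/-- separation inside a coset -/
theorem co_separated (hram : RamBound ℓ A) {y y' : M} (h : rel C M y y')
    (hc : ∀ n, ∃ a, Co C M n y a ∧ Co C M n y' a) : y = y' := by
  have hcen := centre_eq_of_rel C M h
  have h1 : (y : Jb) - centre C M y = (y' : Jb) - centre C M y' := by
    refine eq_of_common_rep C hram (sub_centre_mem C M y) (sub_centre_mem C M y') ?_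
    exact hc
  rw [hcen] at h1
  exact Subtype.ext (sub_left_injective h1)

end Cosets

/-! ### The global bound, rational representatives, the group law and the twist on cosets -/

section Main

variable (C : CoordSystem ℓ A Jb actJ) (M : AddSubgroup Jb) [Finite M]
  (hact : IsGalAction actJ) (hM : ∀ σ, ∀ y ∈ M, actJ σ y ∈ M) (hram : RamBound ℓ A)

include hram in
theorem exists_global_bound :
    ∃ e : ℕ, 0 < e ∧ ∀ (y : M) (n : ℕ), 1 ≤ n → ∀ a, Co C M n y a → Bdd ℓ A e a :=
  exists_bdd_family C hram (fun y : M => (y : Jb) - centre C M y) (sub_centre_mem C M)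

/-- the global ramification bound of the coset coordinates of `M` -/
noncomputable def gExp (C : CoordSystem ℓ A Jb actJ) (M : AddSubgroup Jb) [Finite M]
    (hram : RamBound ℓ A) : ℕ := Classical.choose (exists_global_bound C M hram)

theorem gExp_pos : 0 < gExp C M hram :=
  (Classical.choose_spec (exists_global_bound C M hram)).1

theorem gExp_spec (y : M) (n : ℕ) (hn : 1 ≤ n) (a : Fin C.g → Qb) (ha : Co C M n y a) :
    Bdd ℓ A (gExp C M hram) a :=
  (Classical.choose_spec (exists_global_bound C M hram)).2 y n hn a ha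

include hact in
/-- existence + rationality + bound -/
theorem co_stab (n : ℕ) (y : M) :
    ∃ a, Co C M n y a ∧ Bdd ℓ A (gExp C M hram) a ∧
      ∀ σ ∈ A.inertiaSubgroupIn ℚ, actM M hM σ y = y → ∀ i, σ (a i) = a i := by
  obtain ⟨a, ha, hfix⟩ := C.rational_stab (sub_centre_mem C M y) (max n 1)
  refine ⟨a, mono_le C (le_max_left _ _) ha,
    gExp_spec C M hram y (max n 1) (le_max_right _ _) a ha, ?_⟩
  intro σ hσ hy i
  refine hfix σ hσ ?_ i
  rw [act_sub hact, C.U_fixed σ hσ _ (centre_mem_U C M y)]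
  congr 1
  exact congrArg Subtype.val hy

/-- the group law on cosets -/
theorem co_add (n : ℕ) (y₀ y₀' : M) :
    ∃ G : Fin C.g → MvPolynomial (Fin C.g ⊕ Fin C.g) Qb, (∀ i, UnrCoeffs A (G i)) ∧
      ∀ y y' : M, rel C M y y₀ → rel C M y' y₀' → ∀ a a', Co C M n y a → Co C M n y' a' →
        Bdd ℓ A (gExp C M hram) a → Bdd ℓ A (gExp C M hram) a' →
        Co C M n (y + y') (fun i => MvPolynomial.aeval (Sum.elim a a') (G i)) := by
  rcases Nat.eq_zero_or_pos n with rfl | hn
  · refine ⟨fun _ => 0, fun _ => unrCoeffs_zero, ?_⟩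
    intro y y' _ _ a a' _ _ _ _
    simp only [map_zero]
    exact isCoord_zero_level C (sub_centre_mem C M (y + y')) fun _ => zero_mem_nonunits
  · set x := centre C M y₀ with hx
    set x' := centre C M y₀' with hx'
    set x'' := centre C M (y₀ + y₀') with hx''
    set d : Jb := x + x' - x'' with hd
    have hdU : d ∈ C.U :=
      C.U.sub_mem (C.U.add_mem (centre_mem_U C M y₀) (centre_mem_U C M y₀'))
        (centre_mem_U C M (y₀ + y₀'))
    have hdJ : d ∈ C.J1 := by
      have h1 := sub_centre_mem C M (y₀ + y₀')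
      have h2 := C.J1.add_mem (sub_centre_mem C M y₀) (sub_centre_mem C M y₀')
      have h3 := C.J1.sub_mem h1 h2
      have h4 : ((y₀ + y₀' : M) : Jb) - centre C M (y₀ + y₀') -
          ((y₀ : Jb) - centre C M y₀ + ((y₀' : Jb) - centre C M y₀')) = d := by
        rw [AddSubgroup.coe_add, hd, hx, hx', hx'']
        abel
      rwa [h4] at h3
    obtain ⟨c, hc, hcU⟩ := C.rational hdU hdJ n
    obtain ⟨e₂, he₂, hb₂⟩ := exists_bdd_family C hram
      (fun p : M × M => ((p.1 : Jb) - centre C M p.1) + ((p.2 : Jb) - centre C M p.2))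
      (fun p => C.J1.add_mem (sub_centre_mem C M p.1) (sub_centre_mem C M p.2))
    obtain ⟨e₃, he₃, hb₃⟩ := exists_bdd C hram hdJ
    obtain ⟨F₁, hF₁, hF₁'⟩ := C.law n (gExp C M hram) (gExp_pos C M hram)
    obtain ⟨F₂, hF₂, hF₂'⟩ := C.law n (e₂ + e₃) (by omega)
    refine ⟨fun i => MvPolynomial.bind₁ (Sum.elim F₁ (fun j => MvPolynomial.C (c j))) (F₂ i),
      fun i => UnrCoeffs.bind₁ (hF₂ i) ?_, ?_⟩
    · rintro (j | j)
      · exact hF₁ j
      · exact unrCoeffs_C (hcU j)
    · intro y y' hy hy' a a' ha ha' hb hb'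
      have hcy : centre C M y = x := centre_eq_of_rel C M hy
      have hcy' : centre C M y' = x' := centre_eq_of_rel C M hy'
      have hcyy : centre C M (y + y') = x'' := centre_eq_of_rel C M (rel_add C hy hy')
      have h1 := hF₁' ha ha' hb hb'
      have hb1 : Bdd ℓ A (e₂ + e₃)
          (fun i => MvPolynomial.aeval (Sum.elim a a') (F₁ i)) :=
        (hb₂ (y, y') n hn _ h1).mono (by omega) (mem_A_of_isCoord C h1)
      have hbc : Bdd ℓ A (e₂ + e₃) c :=
        (hb₃ n hn c hc).mono (by omega) (mem_A_of_isCoord C hc)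
      have h2 := hF₂' h1 hc hb1 hbc
      unfold Co
      have hpt : ((y + y' : M) : Jb) - centre C M (y + y') =
          (y : Jb) - centre C M y + ((y' : Jb) - centre C M y') + d := by
        rw [AddSubgroup.coe_add, hcy, hcy', hcyy, hd]
        abel
      rw [hpt]
      have hfun : (fun i => MvPolynomial.aeval (Sum.elim a a')
          (MvPolynomial.bind₁ (Sum.elim F₁ (fun j => MvPolynomial.C (c j))) (F₂ i))) =
          fun i => MvPolynomial.aeval
            (Sum.elim (fun i => MvPolynomial.aeval (Sum.elim a a') (F₁ i)) c) (F₂ i) := by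
        funext i
        rw [MvPolynomial.aeval_bind₁]
        have hw : (fun k => MvPolynomial.aeval (Sum.elim a a')
            (Sum.elim F₁ (fun j => MvPolynomial.C (c j)) k)) =
            Sum.elim (fun i => MvPolynomial.aeval (Sum.elim a a') (F₁ i)) c := by
          funext k
          rcases k with j | j
          · rfl
          · simp only [Sum.elim_inr, MvPolynomial.aeval_C]
            rfl
        rw [hw]
      rw [hfun]
      exact h2

include hact in
/-- twisted equivariance under the decomposition group, on cosets -/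
theorem co_twist (σ : GQ) (hσ : σ ∈ A.decompositionSubgroup ℚ) (n : ℕ) (y₀ : M) :
    ∃ Ψ : Fin C.g → MvPolynomial (Fin C.g) Qb, (∀ i, UnrCoeffs A (Ψ i)) ∧
      ∀ y : M, rel C M y y₀ → ∀ a, Co C M n y a → Bdd ℓ A (gExp C M hram) a →
        Co C M n (actM M hM σ y) (fun i => σ (MvPolynomial.aeval a (Ψ i))) := by
  rcases Nat.eq_zero_or_pos n with rfl | hn
  · refine ⟨fun _ => 0, fun _ => unrCoeffs_zero, ?_⟩
    intro y _ a _ _
    simp only [map_zero]
    exact isCoord_zero_level C (sub_centre_mem C M _) fun _ => zero_mem_nonunits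
  · set x := centre C M y₀ with hx
    set x' := centre C M (actM M hM σ y₀) with hx'
    set d : Jb := actJ σ x - x' with hd
    have hdU : d ∈ C.U :=
      C.U.sub_mem (C.U_stable σ hσ _ (centre_mem_U C M y₀)) (centre_mem_U C M _)
    have hdJ : d ∈ C.J1 := by
      have h1 := sub_centre_mem C M (actM M hM σ y₀)
      have h2 := C.J1_stable σ hσ _ (sub_centre_mem C M y₀)
      have h3 := C.J1.sub_mem h1 h2
      have h4 : ((actM M hM σ y₀ : M) : Jb) - centre C M (actM M hM σ y₀) -
          actJ σ ((y₀ : Jb) - centre C M y₀) = d := by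
        rw [act_sub hact, hd, hx, hx']
        show actJ σ (y₀ : Jb) - _ - _ = _
        abel
      rwa [h4] at h3
    obtain ⟨c, hc, hcU⟩ := C.rational hdU hdJ n
    obtain ⟨e₂, he₂, hb₂⟩ := exists_bdd_family C hram
      (fun y : M => actJ σ ((y : Jb) - centre C M y))
      (fun y => C.J1_stable σ hσ _ (sub_centre_mem C M y))
    obtain ⟨e₃, he₃, hb₃⟩ := exists_bdd C hram hdJ
    obtain ⟨Ψσ, hΨσ, hΨσ'⟩ := C.equivariant σ hσ n (gExp C M hram) (gExp_pos C M hram)
    obtain ⟨F₂, hF₂, hF₂'⟩ := C.law n (e₂ + e₃) (by omega)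
    have hσi : σ⁻¹ ∈ A.decompositionSubgroup ℚ := inv_mem hσ
    refine ⟨fun i => MvPolynomial.bind₁
        (Sum.elim Ψσ (fun j => MvPolynomial.C ((σ⁻¹ : GQ) (c j))))
        (MvPolynomial.map ((σ⁻¹ : GQ) : Qb →+* Qb) (F₂ i)),
      fun i => UnrCoeffs.bind₁ (UnrCoeffs.map_of_mem_decomposition hσi (hF₂ i)) ?_, ?_⟩
    · rintro (j | j)
      · exact hΨσ j
      · exact unrCoeffs_C (IsUnr.apply hσi (hcU j))
    · intro y hy a ha hb
      have hcy : centre C M y = x := centre_eq_of_rel C M hy
      have hcσy : centre C M (actM M hM σ y) = x' :=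
        centre_eq_of_rel C M (rel_act C hact hM σ hσ hy)
      have h1 := hΨσ' ha hb
      have hb1 : Bdd ℓ A (e₂ + e₃) (fun i => σ (MvPolynomial.aeval a (Ψσ i))) :=
        (hb₂ y n hn _ h1).mono (by omega) (mem_A_of_isCoord C h1)
      have hbc : Bdd ℓ A (e₂ + e₃) c :=
        (hb₃ n hn c hc).mono (by omega) (mem_A_of_isCoord C hc)
      have h2 := hF₂' h1 hc hb1 hbc
      unfold Co
      have hpt : ((actM M hM σ y : M) : Jb) - centre C M (actM M hM σ y) =
          actJ σ ((y : Jb) - centre C M y) + d := by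
        rw [hcσy, act_sub hact, hcy, hd]
        show actJ σ (y : Jb) - _ = _
        abel
      rw [hpt]
      have hfun : (fun i => σ (MvPolynomial.aeval a (MvPolynomial.bind₁
          (Sum.elim Ψσ (fun j => MvPolynomial.C ((σ⁻¹ : GQ) (c j))))
          (MvPolynomial.map ((σ⁻¹ : GQ) : Qb →+* Qb) (F₂ i))))) =
          fun i => MvPolynomial.aeval
            (Sum.elim (fun i => σ (MvPolynomial.aeval a (Ψσ i))) c) (F₂ i) := by
        funext i
        rw [MvPolynomial.aeval_bind₁, apply_aeval, MvPolynomial.map_map]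
        have hid : ((σ : GQ) : Qb →+* Qb).comp ((σ⁻¹ : GQ) : Qb →+* Qb) = RingHom.id Qb := by
          ext t
          show σ ((σ⁻¹ : GQ) t) = t
          rw [AlgEquiv.aut_inv, AlgEquiv.apply_symm_apply]
        rw [hid, MvPolynomial.map_id]
        have hw : (fun k => σ (MvPolynomial.aeval a
            (Sum.elim Ψσ (fun j => MvPolynomial.C ((σ⁻¹ : GQ) (c j))) k))) =
            Sum.elim (fun i => σ (MvPolynomial.aeval a (Ψσ i))) c := by
          funext k
          rcases k with j | j
          · rfl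
          · simp only [Sum.elim_inr, MvPolynomial.aeval_C]
            show σ ((σ⁻¹ : GQ) (c j)) = c j
            rw [AlgEquiv.aut_inv, AlgEquiv.apply_symm_apply]
        rw [hw]
      rw [hfun]
      exact h2

/-- **[O1]** The coset coordinates of a finite Galois-stable subgroup. -/
noncomputable def cosetCoords : CosetCoords ℓ A (actM M hM) C.g where
  rel := rel C M
  rel_equiv := rel_equiv C M
  rel_inertia := rel_inertia C hM
  rel_add := rel_add C
  rel_act := fun σ hσ _ _ h => rel_act C hact hM σ hσ h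
  Co := Co C M
  e := gExp C M hram
  e_pos := gExp_pos C M hram
  nonunit := fun h => C.nonunit h
  congr := fun h h' => C.congr h h'
  of_congr := fun h h' h'' => C.of_congr h h' h''
  mono := fun h => C.mono h
  inertia := fun σ hσ _ _ _ h => co_inertia C hact hM σ hσ h
  stab := co_stab C M hact hM hram
  separated := fun h hc => co_separated C hram h hc
  add := co_add C M hram
  twist := co_twist C M hact hM hram

@[simp] theorem cosetCoords_rel (y y' : M) :
    (cosetCoords C M hact hM hram).rel y y' ↔ (y : Jb) - (y' : Jb) ∈ C.J1 := Iff.rfl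

theorem cosetCoords_Co (n : ℕ) (y : M) (a : Fin C.g → Qb) :
    (cosetCoords C M hact hM hram).Co n y a ↔ C.IsCoord n ((y : Jb) - centre C M y) a := Iff.rfl

end Main

end Fermat.Agent.S19.Order.Cosets
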