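/-
S19 / order layer, leaf [LOC] (L2) (helper2): **bounded ramification**.

`A` a valuation subring of `ℚ̄` over the prime `ℓ`, `x ∈ 𝔪_A` with `[ℚ(x) : ℚ] ≤ e`.  Then
`x ^ e ∈ ℓ·A`.  (Otherwise the valuations of `1, x, …, x^e` are pairwise distinct modulo the
valuations of the nonzero rationals, so `1, x, …, x^e` are linearly independent over `ℚ`.)

* `valuation_intCast_eq_pow` : `v(n) = v(ℓ)^k` for a nonzero integer `n`;
* `pow_mem_lpow_of_natDegree_minpoly_le` : the statement, in the shape of the ramification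
  hypotheses `a i ^ e ∈ lpow A ℓ 1` of `Coord.CoordSystem.law` / `equivariant`;
* `exists_pow_mem_lpow`, `exists_forall_pow_mem_lpow` : a (common) exponent for one element / a finite
  family of elements of `𝔪_A`.

Mathlib + `Coord/Defs`.
-/
import Mathlib
import Fermat.Agent.S19.Coord.Defs

set_option autoImplicit false

namespace Fermat.Agent.S19.Order.LocRam

open Fermat.Agent.S19.Abs Fermat.Agent.S19.Coord Polynomial

variable {A : ValuationSubring Qb} {ℓ : ℕ}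

/-- A natural number prime to `ℓ` has valuation `1`. -/
theorem valuation_natCast_eq_one (hℓ : ℓ.Prime) (hA : A.LiesOverPrime ℓ) {m : ℕ}
    (hm : ¬ ℓ ∣ m) : A.valuation (m : Qb) = 1 := by
  have hmA : (m : Qb) ∈ A := natCast_mem A m
  have hle : A.valuation (m : Qb) ≤ 1 := (A.valuation_le_one_iff _).mpr hmA
  rcases lt_or_eq_of_le hle with hlt | heq
  · exfalso
    have hℓlt : A.valuation (ℓ : Qb) < 1 := hA
    have hcop : Nat.Coprime m ℓ :=
      Nat.Coprime.symm ((Nat.Prime.coprime_iff_not_dvd hℓ).mpr hm)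
    obtain ⟨u, w, huw⟩ := (Nat.isCoprime_iff_coprime.mpr hcop : IsCoprime (m : ℤ) (ℓ : ℤ))
    have h1 : (1 : Qb) = (u : Qb) * (m : Qb) + (w : Qb) * (ℓ : Qb) := by
      have := congrArg (Int.cast : ℤ → Qb) huw
      push_cast at this
      exact this.symm
    have hu : A.valuation (u : Qb) ≤ 1 := (A.valuation_le_one_iff _).mpr (intCast_mem A u)
    have hw : A.valuation (w : Qb) ≤ 1 := (A.valuation_le_one_iff _).mpr (intCast_mem A w)
    have h2 : A.valuation ((u : Qb) * (m : Qb)) < 1 := by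
      rw [map_mul]
      calc A.valuation (u : Qb) * A.valuation (m : Qb) ≤ 1 * A.valuation (m : Qb) :=
            mul_le_mul_left hu _
        _ = A.valuation (m : Qb) := one_mul _
        _ < 1 := hlt
    have h3 : A.valuation ((w : Qb) * (ℓ : Qb)) < 1 := by
      rw [map_mul]
      calc A.valuation (w : Qb) * A.valuation (ℓ : Qb) ≤ 1 * A.valuation (ℓ : Qb) :=
            mul_le_mul_left hw _
        _ = A.valuation (ℓ : Qb) := one_mul _
        _ < 1 := hℓlt
    have h4 : A.valuation (1 : Qb) < 1 := by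
      rw [h1]
      exact lt_of_le_of_lt (A.valuation.map_add _ _) (max_lt h2 h3)
    rw [map_one] at h4
    exact lt_irrefl _ h4
  · exact heq

/-- The valuation of a nonzero natural number is a power of the valuation of `ℓ`. -/
theorem valuation_natCast_eq_pow (hℓ : ℓ.Prime) (hA : A.LiesOverPrime ℓ) {n : ℕ} (hn : n ≠ 0) :
    ∃ k : ℕ, A.valuation (n : Qb) = A.valuation (ℓ : Qb) ^ k := by
  obtain ⟨k, m, hm, rfl⟩ := Nat.exists_eq_pow_mul_and_not_dvd hn ℓ hℓ.ne_one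
  refine ⟨k, ?_⟩
  push_cast
  rw [map_mul, map_pow, valuation_natCast_eq_one hℓ hA hm, mul_one]

/-- The valuation of a nonzero integer is a power of the valuation of `ℓ`. -/
theorem valuation_intCast_eq_pow (hℓ : ℓ.Prime) (hA : A.LiesOverPrime ℓ) {n : ℤ} (hn : n ≠ 0) :
    ∃ k : ℕ, A.valuation (n : Qb) = A.valuation (ℓ : Qb) ^ k := by
  obtain ⟨k, hk⟩ := valuation_natCast_eq_pow hℓ hA (n := n.natAbs) (Int.natAbs_ne_zero.mpr hn)
  refine ⟨k, ?_⟩
  rw [← hk]
  rcases Int.natAbs_eq n with h | h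
  · conv_lhs => rw [h]
    simp
  · conv_lhs => rw [h]
    simp

/-- In a linearly ordered group with zero: if `0 < lam < γ ^ e`, `γ < 1`, then the elements
`lam ^ k * γ ^ i`, `i ≤ e`, determine `i`. -/
theorem pow_mul_pow_ne {Γ : Type*} [LinearOrderedCommGroupWithZero Γ] {γ lam : Γ} {e : ℕ}
    (hγ0 : 0 < γ) (hγ1 : γ < 1) (hlam0 : 0 < lam) (hlt : lam < γ ^ e)
    {i j : ℕ} (hij : i < j) (hje : j ≤ e) (ki kj : ℕ) :
    lam ^ ki * γ ^ i ≠ lam ^ kj * γ ^ j := by
  intro h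
  obtain ⟨d, rfl⟩ := Nat.exists_eq_add_of_lt hij
  have hd : 1 ≤ d + 1 := Nat.le_add_left 1 d
  have hlam1 : lam < 1 := lt_of_lt_of_le hlt (pow_le_one' hγ1.le e)
  have hγi : γ ^ i ≠ 0 := pow_ne_zero i hγ0.ne'
  have h' : lam ^ ki = lam ^ kj * γ ^ (d + 1) := by
    apply mul_right_cancel₀ hγi
    rw [h, add_assoc, pow_add γ i (d + 1), mul_comm (γ ^ i) (γ ^ (d + 1)), mul_assoc]
  have hγd : γ ^ (d + 1) < 1 := Right.pow_lt_one_of_lt hd hγ1
  rcases le_or_gt ki kj with hk | hk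
  · -- `lam ^ ki = lam ^ kj * γ^(d+1) < lam ^ kj ≤ lam ^ ki`
    have h1 : lam ^ kj * γ ^ (d + 1) < lam ^ kj :=
      mul_lt_of_lt_one_right (pow_pos hlam0 kj) hγd
    have h2 : lam ^ kj ≤ lam ^ ki := pow_le_pow_right_of_le_one' hlam1.le hk
    exact lt_irrefl _ (lt_of_lt_of_le (h' ▸ h1) h2)
  · -- `γ^(d+1) = lam ^ m`, `m ≥ 1`
    obtain ⟨m, rfl⟩ := Nat.exists_eq_add_of_lt hk
    have h'' : lam ^ (m + 1) = γ ^ (d + 1) := by
      apply mul_left_cancel₀ (pow_ne_zero kj hlam0.ne')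
      rw [← h', ← pow_add, add_assoc]
    have h1 : lam ^ (m + 1) ≤ lam := by
      calc lam ^ (m + 1) ≤ lam ^ 1 := pow_le_pow_right_of_le_one' hlam1.le (Nat.le_add_left 1 m)
        _ = lam := pow_one _
    have h2 : γ ^ e ≤ γ ^ (d + 1) :=
      pow_le_pow_right_of_le_one' hγ1.le (by omega)
    exact lt_irrefl _ (lt_of_lt_of_le (lt_of_le_of_lt (h'' ▸ h1) hlt) h2)

/-- If `v(ℓ) < v(x)^e` and `v(x) < 1`, no nonzero integer polynomial of degree `≤ e` kills `x`. -/
theorem aeval_ne_zero_of_lt (hℓ : ℓ.Prime) (hA : A.LiesOverPrime ℓ) {x : Qb}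
    (hx : x ∈ A.nonunits) (hx0 : x ≠ 0) {e : ℕ}
    (hlt : A.valuation (ℓ : Qb) < A.valuation x ^ e) (p : ℤ[X]) (hp : p ≠ 0)
    (hdeg : p.natDegree ≤ e) : aeval x p ≠ 0 := by
  classical
  set v := A.valuation with hv
  have hγ0 : 0 < v x := by
    rw [zero_lt_iff]
    exact (Valuation.ne_zero_iff _).mpr hx0
  have hγ1 : v x < 1 := hx
  have hℓ0 : (ℓ : Qb) ≠ 0 := Nat.cast_ne_zero.mpr hℓ.ne_zero
  have hlam0 : 0 < v (ℓ : Qb) := by
    rw [zero_lt_iff]
    exact (Valuation.ne_zero_iff _).mpr hℓ0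
  set t : ℕ → Qb := fun i => ((p.coeff i : ℤ) : Qb) * x ^ i with ht
  have hsum : aeval x p = ∑ i ∈ p.support, t i := by
    rw [aeval_def, eval₂_eq_sum, sum_def]
    refine Finset.sum_congr rfl fun i _ => ?_
    simp [ht]
  -- valuations of the terms
  have hterm : ∀ i ∈ p.support, ∃ k : ℕ, v (t i) = v (ℓ : Qb) ^ k * v x ^ i := by
    intro i hi
    obtain ⟨k, hk⟩ := valuation_intCast_eq_pow hℓ hA (mem_support_iff.mp hi)
    exact ⟨k, by rw [ht]; simp only [map_mul, map_pow]; rw [hk]⟩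
  have hne0 : ∀ i ∈ p.support, v (t i) ≠ 0 := by
    intro i hi
    obtain ⟨k, hk⟩ := hterm i hi
    rw [hk]
    exact mul_ne_zero (pow_ne_zero k hlam0.ne') (pow_ne_zero i hγ0.ne')
  have hdist : ∀ i ∈ p.support, ∀ j ∈ p.support, i ≠ j → v (t i) ≠ v (t j) := by
    intro i hi j hj hij
    obtain ⟨ki, hki⟩ := hterm i hi
    obtain ⟨kj, hkj⟩ := hterm j hj
    have hie : i ≤ e := le_trans (le_natDegree_of_mem_supp i hi) hdeg
    have hje : j ≤ e := le_trans (le_natDegree_of_mem_supp j hj) hdeg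
    rw [hki, hkj]
    rcases lt_or_gt_of_ne hij with h | h
    · exact pow_mul_pow_ne hγ0 hγ1 hlam0 hlt h hje ki kj
    · exact (pow_mul_pow_ne hγ0 hγ1 hlam0 hlt h hie kj ki).symm
  have hsupp : p.support.Nonempty := by
    rw [Finset.nonempty_iff_ne_empty, Ne, support_eq_empty]
    exact hp
  obtain ⟨i₀, hi₀, hmax⟩ := Finset.exists_max_image p.support (fun i => v (t i)) hsupp
  have hrest : v (∑ i ∈ p.support.erase i₀, t i) < v (t i₀) := by
    refine Valuation.map_sum_lt v (hne0 i₀ hi₀) fun i hi => ?_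
    have hi' := Finset.mem_of_mem_erase hi
    exact lt_of_le_of_ne (hmax i hi') (hdist i hi' i₀ hi₀ (Finset.ne_of_mem_erase hi))
  have hval : v (aeval x p) = v (t i₀) := by
    rw [hsum, ← Finset.add_sum_erase _ _ hi₀]
    exact Valuation.map_add_eq_of_lt_left v hrest
  intro h0
  rw [h0, map_zero] at hval
  exact hne0 i₀ hi₀ hval.symm

/-- **(L2) bounded ramification.**  `x ∈ 𝔪_A` of degree `≤ e` over `ℚ` satisfies `x ^ e ∈ ℓ·A`. -/
theorem pow_mem_lpow_of_natDegree_minpoly_le (hℓ : ℓ.Prime) (hA : A.LiesOverPrime ℓ) {x : Qb}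
    (hx : x ∈ A.nonunits) {e : ℕ} (he : (minpoly ℚ x).natDegree ≤ e) :
    x ^ e ∈ lpow A ℓ 1 := by
  have hint : IsIntegral ℚ x := (AlgebraicClosure.isAlgebraic ℚ).isAlgebraic x |>.isIntegral
  have he1 : 1 ≤ e := le_trans (minpoly.natDegree_pos hint) he
  have hℓ0 : (ℓ : Qb) ≠ 0 := Nat.cast_ne_zero.mpr hℓ.ne_zero
  by_cases hx0 : x = 0
  · refine ⟨0, A.zero_mem, ?_⟩
    rw [hx0, zero_pow (by omega), mul_zero]
  by_cases hle : A.valuation (x ^ e) ≤ A.valuation (ℓ : Qb)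
  · refine ⟨x ^ e / (ℓ : Qb), ?_, ?_⟩
    · rw [← A.valuation_le_one_iff, map_div₀]
      exact div_le_one_of_le₀ hle zero_le
    · rw [pow_one]; field_simp
  · exfalso
    rw [not_le, map_pow] at hle
    set p : ℤ[X] := IsLocalization.integerNormalization (nonZeroDivisors ℤ) (minpoly ℚ x) with hp
    have hp0 : p ≠ 0 := by
      rw [hp, Ne, IsFractionRing.integerNormalization_eq_zero_iff]
      exact minpoly.ne_zero hint
    have hpx : aeval x p = 0 :=
      IsLocalization.integerNormalization_aeval_eq_zero _ _ (minpoly.aeval ℚ x)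
    have hdeg : p.natDegree ≤ e := by
      refine le_trans ?_ he
      rw [natDegree_le_iff_coeff_eq_zero]
      intro N hN
      by_contra hne
      have h1 : N ∈ p.support := mem_support_iff.mpr hne
      have h2 : N ∈ (minpoly ℚ x).support :=
        IsLocalization.integerNormalization_support _ _ h1
      exact absurd (le_natDegree_of_mem_supp N h2) (not_le.mpr hN)
    exact aeval_ne_zero_of_lt hℓ hA hx hx0 hle p hp0 hdeg hpx

/-- **(L2)**, field form: `x ∈ 𝔪_A ∩ E`, `[E : ℚ] ≤ e` ⟹ `x ^ e ∈ ℓ·A`. -/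
theorem pow_mem_lpow_of_mem_of_finrank_le (hℓ : ℓ.Prime) (hA : A.LiesOverPrime ℓ)
    (E : IntermediateField ℚ Qb) [FiniteDimensional ℚ E] {x : Qb} (hxE : x ∈ E)
    (hx : x ∈ A.nonunits) {e : ℕ} (he : Module.finrank ℚ E ≤ e) : x ^ e ∈ lpow A ℓ 1 := by
  refine pow_mem_lpow_of_natDegree_minpoly_le hℓ hA hx (le_trans ?_ he)
  have h1 : minpoly ℚ (⟨x, hxE⟩ : E) = minpoly ℚ x :=
    (minpoly.algebraMap_eq (algebraMap E Qb).injective (⟨x, hxE⟩ : E)).symm
  rw [← h1]
  exact minpoly.natDegree_le _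

/-- Every element of `𝔪_A` has a power in `ℓ·A`. -/
theorem exists_pow_mem_lpow (hℓ : ℓ.Prime) (hA : A.LiesOverPrime ℓ) {x : Qb}
    (hx : x ∈ A.nonunits) : ∃ e : ℕ, 0 < e ∧ ∀ e', e ≤ e' → x ^ e' ∈ lpow A ℓ 1 := by
  have hint : IsIntegral ℚ x := (AlgebraicClosure.isAlgebraic ℚ).isAlgebraic x |>.isIntegral
  exact ⟨(minpoly ℚ x).natDegree, minpoly.natDegree_pos hint,
    fun e' he' => pow_mem_lpow_of_natDegree_minpoly_le hℓ hA hx he'⟩

/-- A common exponent for a finite family of elements of `𝔪_A`. -/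
theorem exists_forall_pow_mem_lpow (hℓ : ℓ.Prime) (hA : A.LiesOverPrime ℓ) {ι : Type*}
    [Finite ι] (a : ι → Qb) (ha : ∀ i, a i ∈ A.nonunits) :
    ∃ e : ℕ, 0 < e ∧ ∀ e', e ≤ e' → ∀ i, a i ^ e' ∈ lpow A ℓ 1 := by
  classical
  cases nonempty_fintype ι
  choose d hd0 hd using fun i => exists_pow_mem_lpow hℓ hA (ha i)
  refine ⟨Finset.univ.sup d + 1, Nat.succ_pos _, fun e' he' i => hd i e' ?_⟩
  exact le_trans (le_trans (Finset.le_sup (f := d) (Finset.mem_univ i)) (Nat.le_succ _)) he'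

end Fermat.Agent.S19.Order.LocRam
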