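/-
S19 / ORD-A, leaf [O1] (helper12), closing file: **`MainWire.CosetTarget`** — a coordinate system
induces coset coordinates on every finite `G_ℚ`-stable subgroup.

`Cosets.cosetCoords` (the construction) + `LocRam.exists_pow_mem_lpow` (rank one: every element of
`𝔪_A` has a power in `ℓA`).
-/
import Mathlib
import Fermat.Agent.S19.Order.Cosets
import Fermat.Agent.S19.Order.LocRam
import Fermat.Agent.S19.Order.MainWire

set_option autoImplicit false

namespace Fermat.Agent.S19.Order.CosetTarget

open Fermat.Agent.S19.Abs Fermat.Agent.S19.Coord Fermat.Agent.S19.Order.Cosets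

/-- rank one: every element of `𝔪_A` has a power in `ℓA` -/
theorem ramBound {ℓ : ℕ} (hℓ : ℓ.Prime) {A : ValuationSubring Qb} (hA : A.LiesOverPrime ℓ) :
    RamBound ℓ A := by
  intro x hx
  obtain ⟨e, he, h⟩ := Fermat.Agent.S19.Order.LocRam.exists_pow_mem_lpow hℓ hA hx
  exact ⟨e, he, h e le_rfl⟩

/-- **[O1]** -/
theorem cosetTarget : Fermat.Agent.S19.Order.MainWire.CosetTarget := by
  intro ℓ hℓ A hA Jb _ actJ hact C _ M hfin hM
  exact ⟨C.g, ⟨cosetCoords C M hact hM (ramBound hℓ.out hA)⟩⟩

end Fermat.Agent.S19.Order.CosetTarget
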