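/-
S19 / ORD, leaf [LOC] (L5) (helper17): **trace-dual systems in `R^nr = A ∩ ℚ̄^{I_A}`.**

`A | ℓ` a valuation subring of `ℚ̄`, `τ` a Frobenius element at `A` (`τ x ≡ x^ℓ mod 𝔪_A`).

* roots of unity of order prime to `ℓ`: they lie in `A`, differences of two distinct ones are
  units of `A`, they are fixed by the inertia group (so they lie in `R^nr`) and `τ ζ = ζ^ℓ`;
* `exists_unr_dual` : for `n ≥ 1` there are `x j, y j ∈ R^nr` (`j < n`) with `τⁿ (y j) = y j` and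
  `∑_j x j * τ^k (y j) = δ_{k,0}` for `k < n` (with `y j = ζ^j`, `ζ` a primitive `(ℓⁿ-1)`-th root
  of unity: a Vandermonde system with unit determinant);
* `exists_fixed_decomposition` : the abstract consequence.  If `Φ` is a `τ`-semilinear additive
  operator on functions with `Φⁿ φ = φ`, then `φ = ∑_j x j • T j` with `Φ (T j) = T j`,
  `T j = ∑_{k<n} Φ^k (y j • φ)`.
-/
import Mathlib
import Fermat.Prelude.Def_EllipticCurve_FrobeniusTrace
import Fermat.Agent.S05.Inertia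
import Fermat.Agent.S19.Coord.Defs
import Fermat.Agent.S19.Order.UnrPoly

set_option autoImplicit false

namespace Fermat.Agent.S19.Order.UnrDual

open Fermat.Agent.S19.Abs Fermat.Agent.S19.Coord Fermat.Agent.S19.Order.UnrPoly

variable {A : ValuationSubring Qb} {ℓ : ℕ}

/-! ### Roots of unity of order prime to `ℓ` -/

/-- integers prime to `ℓ` are units of `A` -/
theorem valuation_natCast_eq_one (hℓ : ℓ.Prime) (hA : A.LiesOverPrime ℓ) {m : ℕ}
    (hm : ¬ ℓ ∣ m) : A.valuation (m : Qb) = 1 := by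
  have h1 : A.valuation (m : Qb) ≤ 1 := (A.valuation_le_one_iff _).2 (natCast_mem A m)
  refine le_antisymm h1 ?_
  by_contra hlt
  rw [not_le] at hlt
  have hgcd : IsCoprime (m : ℤ) (ℓ : ℤ) := by
    rw [Nat.isCoprime_iff_coprime]
    exact ((Nat.Prime.coprime_iff_not_dvd hℓ).2 hm).symm
  obtain ⟨u, w, huw⟩ := hgcd
  have huw' : (u : Qb) * (m : Qb) + (w : Qb) * (ℓ : Qb) = 1 := by exact_mod_cast huw
  have hu : A.valuation (u : Qb) ≤ 1 := (A.valuation_le_one_iff _).2 (intCast_mem A u)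
  have hw : A.valuation (w : Qb) ≤ 1 := (A.valuation_le_one_iff _).2 (intCast_mem A w)
  have hℓ' : A.valuation (ℓ : Qb) < 1 := hA
  have h2 : A.valuation ((u : Qb) * (m : Qb)) < 1 := by
    rw [map_mul]
    exact mul_lt_one_of_nonneg_of_lt_one_right hu zero_le hlt
  have h3 : A.valuation ((w : Qb) * (ℓ : Qb)) < 1 := by
    rw [map_mul]
    exact mul_lt_one_of_nonneg_of_lt_one_right hw zero_le hℓ'
  have h4 := A.valuation.map_add_lt h2 h3
  rw [huw', map_one] at h4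
  exact lt_irrefl _ h4

/-- roots of unity are units of `A` -/
theorem valuation_eq_one_of_pow_eq_one {m : ℕ} (hm : m ≠ 0) {ζ : Qb} (hζ : ζ ^ m = 1) :
    A.valuation ζ = 1 := by
  have h1 : A.valuation ζ ^ m = 1 := by rw [← map_pow, hζ, map_one]
  exact (pow_eq_one_iff_of_nonneg zero_le hm).1 h1

theorem mem_of_pow_eq_one {m : ℕ} (hm : m ≠ 0) {ζ : Qb} (hζ : ζ ^ m = 1) : ζ ∈ A :=
  (A.valuation_le_one_iff _).1 (valuation_eq_one_of_pow_eq_one hm hζ).le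

/-- **differences of distinct roots of unity of order prime to `ℓ` are units of `A`** -/
theorem valuation_sub_eq_one (hℓ : ℓ.Prime) (hA : A.LiesOverPrime ℓ) {m : ℕ} (hm : ¬ ℓ ∣ m)
    {ζ₁ ζ₂ : Qb} (h₁ : ζ₁ ^ m = 1) (h₂ : ζ₂ ^ m = 1) (hne : ζ₁ ≠ ζ₂) :
    A.valuation (ζ₁ - ζ₂) = 1 := by
  have hm0 : m ≠ 0 := fun h => hm (h ▸ dvd_zero ℓ)
  have hζ₁0 : ζ₁ ≠ 0 := by
    rintro rfl
    rw [zero_pow hm0] at h₁
    exact zero_ne_one h₁
  set ω : Qb := ζ₂ * ζ₁⁻¹ with hω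
  have hωm : ω ^ m = 1 := by rw [hω, mul_pow, inv_pow, h₁, h₂, inv_one, mul_one]
  have hω1 : ω ≠ 1 := by
    intro h
    apply hne
    have : ζ₂ = ω * ζ₁ := by rw [hω, mul_assoc, inv_mul_cancel₀ hζ₁0, mul_one]
    rw [this, h, one_mul]
  have hωA : ω ∈ A := mem_of_pow_eq_one hm0 hωm
  -- `∑_{i<m} ω^i = 0`
  have hgeom : ∑ i ∈ Finset.range m, ω ^ i = 0 := by
    have := mul_neg_geom_sum ω m
    rw [hωm, sub_self] at this
    rcases mul_eq_zero.1 this with h | h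
    · exact absurd (sub_eq_zero.1 h).symm hω1
    · exact h
  -- `m = (1 - ω) * S`
  have hS : (m : Qb) = (1 - ω) * ∑ i ∈ Finset.range m, ∑ j ∈ Finset.range i, ω ^ j := by
    rw [Finset.mul_sum]
    simp_rw [mul_neg_geom_sum]
    rw [Finset.sum_sub_distrib, hgeom, sub_zero]
    simp
  have hSA : A.valuation (∑ i ∈ Finset.range m, ∑ j ∈ Finset.range i, ω ^ j) ≤ 1 :=
    (A.valuation_le_one_iff _).2
      (A.sum_mem fun i _ => A.sum_mem fun j _ => A.pow_mem hωA j)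
  have h1ω : A.valuation (1 - ω) ≤ 1 :=
    (A.valuation_le_one_iff _).2 (sub_mem A.one_mem hωA)
  have hval := congrArg A.valuation hS
  rw [valuation_natCast_eq_one hℓ hA hm, map_mul] at hval
  have h2 : A.valuation (1 - ω) = 1 := by
    refine le_antisymm h1ω ?_
    by_contra hlt
    rw [not_le] at hlt
    have : A.valuation (1 - ω) *
        A.valuation (∑ i ∈ Finset.range m, ∑ j ∈ Finset.range i, ω ^ j) < 1 :=
      mul_lt_one_of_nonneg_of_lt_one_left zero_le hlt hSA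
    rw [← hval] at this
    exact lt_irrefl _ this
  have h3 : ζ₁ - ζ₂ = ζ₁ * (1 - ω) := by
    rw [hω, mul_sub, mul_one, mul_comm ζ₂, ← mul_assoc, mul_inv_cancel₀ hζ₁0, one_mul]
  rw [h3, map_mul, h2, valuation_eq_one_of_pow_eq_one hm0 h₁, one_mul]

/-- two roots of unity of order prime to `ℓ` which are congruent modulo `𝔪_A` are equal -/
theorem eq_of_sub_mem_nonunits (hℓ : ℓ.Prime) (hA : A.LiesOverPrime ℓ) {m : ℕ} (hm : ¬ ℓ ∣ m)
    {ζ₁ ζ₂ : Qb} (h₁ : ζ₁ ^ m = 1) (h₂ : ζ₂ ^ m = 1) (h : ζ₁ - ζ₂ ∈ A.nonunits) : ζ₁ = ζ₂ := by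
  by_contra hne
  have h1 := valuation_sub_eq_one hℓ hA hm h₁ h₂ hne
  have h2 : A.valuation (ζ₁ - ζ₂) < 1 := h
  rw [h1] at h2
  exact lt_irrefl _ h2

/-- the inertia group fixes the roots of unity of order prime to `ℓ` -/
theorem inertia_apply_eq (hℓ : ℓ.Prime) (hA : A.LiesOverPrime ℓ) {m : ℕ} (hm : ¬ ℓ ∣ m)
    {ζ : Qb} (hζ : ζ ^ m = 1) {σ : GQ} (hσ : σ ∈ A.inertiaSubgroupIn ℚ) : σ ζ = ζ := by
  have hm0 : m ≠ 0 := fun h => hm (h ▸ dvd_zero ℓ)
  refine eq_of_sub_mem_nonunits hℓ hA hm (by rw [← map_pow, hζ, map_one]) hζ ?_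
  exact Fermat.Agent.S05.Inertia.apply_sub_mem_nonunits_of_mem_inertiaSubgroupIn A hσ
    (mem_of_pow_eq_one hm0 hζ)

/-- roots of unity of order prime to `ℓ` lie in `R^nr` -/
theorem isUnr_of_pow_eq_one (hℓ : ℓ.Prime) (hA : A.LiesOverPrime ℓ) {m : ℕ} (hm : ¬ ℓ ∣ m)
    {ζ : Qb} (hζ : ζ ^ m = 1) : IsUnr A ζ := by
  have hm0 : m ≠ 0 := fun h => hm (h ▸ dvd_zero ℓ)
  exact ⟨mem_of_pow_eq_one hm0 hζ, fun _ hσ => inertia_apply_eq hℓ hA hm hζ hσ⟩

/-- inverses of units of `A` lying in `R^nr` lie in `R^nr` -/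
theorem isUnr_inv {d : Qb} (hd : IsUnr A d) (hv : A.valuation d = 1) : IsUnr A d⁻¹ := by
  refine ⟨(A.valuation_le_one_iff _).1 ?_, fun σ hσ => by rw [map_inv₀, hd.2 σ hσ]⟩
  rw [map_inv₀, hv, inv_one]

/-! ### Frobenius elements -/

/-- a Frobenius element at `A` in the sense of the prelude satisfies `τ x ≡ x^q mod 𝔪_A` -/
theorem sub_pow_mem_nonunits_of_isFrobeniusAt {τ : GQ} {q : ℕ} (hτ : A.IsFrobeniusAt τ q)
    {x : Qb} (hx : x ∈ A) : τ x - x ^ q ∈ A.nonunits := by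
  set a : A := ⟨x, hx⟩ with ha
  have h1 := hτ.smul_residue_eq (IsLocalRing.residue A a)
  rw [← IsLocalRing.ResidueField.residue_smul, ← map_pow, ← sub_eq_zero, ← map_sub,
    IsLocalRing.residue_eq_zero_iff, ← ValuationSubring.coe_mem_nonunits_iff] at h1
  exact h1

/-- a Frobenius element raises the roots of unity of order prime to `ℓ` to the `ℓ`-th power -/
theorem frob_apply (hℓ : ℓ.Prime) (hA : A.LiesOverPrime ℓ) {τ : GQ}
    (hτ : ∀ x ∈ A, τ x - x ^ ℓ ∈ A.nonunits) {m : ℕ} (hm : ¬ ℓ ∣ m) {ζ : Qb} (hζ : ζ ^ m = 1) :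
    τ ζ = ζ ^ ℓ := by
  have hm0 : m ≠ 0 := fun h => hm (h ▸ dvd_zero ℓ)
  refine eq_of_sub_mem_nonunits hℓ hA hm (by rw [← map_pow, hζ, map_one])
    (by rw [← pow_mul, mul_comm, pow_mul, hζ, one_pow]) (hτ ζ (mem_of_pow_eq_one hm0 hζ))

theorem frob_pow_apply (hℓ : ℓ.Prime) (hA : A.LiesOverPrime ℓ) {τ : GQ}
    (hτ : ∀ x ∈ A, τ x - x ^ ℓ ∈ A.nonunits) {m : ℕ} (hm : ¬ ℓ ∣ m) {ζ : Qb} (hζ : ζ ^ m = 1)
    (k : ℕ) : (τ ^ k) ζ = ζ ^ (ℓ ^ k) := by
  induction k with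
  | zero => simp
  | succ k ih =>
    rw [pow_succ', AlgEquiv.mul_apply, ih, map_pow, frob_apply hℓ hA hτ hm hζ, ← pow_mul,
      pow_succ']

/-! ### The dual system -/

/-- **Trace-dual system in `R^nr`.**  For a Frobenius element `τ` at `A | ℓ` and `n ≥ 1` there
are `x j, y j ∈ R^nr`, `j < n`, with `τ (y j) = (y j)^ℓ`, `τⁿ (y j) = y j` and
`∑_j x j * τ^k (y j) = δ_{k,0}` for `k < n`. -/
theorem exists_unr_dual (hℓ : ℓ.Prime) (hA : A.LiesOverPrime ℓ) {τ : GQ}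
    (hτ : ∀ x ∈ A, τ x - x ^ ℓ ∈ A.nonunits) (n : ℕ) (hn : 0 < n) :
    ∃ x y : Fin n → Qb, (∀ j, IsUnr A (x j)) ∧ (∀ j, IsUnr A (y j)) ∧
      (∀ j, τ (y j) = y j ^ ℓ) ∧ (∀ j, (τ ^ n) (y j) = y j) ∧
      ∀ k : Fin n, ∑ j, x j * (τ ^ (k : ℕ)) (y j) = if (k : ℕ) = 0 then 1 else 0 := by
  classical
  -- the order `m = ℓ^n - 1`
  have hℓ2 : 2 ≤ ℓ := hℓ.two_le
  have hpow : ∀ d : ℕ, 0 < d → 2 ≤ ℓ ^ d := fun d hd =>
    le_trans hℓ2 (Nat.le_self_pow (Nat.pos_iff_ne_zero.1 hd) ℓ)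
  set m : ℕ := ℓ ^ n - 1 with hmdef
  have hm1 : m + 1 = ℓ ^ n := by
    have := hpow n hn
    omega
  have hm0 : m ≠ 0 := by
    have := hpow n hn
    omega
  have hm : ¬ ℓ ∣ m := by
    intro hdvd
    have h1 : ℓ ∣ ℓ ^ n := dvd_pow_self ℓ (Nat.pos_iff_ne_zero.1 hn)
    rw [← hm1] at h1
    have h2 : ℓ ∣ 1 := (Nat.dvd_add_right hdvd).1 h1
    exact hℓ.one_lt.ne' (Nat.dvd_one.1 h2)
  -- a primitive `m`-th root of unity
  have : NeZero ((m : ℕ) : ℚ) := ⟨by exact_mod_cast hm0⟩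
  obtain ⟨ζ, hζ⟩ := HasEnoughRootsOfUnity.exists_primitiveRoot Qb m
  have hζm : ζ ^ m = 1 := hζ.pow_eq_one
  have hζℓn : ζ ^ (ℓ ^ n) = ζ := by rw [← hm1, pow_succ, hζm, one_mul]
  -- the points `ζ^(ℓ^k)`
  let v : Fin n → Qb := fun k => ζ ^ (ℓ ^ (k : ℕ))
  have hvm : ∀ k, v k ^ m = 1 := fun k => by
    show (ζ ^ (ℓ ^ (k : ℕ))) ^ m = 1
    rw [← pow_mul, mul_comm, pow_mul, hζm, one_pow]
  have hvinj : Function.Injective v := by
    -- wlog `k < k'`
    have key : ∀ k k' : Fin n, (k : ℕ) < k' → v k ≠ v k' := by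
      intro k k' hkk' heq
      obtain ⟨d, hd⟩ := Nat.exists_eq_add_of_lt hkk'
      -- `η = ζ^(ℓ^k)` is a primitive `m`-th root with `η^(ℓ^(d+1)) = η`
      have hcop : Nat.Coprime (ℓ ^ (k : ℕ)) m := by
        apply Nat.Coprime.pow_left
        exact (Nat.Prime.coprime_iff_not_dvd hℓ).2 hm
      have hη : IsPrimitiveRoot (ζ ^ (ℓ ^ (k : ℕ))) m := hζ.pow_of_coprime _ hcop
      have h1 : (ζ ^ (ℓ ^ (k : ℕ))) ^ (ℓ ^ (d + 1)) = ζ ^ (ℓ ^ (k : ℕ)) := by
        have : (ζ ^ (ℓ ^ (k : ℕ))) ^ (ℓ ^ (d + 1)) = ζ ^ (ℓ ^ (k' : ℕ)) := by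
          rw [← pow_mul, ← pow_add, hd, add_assoc]
        rw [this]
        exact heq.symm
      have hd1 : 2 ≤ ℓ ^ (d + 1) := hpow (d + 1) (Nat.succ_pos d)
      have h2 : (ζ ^ (ℓ ^ (k : ℕ))) ^ (ℓ ^ (d + 1) - 1) = 1 := by
        have hη0 : ζ ^ (ℓ ^ (k : ℕ)) ≠ 0 := hη.ne_zero hm0
        have h3 : (ζ ^ (ℓ ^ (k : ℕ))) ^ (ℓ ^ (d + 1) - 1) * ζ ^ (ℓ ^ (k : ℕ)) =
            1 * ζ ^ (ℓ ^ (k : ℕ)) := by
          rw [← pow_succ, Nat.sub_add_cancel (by omega), h1, one_mul]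
        exact mul_right_cancel₀ hη0 h3
      have h4 : m ∣ ℓ ^ (d + 1) - 1 := hη.dvd_of_pow_eq_one _ h2
      have h5 : ℓ ^ (d + 1) < ℓ ^ n := by
        apply Nat.pow_lt_pow_right hℓ.one_lt
        have := k'.2
        omega
      have h6 := Nat.le_of_dvd (by omega) h4
      omega
    intro k k' hkk'
    by_contra hne
    rcases lt_or_gt_of_ne (fun h => hne (Fin.ext h)) with h | h
    · exact key k k' h hkk'
    · exact key k' k h hkk'.symm
  have hvunr : ∀ k, IsUnr A (v k) := fun k => isUnr_of_pow_eq_one hℓ hA hm (hvm k)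
  -- the Vandermonde matrix over `R^nr`
  let v₀ : Fin n → unrSubring A := fun k => ⟨v k, hvunr k⟩
  let Y : Matrix (Fin n) (Fin n) (unrSubring A) := Matrix.vandermonde v₀
  have hdet : ((Y.det : unrSubring A) : Qb) = ∏ i : Fin n, ∏ j ∈ Finset.Ioi i, (v j - v i) := by
    rw [Matrix.det_vandermonde]
    push_cast
    rfl
  have hdetval : A.valuation ((Y.det : unrSubring A) : Qb) = 1 := by
    rw [hdet, map_prod]
    refine Finset.prod_eq_one fun i _ => ?_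
    rw [map_prod]
    refine Finset.prod_eq_one fun j hj => ?_
    refine valuation_sub_eq_one hℓ hA hm (hvm j) (hvm i) ?_
    intro h
    have := hvinj h
    rw [Finset.mem_Ioi] at hj
    exact hj.ne' this
  have hunit : IsUnit Y.det := by
    have hinv : IsUnr A (((Y.det : unrSubring A) : Qb))⁻¹ := isUnr_inv Y.det.2 hdetval
    have hne : ((Y.det : unrSubring A) : Qb) ≠ 0 := by
      intro h0
      rw [h0, map_zero] at hdetval
      exact zero_ne_one hdetval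
    refine ⟨⟨Y.det, ⟨_, hinv⟩, ?_, ?_⟩, rfl⟩
    · apply Subtype.ext
      show ((Y.det : unrSubring A) : Qb) * (((Y.det : unrSubring A) : Qb))⁻¹ = 1
      exact mul_inv_cancel₀ hne
    · apply Subtype.ext
      show (((Y.det : unrSubring A) : Qb))⁻¹ * ((Y.det : unrSubring A) : Qb) = 1
      exact inv_mul_cancel₀ hne
  have hYinv : Y * Y⁻¹ = 1 := Matrix.mul_nonsing_inv Y hunit
  have h0n : (0 : ℕ) < n := hn
  refine ⟨fun j => ((Y⁻¹ j ⟨0, h0n⟩ : unrSubring A) : Qb), fun j => ζ ^ (j : ℕ),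
    fun j => (Y⁻¹ j ⟨0, h0n⟩).2, fun j => ?_, fun j => ?_, fun j => ?_, fun k => ?_⟩
  · exact isUnr_of_pow_eq_one hℓ hA hm
      (by rw [← pow_mul, mul_comm, pow_mul, hζm, one_pow])
  · rw [map_pow, frob_apply hℓ hA hτ hm hζm, ← pow_mul, ← pow_mul, mul_comm]
  · rw [map_pow, frob_pow_apply hℓ hA hτ hm hζm, hζℓn]
  · have h1 := congrFun (congrFun hYinv k) ⟨0, h0n⟩
    rw [Matrix.mul_apply] at h1
    have h2 := congrArg (fun z : unrSubring A => (z : Qb)) h1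
    simp only [AddSubmonoidClass.coe_finsetSum, Subring.coe_mul] at h2
    have h3 : ∀ j : Fin n, ((Y k j : unrSubring A) : Qb) = (τ ^ (k : ℕ)) (ζ ^ (j : ℕ)) := by
      intro j
      rw [map_pow, frob_pow_apply hℓ hA hτ hm hζm]
      rfl
    simp_rw [h3] at h2
    rw [Finset.sum_congr rfl fun j _ => mul_comm _ _]
    rw [h2, Matrix.one_apply]
    by_cases hk : (k : ℕ) = 0
    · have : k = ⟨0, h0n⟩ := Fin.ext hk
      simp [this]
    · have : k ≠ ⟨0, h0n⟩ := fun h => hk (by rw [h])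
      simp [this, hk]

/-! ### Consequence: decomposition into Frobenius-fixed elements -/

section Decomposition

variable {V : Type*} [AddCommGroup V] [Module Qb V]

/-- iterates of a `τ`-semilinear operator -/
theorem iterate_smul {τ : GQ} (Φ : V →+ V) (hΦ : ∀ (c : Qb) (v : V), Φ (c • v) = τ c • Φ v)
    (k : ℕ) (c : Qb) (v : V) : Φ^[k] (c • v) = (τ ^ k) c • Φ^[k] v := by
  induction k generalizing c v with
  | zero => simp
  | succ k ih =>
    rw [Function.iterate_succ_apply', Function.iterate_succ_apply', ih, hΦ, pow_succ',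
      AlgEquiv.mul_apply]

/-- **Decomposition into fixed elements.**  Let `Φ` be a `τ`-semilinear additive operator, `φ` an
element with `Φⁿ φ = φ`, and `(x, y)` a dual system as in `exists_unr_dual`.  Then the elements
`T j = ∑_{k<n} Φ^k (y j • φ)` are fixed by `Φ` and `φ = ∑_j x j • T j`. -/
theorem fixed_decomposition {τ : GQ} (Φ : V →+ V)
    (hΦ : ∀ (c : Qb) (v : V), Φ (c • v) = τ c • Φ v) {n : ℕ} (hn : 0 < n) {φ : V}
    (hφ : Φ^[n] φ = φ)
    (x y : Fin n → Qb) (hy : ∀ j, (τ ^ n) (y j) = y j)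
    (hxy : ∀ k : Fin n, ∑ j, x j * (τ ^ (k : ℕ)) (y j) = if (k : ℕ) = 0 then 1 else 0) :
    (∀ j, Φ (∑ k ∈ Finset.range n, Φ^[k] (y j • φ)) = ∑ k ∈ Finset.range n, Φ^[k] (y j • φ)) ∧
      φ = ∑ j, x j • ∑ k ∈ Finset.range n, Φ^[k] (y j • φ) := by
  have hiter : ∀ (j : Fin n) (k : ℕ), Φ^[k] (y j • φ) = (τ ^ k) (y j) • Φ^[k] φ :=
    fun j k => iterate_smul Φ hΦ k (y j) φ
  constructor
  · intro j
    rw [map_sum]
    have h1 : ∀ k, Φ (Φ^[k] (y j • φ)) = Φ^[k + 1] (y j • φ) := fun k =>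
      (Function.iterate_succ_apply' Φ k _).symm
    simp_rw [h1]
    have h2 := (Finset.sum_range_succ' (fun k => Φ^[k] (y j • φ)) n).symm.trans
      (Finset.sum_range_succ (fun k => Φ^[k] (y j • φ)) n)
    have h3 : Φ^[n] (y j • φ) = Φ^[0] (y j • φ) := by
      rw [hiter, hy, hφ, Function.iterate_zero, id]
    rw [h3] at h2
    exact add_right_cancel h2
  · simp_rw [hiter, Finset.smul_sum, smul_smul]
    rw [Finset.sum_comm]
    simp_rw [← Finset.sum_smul]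
    rw [Finset.sum_range (fun k => (∑ j, x j * (τ ^ k) (y j)) • Φ^[k] φ)]
    simp_rw [hxy]
    rw [Finset.sum_eq_single_of_mem (⟨0, hn⟩ : Fin n) (Finset.mem_univ _)]
    · simp
    · intro k _ hk
      have : (k : ℕ) ≠ 0 := fun h => hk (Fin.ext h)
      simp [this]

end Decomposition

/-! ### The semilinear operator `φ ↦ τ ∘ φ ∘ g` on functions -/

section ConjOp

variable {M : Type*}

/-- the `τ`-semilinear operator `φ ↦ τ ∘ φ ∘ g` on functions `M → ℚ̄` (for the `stable` field of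
`IsNrOrder`: `g = act τ⁻¹`) -/
noncomputable def conjOp (τ : GQ) (g : M → M) : (M → Qb) →+ (M → Qb) where
  toFun φ := fun y => τ (φ (g y))
  map_zero' := by funext y; simp
  map_add' φ ψ := by funext y; simp

@[simp] theorem conjOp_apply (τ : GQ) (g : M → M) (φ : M → Qb) (y : M) :
    conjOp τ g φ y = τ (φ (g y)) := rfl

theorem conjOp_smul (τ : GQ) (g : M → M) (c : Qb) (φ : M → Qb) :
    conjOp τ g (c • φ) = τ c • conjOp τ g φ := by
  funext y
  simp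

theorem conjOp_iterate (τ : GQ) (g : M → M) (k : ℕ) (φ : M → Qb) (y : M) :
    (conjOp τ g)^[k] φ y = (τ ^ k) (φ (g^[k] y)) := by
  induction k generalizing y with
  | zero => simp
  | succ k ih =>
    rw [Function.iterate_succ_apply', conjOp_apply, ih, pow_succ', AlgEquiv.mul_apply,
      Function.iterate_succ_apply]

/-- `fixed_decomposition` for functions -/
theorem fixed_decomposition_fun (τ : GQ) (g : M → M) {n : ℕ} (hn : 0 < n) {φ : M → Qb}
    (hφ : (conjOp τ g)^[n] φ = φ) (x y : Fin n → Qb) (hy : ∀ j, (τ ^ n) (y j) = y j)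
    (hxy : ∀ k : Fin n, ∑ j, x j * (τ ^ (k : ℕ)) (y j) = if (k : ℕ) = 0 then 1 else 0) :
    (∀ j, conjOp τ g (∑ k ∈ Finset.range n, (conjOp τ g)^[k] (y j • φ)) =
        ∑ k ∈ Finset.range n, (conjOp τ g)^[k] (y j • φ)) ∧
      φ = ∑ j, x j • ∑ k ∈ Finset.range n, (conjOp τ g)^[k] (y j • φ) :=
  fixed_decomposition (conjOp τ g) (conjOp_smul τ g) hn hφ x y hy hxy

end ConjOp

end Fermat.Agent.S19.Order.UnrDual
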