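/-
S19 / ORD-B, density step (helper12): **an element of `R^nr = A ∩ ℚ̄^{I_A}` fixed by a Frobenius
element is `ℓ`-adically approximated by integers.**

`A | ℓ` a valuation subring of `ℚ̄`, `τ` a Frobenius element at `A` (`τ x ≡ x^ℓ mod 𝔪_A`).

* `exists_int_sub_mem_nonunits` : `a ∈ A`, `a^ℓ - a ∈ 𝔪_A` ⟹ `a - j ∈ 𝔪_A` for some `j : ℤ`
  (the roots of `X^ℓ - X` in the residue field are the prime field);
* `isUnr_mul_inv` : `x ∈ R^nr ∩ 𝔪_A` ⟹ `x / ℓ ∈ R^nr` (the inertia field is unramified: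
  `UnramLevel.mul_inv_mem_of_mem_Kmax`);
* `exists_int_sub_mem_lpow` : `c ∈ R^nr`, `τ c = c` ⟹ `∀ N, ∃ q : ℤ, c - q ∈ ℓᴺA`, and the
  quotient `(c - q)/ℓᴺ` is again in `R^nr` and fixed by `τ`;
* `exists_rat_sub_mem_lpow` : the same for any `c ∈ ℚ̄` fixed by the inertia group and by `τ` such
  that `ℓᵐ c ∈ A`, with `q : ℚ`.

This is the "dense descent" `ℤ_(ℓ)^h → ℤ_(ℓ)`: only `I_A` and ONE Frobenius element are used, never
the whole decomposition group.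
-/
import Mathlib
import Fermat.Agent.S19.Order.UnrDual
import Fermat.Agent.S36.Descent.UnramLevel

set_option autoImplicit false

namespace Fermat.Agent.S19.Order.FrobDense

open Fermat.Agent.S19.Abs Fermat.Agent.S19.Coord Fermat.Agent.S19.Order.UnrPoly
  Fermat.Agent.S19.Order.UnrDual

variable {A : ValuationSubring Qb} {ℓ : ℕ}

/-- the residue field of `A | ℓ` has characteristic `ℓ` -/
theorem charP_residueField (hℓ : ℓ.Prime) (hA : A.LiesOverPrime ℓ) :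
    CharP (IsLocalRing.ResidueField A) ℓ := by
  rw [CharP.charP_iff_prime_eq_zero hℓ]
  have h1 : ((ℓ : A) : Qb) ∈ A.nonunits := by
    have : ((ℓ : A) : Qb) = (ℓ : Qb) := by simp
    rw [this]
    exact hA
  have h2 : (ℓ : A) ∈ IsLocalRing.maximalIdeal A := by
    rwa [← ValuationSubring.coe_mem_nonunits_iff] 
  have h3 := (IsLocalRing.residue_eq_zero_iff (ℓ : A)).2 h2
  rwa [map_natCast] at h3

/-- an element of `A` congruent to its `ℓ`-th power is congruent to an integer -/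
theorem exists_int_sub_mem_nonunits (hℓ : ℓ.Prime) (hA : A.LiesOverPrime ℓ) {a : Qb}
    (ha : a ∈ A) (h : a ^ ℓ - a ∈ A.nonunits) : ∃ j : ℤ, a - (j : Qb) ∈ A.nonunits := by
  have : Fact ℓ.Prime := ⟨hℓ⟩
  have := charP_residueField hℓ hA
  set a' : A := ⟨a, ha⟩ with ha'
  have h1 : (IsLocalRing.residue A a') ^ ℓ = IsLocalRing.residue A a' := by
    rw [← map_pow, ← sub_eq_zero, ← map_sub, IsLocalRing.residue_eq_zero_iff,
      ← ValuationSubring.coe_mem_nonunits_iff]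
    exact h
  have h2 : IsLocalRing.residue A a' ∈ (⊥ : Subfield (IsLocalRing.ResidueField A)) :=
    (Subfield.mem_bot_iff_pow_eq_self (IsLocalRing.ResidueField A) ℓ).2 h1
  obtain ⟨j, hj⟩ := (mem_bot_iff_intCast ℓ (IsLocalRing.ResidueField A)).1 h2
  refine ⟨j, ?_⟩
  have h3 : IsLocalRing.residue A (a' - (j : A)) = 0 := by
    rw [map_sub, map_intCast, hj, sub_self]
  rw [IsLocalRing.residue_eq_zero_iff, ← ValuationSubring.coe_mem_nonunits_iff] at h3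
  have h4 : ((a' - (j : A) : A) : Qb) = a - (j : Qb) := by
    rw [AddSubgroupClass.coe_sub]
    simp [ha']
  rwa [h4] at h3

/-- the inertia field is unramified: division by `ℓ` inside `R^nr ∩ 𝔪_A` -/
theorem isUnr_mul_inv (hℓ : ℓ.Prime) (hA : A.LiesOverPrime ℓ) {x : Qb} (hx : IsUnr A x)
    (hxm : x ∈ A.nonunits) : IsUnr A (x * (ℓ : Qb)⁻¹) := by
  refine ⟨?_, fun σ hσ => by rw [map_mul, map_inv₀, map_natCast, hx.2 σ hσ]⟩
  refine Fermat.Agent.S36.Descent.UnramLevel.mul_inv_mem_of_mem_Kmax hℓ hA ?_ hxm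
  rw [Fermat.Agent.S36.Descent.UnramLevel.mem_Kmax_iff]
  exact hx.2

/-- **Density.** An element of `R^nr` fixed by a Frobenius element is congruent to an integer
modulo `ℓᴺ`, with quotient in `R^nr` fixed by the Frobenius element. -/
theorem exists_int_sub_eq (hℓ : ℓ.Prime) (hA : A.LiesOverPrime ℓ) {τ : GQ}
    (hτ : A.IsFrobeniusAt τ ℓ) {c : Qb} (hc : IsUnr A c) (hτc : τ c = c) (N : ℕ) :
    ∃ (q : ℤ) (b : Qb), IsUnr A b ∧ τ b = b ∧ c = (q : Qb) + (ℓ : Qb) ^ N * b := by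
  have hℓ0 : (ℓ : Qb) ≠ 0 := Nat.cast_ne_zero.2 hℓ.ne_zero
  induction N with
  | zero => exact ⟨0, c, hc, hτc, by simp⟩
  | succ N ih =>
    obtain ⟨q, b, hb, hτb, hcb⟩ := ih
    -- the residue of `b` is in the prime field
    have h1 : b ^ ℓ - b ∈ A.nonunits := by
      have := sub_pow_mem_nonunits_of_isFrobeniusAt hτ hb.1
      rw [hτb] at this
      have h2 : b ^ ℓ - b = -(b - b ^ ℓ) := by ring
      rw [h2]
      rw [A.mem_nonunits_iff, Valuation.map_neg, ← A.mem_nonunits_iff]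
      exact this
    obtain ⟨j, hj⟩ := exists_int_sub_mem_nonunits hℓ hA hb.1 h1
    have hbj : IsUnr A (b - (j : Qb)) := by
      refine ⟨sub_mem hb.1 (intCast_mem A j), fun σ hσ => ?_⟩
      rw [map_sub, hb.2 σ hσ, map_intCast]
    have hb' := isUnr_mul_inv hℓ hA hbj hj
    refine ⟨q + (ℓ : ℤ) ^ N * j, (b - (j : Qb)) * (ℓ : Qb)⁻¹, hb', ?_, ?_⟩
    · rw [map_mul, map_inv₀, map_natCast, map_sub, hτb, map_intCast]
    · rw [hcb]
      push_cast
      field_simp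
      ring

theorem exists_int_sub_mem_lpow (hℓ : ℓ.Prime) (hA : A.LiesOverPrime ℓ) {τ : GQ}
    (hτ : A.IsFrobeniusAt τ ℓ) {c : Qb} (hc : IsUnr A c) (hτc : τ c = c) (N : ℕ) :
    ∃ q : ℤ, c - (q : Qb) ∈ lpow A ℓ N := by
  obtain ⟨q, b, hb, -, hcb⟩ := exists_int_sub_eq hℓ hA hτ hc hτc N
  exact ⟨q, b, hb.1, by rw [hcb]; ring⟩

/-- **Density, rational form.** An element of `ℚ̄` fixed by the inertia group and by a Frobenius
element, with `ℓᵐ c ∈ A`, is congruent to a rational number modulo `ℓᴺ A`, with quotient in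
`R^nr`. -/
theorem exists_rat_sub_eq (hℓ : ℓ.Prime) (hA : A.LiesOverPrime ℓ) {τ : GQ}
    (hτ : A.IsFrobeniusAt τ ℓ) {c : Qb} (hI : ∀ σ ∈ A.inertiaSubgroupIn ℚ, σ c = c)
    (hτc : τ c = c) {m : ℕ} (hm : (ℓ : Qb) ^ m * c ∈ A) (N : ℕ) :
    ∃ (q : ℚ) (b : Qb), IsUnr A b ∧ τ b = b ∧ c = algebraMap ℚ Qb q + (ℓ : Qb) ^ N * b := by
  have hℓ0 : (ℓ : Qb) ≠ 0 := Nat.cast_ne_zero.2 hℓ.ne_zero
  have hc' : IsUnr A ((ℓ : Qb) ^ m * c) :=
    ⟨hm, fun σ hσ => by rw [map_mul, map_pow, map_natCast, hI σ hσ]⟩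
  have hτc' : τ ((ℓ : Qb) ^ m * c) = (ℓ : Qb) ^ m * c := by
    rw [map_mul, map_pow, map_natCast, hτc]
  obtain ⟨q, b, hb, hτb, hcb⟩ := exists_int_sub_eq hℓ hA hτ hc' hτc' (N + m)
  refine ⟨(q : ℚ) / (ℓ : ℚ) ^ m, b, hb, hτb, ?_⟩
  have h1 : algebraMap ℚ Qb ((q : ℚ) / (ℓ : ℚ) ^ m) = (q : Qb) / (ℓ : Qb) ^ m := by
    rw [map_div₀, map_pow, map_intCast, map_natCast]
  rw [h1]
  have h2 : c = ((ℓ : Qb) ^ m * c) / (ℓ : Qb) ^ m := by
    field_simp
  rw [h2, hcb, pow_add]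
  field_simp

end Fermat.Agent.S19.Order.FrobDense
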