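/-
S19 / ORD-B, step (b) (helper17): **an `R^nr`-order is spanned over `R^nr` by its
Frobenius-equivariant elements.**

`H'` an `R^nr`-order (`NrDefs.IsNrOrder`) on a finite `G_ℚ`-module `M`, `τ` a Frobenius element at
`A | ℓ`.  The semilinear operator `Φ φ = τ ∘ φ ∘ act τ⁻¹` preserves `H'` (`stable`); every function
`φ : M → ℚ̄` is periodic for `Φ` (pigeonhole on the finite set of pairs `(act τ^k, τ^k ∘ φ)`); the
dual system of `UnrDual.exists_unr_dual` then writes `φ = ∑_j x j • T j` with `x j ∈ R^nr` and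
`T j ∈ H'` fixed by `Φ`, i.e. `τ`-equivariant.
-/
import Mathlib
import Fermat.Agent.S19.Order.NrDefs
import Fermat.Agent.S19.Order.UnrDual

set_option autoImplicit false

namespace Fermat.Agent.S19.Order.FrobSpan

open Fermat.Agent.S19.Abs Fermat.Agent.S19.Coord Fermat.Agent.S19.Order.NrDefs
  Fermat.Agent.S19.Order.UnrDual

variable {M : Type} [AddCommGroup M] {act : GQ → M → M}

/-! ### Powers of an element acting on `M` -/

theorem act_pow (hact : IsGalAction act) (τ : GQ) (k : ℕ) (y : M) :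
    (act τ)^[k] y = act (τ ^ k) y := by
  induction k generalizing y with
  | zero => simp [hact.one]
  | succ k ih =>
    rw [Function.iterate_succ_apply', ih, pow_succ', hact.mul]

theorem act_inv_cancel (hact : IsGalAction act) (σ : GQ) (y : M) : act σ⁻¹ (act σ y) = y := by
  rw [← hact.mul, inv_mul_cancel, hact.one]

theorem act_cancel_inv (hact : IsGalAction act) (σ : GQ) (y : M) : act σ (act σ⁻¹ y) = y := by
  rw [← hact.mul, mul_inv_cancel, hact.one]

/-! ### Periodicity -/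

/-- some positive power of `τ` acts trivially on `M` and fixes all values of `φ` -/
theorem exists_pow_fixing [Finite M] (hact : IsGalAction act) (τ : GQ) (φ : M → Qb) :
    ∃ n : ℕ, 0 < n ∧ (∀ y, act (τ ^ n) y = y) ∧ ∀ y, (τ ^ n) (φ y) = φ y := by
  classical
  -- the finite set in which the pairs `(act τ^k, τ^k ∘ φ)` live
  let S : M → Set Qb := fun y => (minpoly ℚ (φ y)).rootSet Qb
  have hS : ∀ y, (S y).Finite := fun y => Polynomial.rootSet_finite _ _
  let T : Set ((M → M) × (M → Qb)) := Set.univ ×ˢ Set.pi Set.univ S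
  have hT : T.Finite := Set.finite_univ.prod (Set.Finite.pi fun y => hS y)
  let F : ℕ → (M → M) × (M → Qb) := fun k => (act (τ ^ k), fun y => (τ ^ k) (φ y))
  have hF : ∀ k, F k ∈ T := by
    intro k
    refine ⟨Set.mem_univ _, fun y _ => ?_⟩
    have hint : IsIntegral ℚ (φ y) :=
      (AlgebraicClosure.isAlgebraic ℚ).isAlgebraic (φ y) |>.isIntegral
    show (τ ^ k) (φ y) ∈ (minpoly ℚ (φ y)).rootSet Qb
    rw [Polynomial.mem_rootSet]
    refine ⟨minpoly.ne_zero hint, ?_⟩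
    have h1 : Polynomial.aeval ((τ ^ k) (φ y)) (minpoly ℚ (φ y)) =
        (τ ^ k) (Polynomial.aeval (φ y) (minpoly ℚ (φ y))) :=
      Polynomial.aeval_algHom_apply ((τ ^ k : GQ) : Qb →ₐ[ℚ] Qb) (φ y) _
    rw [h1, minpoly.aeval, map_zero]
  have hninj : ¬ Function.Injective F := fun hinj =>
    (Set.infinite_of_injective_forall_mem hinj hF) hT
  rw [Function.Injective] at hninj
  push Not at hninj
  obtain ⟨k, k', hkk', hne⟩ := hninj
  -- wlog `k < k'`
  have key : ∀ k k' : ℕ, k < k' → F k = F k' →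
      ∃ n : ℕ, 0 < n ∧ (∀ y, act (τ ^ n) y = y) ∧ ∀ y, (τ ^ n) (φ y) = φ y := by
    intro k k' hlt heq
    obtain ⟨d, hd⟩ := Nat.exists_eq_add_of_lt hlt
    refine ⟨d + 1, Nat.succ_pos d, fun y => ?_, fun y => ?_⟩
    · have h1 : act (τ ^ k) y = act (τ ^ k') y := congrFun (congrArg Prod.fst heq) y
      have h2 : τ ^ k' = τ ^ k * τ ^ (d + 1) := by rw [← pow_add, hd, add_assoc]
      rw [h2, hact.mul] at h1
      have h3 := congrArg (act (τ ^ k)⁻¹) h1
      rw [act_inv_cancel hact, act_inv_cancel hact] at h3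
      exact h3.symm
    · have h1 : (τ ^ k) (φ y) = (τ ^ k') (φ y) := congrFun (congrArg Prod.snd heq) y
      have h2 : τ ^ k' = τ ^ k * τ ^ (d + 1) := by rw [← pow_add, hd, add_assoc]
      rw [h2, AlgEquiv.mul_apply] at h1
      exact ((τ ^ k).injective h1).symm
  rcases lt_or_gt_of_ne hne with h | h
  · exact key k k' h hkk'
  · exact key k' k h hkk'.symm

/-- every function is periodic for `Φ = conjOp τ (act τ⁻¹)` -/
theorem exists_iterate_conjOp_eq [Finite M] (hact : IsGalAction act) (τ : GQ) (φ : M → Qb) :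
    ∃ n : ℕ, 0 < n ∧ (conjOp τ (act τ⁻¹))^[n] φ = φ := by
  obtain ⟨n, hn, h1, h2⟩ := exists_pow_fixing hact τ φ
  refine ⟨n, hn, ?_⟩
  funext y
  rw [conjOp_iterate, act_pow hact, h2]
  congr 1
  -- `act (τ⁻¹ ^ n) y = y`
  have h3 : act ((τ ^ n)⁻¹) (act (τ ^ n) y) = act ((τ ^ n)⁻¹) y := by rw [h1]
  rw [act_inv_cancel hact] at h3
  rw [inv_pow]
  exact h3.symm

/-! ### The span theorem -/

variable {A : ValuationSubring Qb} {ℓ : ℕ} {H' : Set (M → Qb)}

/-- `Φ = conjOp τ (act τ⁻¹)` preserves an `R^nr`-order -/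
theorem conjOp_mem (h : IsNrOrder ℓ A act H') {τ : GQ} (hτD : τ ∈ A.decompositionSubgroup ℚ)
    {φ : M → Qb} (hφ : φ ∈ H') : conjOp τ (act τ⁻¹) φ ∈ H' :=
  h.stable τ hτD φ hφ

theorem conjOp_iterate_mem (h : IsNrOrder ℓ A act H') {τ : GQ}
    (hτD : τ ∈ A.decompositionSubgroup ℚ) {φ : M → Qb} (hφ : φ ∈ H') (k : ℕ) :
    (conjOp τ (act τ⁻¹))^[k] φ ∈ H' := by
  induction k with
  | zero => simpa using hφ
  | succ k ih =>
    rw [Function.iterate_succ_apply']
    exact conjOp_mem h hτD ih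

/-- a function fixed by `Φ` is `τ`-equivariant -/
theorem equivariant_of_conjOp_eq (hact : IsGalAction act) {τ : GQ} {T : M → Qb}
    (hT : conjOp τ (act τ⁻¹) T = T) (y : M) : T (act τ y) = τ (T y) := by
  have h1 := congrFun hT (act τ y)
  rw [conjOp_apply, act_inv_cancel hact] at h1
  exact h1.symm

/-- **An `R^nr`-order is spanned over `R^nr` by its Frobenius-equivariant elements.** -/
theorem exists_frob_span [Finite M] (hact : IsGalAction act) (hℓ : ℓ.Prime)
    (hA : A.LiesOverPrime ℓ) (h : IsNrOrder ℓ A act H') {τ : GQ}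
    (hτD : τ ∈ A.decompositionSubgroup ℚ) (hτ : ∀ x ∈ A, τ x - x ^ ℓ ∈ A.nonunits)
    {φ : M → Qb} (hφ : φ ∈ H') :
    ∃ (n : ℕ) (x : Fin n → Qb) (T : Fin n → M → Qb), (∀ j, IsUnr A (x j)) ∧ (∀ j, T j ∈ H') ∧
      (∀ j y, T j (act τ y) = τ (T j y)) ∧ φ = ∑ j, x j • T j := by
  obtain ⟨n, hn, hper⟩ := exists_iterate_conjOp_eq hact τ φ
  obtain ⟨x, y, hx, hy, -, hyn, hxy⟩ := exists_unr_dual hℓ hA hτ n hn
  obtain ⟨hfix, hdec⟩ := fixed_decomposition_fun τ (act τ⁻¹) hn hper x y hyn hxy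
  refine ⟨n, x, fun j => ∑ k ∈ Finset.range n, (conjOp τ (act τ⁻¹))^[k] (y j • φ), hx,
    fun j => ?_, fun j z => equivariant_of_conjOp_eq hact (hfix j) z, hdec⟩
  exact h.sum_mem _ fun k _ => conjOp_iterate_mem h hτD (h.smul_mem (hy j) hφ) k

end Fermat.Agent.S19.Order.FrobSpan
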