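/-
S19 / ORD-A (helper12): **`MainWire.HinfTarget` from leaf [A1]** — the two non-formal fields
(`separates`, `comul`) of `IsNrOrder` for `Hinf CC`, assembled from

* [A2] `Stabilise.Hinf_separates`, `Stabilise.exists_structure`, `Stabilise.omax_separates`;
* [A3c] `Comul.comul_Hinf`;

with the equivariant Lagrange interpolation [A1] as the only remaining input, in the form
`LagrangeAll`: `Stabilise.LagrangeHyp ℓ A act` for every finite set with an action of `G_ℚ`
(it is used for `M` and for `M × M` with the diagonal action).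
-/
import Mathlib
import Fermat.Agent.S19.Order.Stabilise
import Fermat.Agent.S19.Order.OmaxSeparates
import Fermat.Agent.S19.Order.Comul
import Fermat.Agent.S19.Order.MainWire

set_option autoImplicit false

namespace Fermat.Agent.S19.Order.HinfTarget

open Fermat.Agent.S19.Abs Fermat.Agent.S19.Coord Fermat.Agent.S19.Order.Stabilise
  Fermat.Agent.S19.Order.Comul

/-- Leaf [A1] for all finite `G_ℚ`-sets. -/
def LagrangeAll (ℓ : ℕ) (A : ValuationSubring Qb) : Prop :=
  ∀ (X : Type) [Finite X] (act : GQ → X → X), (∀ y, act 1 y = y) →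
    (∀ σ τ y, act (σ * τ) y = act σ (act τ y)) → LagrangeHyp ℓ A act

/-- The fields `separates` and `comul` for `Hinf CC`, from [A1]. -/
theorem hinf_fields {ℓ : ℕ} (hℓ : ℓ.Prime) {A : ValuationSubring Qb} (hL : LagrangeAll ℓ A)
    {M : Type} [AddCommGroup M] [Finite M] {act : GQ → M → M} (hact : IsGalAction act)
    (hopen : ∀ y : M, ∃ E : IntermediateField ℚ Qb, FiniteDimensional ℚ E ∧
      ∀ σ : GQ, (∀ x ∈ E, σ x = x) → act σ y = y)
    {g : ℕ} (CC : CosetCoords ℓ A act g) :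
    (∀ y y' : M, y ≠ y' → ∃ φ ∈ Hinf CC, φ y ≠ φ y') ∧
      (∀ φ ∈ Hinf CC, ∃ (n : ℕ) (a b : Fin n → M → Qb), (∀ j, a j ∈ Hinf CC) ∧
        (∀ j, b j ∈ Hinf CC) ∧ ∀ y y' : M, φ (y + y') = ∑ j, a j y * b j y') := by
  have hEL : LagrangeHyp ℓ A act := hL M act hact.one hact.mul
  have hEL₂ : LagrangeHyp ℓ A (act₂ act) :=
    hL (M × M) (act₂ act) (fun p => Prod.ext (hact.one p.1) (hact.one p.2))
      (fun σ τ p => Prod.ext (hact.mul σ τ p.1) (hact.mul σ τ p.2))
  refine ⟨Hinf_separates CC hℓ.ne_zero hact.one hact.mul hEL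
    (omax_separates A hact.one hact.mul hopen), ?_⟩
  obtain ⟨s, n₂, -, -, hlift⟩ := exists_structure CC hℓ.ne_zero hact.one hact.mul hEL
  have hlift' : ∃ n₀, ∀ n, n₀ ≤ n → ∃ τ : M → Fin g → Qb,
      (∀ i, (fun y => τ y i) ∈ Hinf CC) ∧ ∀ y, CC.Co n y (τ y) := by
    refine ⟨n₂, fun n hn => ?_⟩
    obtain ⟨τ, hτ, -, hτM⟩ := hlift n hn
    exact ⟨τ, hτM, hτ⟩
  intro φ hφ
  exact comul_Hinf CC hℓ.ne_zero hact.add hEL₂ hlift' hφ

/-- **`HinfTarget` from [A1].** -/
theorem hinfTarget_of_lagrange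
    (hL : ∀ (ℓ : ℕ) [Fact ℓ.Prime] (A : ValuationSubring Qb), A.LiesOverPrime ℓ →
      LagrangeAll ℓ A) :
    Fermat.Agent.S19.Order.MainWire.HinfTarget := by
  intro ℓ hℓ A hA M _ _ act hact hopen g CC
  exact hinf_fields hℓ.out (hL ℓ A hA) hact hopen CC

end Fermat.Agent.S19.Order.HinfTarget
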