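/-
S19 / order layer, leaf [LOC] (L2), **orbit form** (helper2; shape requested by the blueprint owner):

`A` a valuation subring of `ℚ̄` over the prime `ℓ`, `I = A.inertiaSubgroupIn ℚ`, `x ∈ 𝔪_A`.  If the
`I`-orbit of `x` has at most `e` elements, then `x ^ e ∈ ℓ·A`.
(The product `N` of the orbit is an `I`-fixed nonunit, hence divisible by `ℓ` in `A`
(`UnramLevel.mul_inv_mem_of_mem_Kmax`), and all conjugates of `x` under the decomposition group
have the same valuation.)

* `mem_iff_apply_mem`, `valuation_apply_eq` : the decomposition group preserves `A` and `A.valuation`;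
* `pow_mem_lpow_of_orbit` : the statement for an `I`-stable finite set `T ∋ x` of `I`-conjugates;
* `pow_mem_lpow_of_stab` : the statement for an element fixed by the `I`-stabiliser of a point `y` of a
  set with `G_ℚ`-action whose `I`-orbit lies in a finite set `Y`  (`e ≥ #Y`) — the shape of
  `CoordSystem.rational_stab`.
-/
import Mathlib
import Fermat.Agent.S19.Coord.Defs
import Fermat.Agent.S36.Descent.UnramLevel

set_option autoImplicit false

namespace Fermat.Agent.S19.Order.LocRamOrbit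

open Fermat.Agent.S19.Abs Fermat.Agent.S19.Coord
open scoped Pointwise

variable {A : ValuationSubring Qb} {ℓ : ℕ}

theorem mem_decomp_of_mem_inertia {σ : GQ} (hσ : σ ∈ A.inertiaSubgroupIn ℚ) :
    σ ∈ A.decompositionSubgroup ℚ := by
  obtain ⟨τ, -, rfl⟩ := Subgroup.mem_map.mp hσ
  exact τ.2

/-- The decomposition group preserves `A`. -/
theorem mem_iff_apply_mem {σ : GQ} (hσ : σ ∈ A.decompositionSubgroup ℚ) (x : Qb) :
    σ x ∈ A ↔ x ∈ A := by
  have h : σ • A = A := hσ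
  have h1 : σ • x ∈ σ • A ↔ x ∈ A := ValuationSubring.smul_mem_pointwise_smul_iff
  rw [h] at h1
  exact h1

/-- Some positive power of `σ` fixes `x`. -/
theorem exists_pow_apply_eq (σ : GQ) (x : Qb) : ∃ n : ℕ, 0 < n ∧ (σ ^ n) x = x := by
  have hint : IsIntegral ℚ x := ((AlgebraicClosure.isAlgebraic ℚ).isAlgebraic x).isIntegral
  have hfin : ((minpoly ℚ x).rootSet Qb).Finite := Polynomial.rootSet_finite _ _
  have hmem : ∀ k : ℕ, (σ ^ k) x ∈ (minpoly ℚ x).rootSet Qb := by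
    intro k
    rw [Polynomial.mem_rootSet]
    refine ⟨minpoly.ne_zero hint, ?_⟩
    rw [Polynomial.aeval_algEquiv, AlgHom.comp_apply, minpoly.aeval]
    simp
  obtain ⟨a, b, hab, h⟩ : ∃ a b : ℕ, a ≠ b ∧ (σ ^ a) x = (σ ^ b) x := by
    by_contra hcon'
    have hcon : ∀ a b : ℕ, a ≠ b → (σ ^ a) x ≠ (σ ^ b) x :=
      fun a b hab h => hcon' ⟨a, b, hab, h⟩
    have hinj : Function.Injective (fun k : ℕ => (⟨(σ ^ k) x, hmem k⟩ :
        (minpoly ℚ x).rootSet Qb)) := by
      intro a b hab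
      by_contra hne
      exact hcon a b hne (congrArg Subtype.val hab)
    have := hfin.to_subtype
    exact not_injective_infinite_finite _ hinj
  wlog hlt : a < b generalizing a b
  · exact this b a hab.symm h.symm (lt_of_le_of_ne (not_lt.mp hlt) hab.symm)
  obtain ⟨d, rfl⟩ := Nat.exists_eq_add_of_lt hlt
  refine ⟨d + 1, Nat.succ_pos d, ?_⟩
  have h2 : (σ ^ a) x = (σ ^ a) ((σ ^ (d + 1)) x) := by
    rw [h, add_assoc, pow_add]
    rfl
  exact ((σ ^ a).injective h2).symm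

/-- The decomposition group preserves the set of nonunits. -/
theorem mem_nonunits_iff_apply_mem {σ : GQ} (hσ : σ ∈ A.decompositionSubgroup ℚ) (x : Qb) :
    σ x ∈ A.nonunits ↔ x ∈ A.nonunits := by
  rw [ValuationSubring.mem_nonunits_iff_or, ValuationSubring.mem_nonunits_iff_or, ← map_inv₀,
    mem_iff_apply_mem hσ]
  simp

/-- If `w` is a nonunit, the product of its first `n ≥ 1` conjugates under `σ ∈ D_A` is a nonunit. -/
theorem prod_pow_apply_mem_nonunits {σ : GQ} (hσ : σ ∈ A.decompositionSubgroup ℚ) {w : Qb}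
    (hw : w ∈ A.nonunits) (n : ℕ) : ∏ k ∈ Finset.range (n + 1), (σ ^ k) w ∈ A.nonunits := by
  have hk : ∀ k : ℕ, (σ ^ k) w ∈ A.nonunits := by
    intro k
    exact (mem_nonunits_iff_apply_mem (Subgroup.pow_mem _ hσ k) w).mpr hw
  induction n with
  | zero => simpa using hw
  | succ n ih =>
    rw [Finset.prod_range_succ]
    exact A.nonunits.mul_mem ih (hk (n + 1))

theorem prod_pow_apply_div (σ : GQ) {x : Qb} (hx : x ≠ 0) (n : ℕ) :
    ∏ k ∈ Finset.range n, (σ ^ k) (x / σ x) = x / (σ ^ n) x := by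
  induction n with
  | zero => simp [div_self hx]
  | succ n ih =>
    rw [Finset.prod_range_succ, ih, map_div₀]
    have h1 : (σ ^ n) x ≠ 0 := fun h => hx ((σ ^ n).injective (by rw [h, map_zero]))
    have h2 : (σ ^ n) (σ x) = (σ ^ (n + 1)) x := by
      rw [pow_succ]; rfl
    rw [h2]
    field_simp

/-- The decomposition group preserves the valuation. -/
theorem valuation_apply_eq {σ : GQ} (hσ : σ ∈ A.decompositionSubgroup ℚ) (x : Qb) :
    A.valuation (σ x) = A.valuation x := by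
  by_cases hx : x = 0
  · simp [hx]
  -- one inequality for every element of the decomposition group
  have key : ∀ τ : GQ, τ ∈ A.decompositionSubgroup ℚ → ∀ y : Qb, y ≠ 0 →
      A.valuation y ≤ A.valuation (τ y) := by
    intro τ hτ y hy
    by_contra hlt
    rw [not_le] at hlt
    have hτy : τ y ≠ 0 := by simpa using hy
    -- `w := τ y / y`... use `y / τ y`?  we have `v (τ y) < v y`, so `τ y / y` is a nonunit
    have hw : τ y / y ∈ A.nonunits := by
      rw [ValuationSubring.mem_nonunits_iff, map_div₀]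
      exact (div_lt_one₀ (zero_lt_iff.mpr ((Valuation.ne_zero_iff _).mpr hy))).mpr hlt
    -- apply `τ⁻¹`: `y / τ⁻¹ y` is a nonunit
    have hτi : τ⁻¹ ∈ A.decompositionSubgroup ℚ := Subgroup.inv_mem _ hτ
    have hw' : y / τ⁻¹ y ∈ A.nonunits := by
      have := (mem_nonunits_iff_apply_mem hτi (τ y / y)).mpr hw
      rw [map_div₀] at this
      have e1 : τ⁻¹ (τ y) = y := by
        show (τ⁻¹ * τ) y = y
        rw [inv_mul_cancel]; rfl
      rwa [e1] at this
    obtain ⟨n, hn, hfix⟩ := exists_pow_apply_eq τ⁻¹ y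
    obtain ⟨m, rfl⟩ := Nat.exists_eq_succ_of_ne_zero (Nat.pos_iff_ne_zero.mp hn)
    have hprod := prod_pow_apply_mem_nonunits hτi hw' m
    rw [prod_pow_apply_div τ⁻¹ hy (m + 1), hfix, div_self hy] at hprod
    have h1 : A.valuation (1 : Qb) < 1 := hprod
    rw [map_one] at h1
    exact lt_irrefl _ h1
  refine le_antisymm ?_ (key σ hσ x hx)
  have h := key σ⁻¹ (Subgroup.inv_mem _ hσ) (σ x) (by simpa using hx)
  have e1 : σ⁻¹ (σ x) = x := by
    show (σ⁻¹ * σ) x = x
    rw [inv_mul_cancel]; rfl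
  rwa [e1] at h

/-- `x ∈ A` with `v(x) ≤ v(ℓ)` lies in `ℓ·A`. -/
theorem mem_lpow_one_of_valuation_le (hℓ : ℓ.Prime) {x : Qb}
    (h : A.valuation x ≤ A.valuation (ℓ : Qb)) : x ∈ lpow A ℓ 1 := by
  have hℓ0 : (ℓ : Qb) ≠ 0 := Nat.cast_ne_zero.mpr hℓ.ne_zero
  refine ⟨x / (ℓ : Qb), ?_, ?_⟩
  · rw [← A.valuation_le_one_iff, map_div₀]
    exact div_le_one_of_le₀ h zero_le
  · rw [pow_one]; field_simp

/-- **(L2), orbit form.**  `T ∋ x` a finite set of `I_A`-conjugates of `x ∈ 𝔪_A`, stable under `I_A`;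
then `x ^ e ∈ ℓ·A` for `e ≥ #T`. -/
theorem pow_mem_lpow_of_orbit (hℓ : ℓ.Prime) (hA : A.LiesOverPrime ℓ) {x : Qb}
    (hx : x ∈ A.nonunits) (T : Finset Qb) (hxT : x ∈ T)
    (hstab : ∀ σ ∈ A.inertiaSubgroupIn ℚ, ∀ t ∈ T, σ t ∈ T)
    (horb : ∀ t ∈ T, ∃ σ ∈ A.inertiaSubgroupIn ℚ, t = σ x) {e : ℕ} (he : T.card ≤ e) :
    x ^ e ∈ lpow A ℓ 1 := by
  classical
  set N : Qb := ∏ t ∈ T, t with hN
  have hcard : 1 ≤ T.card := Finset.card_pos.mpr ⟨x, hxT⟩
  have hvx1 : A.valuation x < 1 := hx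
  -- the valuation of `N`
  have hvN : A.valuation N = A.valuation x ^ T.card := by
    rw [hN, map_prod, Finset.prod_eq_pow_card]
    intro t ht
    obtain ⟨σ, hσ, rfl⟩ := horb t ht
    exact valuation_apply_eq (mem_decomp_of_mem_inertia hσ) x
  -- `N` is fixed by the inertia group
  have hfix : ∀ σ ∈ A.inertiaSubgroupIn ℚ, σ N = N := by
    intro σ hσ
    rw [hN, map_prod]
    refine Finset.prod_bij (fun t _ => σ t) (fun t ht => hstab σ hσ t ht)
      (fun a _ b _ hab => σ.injective hab) (fun t ht => ?_) (fun _ _ => rfl)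
    refine ⟨σ⁻¹ t, hstab σ⁻¹ (Subgroup.inv_mem _ hσ) t ht, ?_⟩
    show (σ * σ⁻¹) t = t
    rw [mul_inv_cancel]; rfl
  have hNK : N ∈ Fermat.Agent.S36.Descent.UnramLevel.Kmax A :=
    Fermat.Agent.S36.Descent.UnramLevel.mem_Kmax_iff.mpr hfix
  have hNnon : N ∈ A.nonunits := by
    show A.valuation N < 1
    rw [hvN]
    exact Right.pow_lt_one_of_lt hcard hvx1
  have hdiv : N * (ℓ : Qb)⁻¹ ∈ A :=
    Fermat.Agent.S36.Descent.UnramLevel.mul_inv_mem_of_mem_Kmax hℓ hA hNK hNnon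
  have hℓ0 : (ℓ : Qb) ≠ 0 := Nat.cast_ne_zero.mpr hℓ.ne_zero
  have hvNle : A.valuation N ≤ A.valuation (ℓ : Qb) := by
    have h1 : A.valuation (N * (ℓ : Qb)⁻¹) ≤ 1 := (A.valuation_le_one_iff _).mpr hdiv
    rw [map_mul, map_inv₀] at h1
    have hpos : 0 < A.valuation (ℓ : Qb) := zero_lt_iff.mpr ((Valuation.ne_zero_iff _).mpr hℓ0)
    rwa [← div_eq_mul_inv, div_le_one₀ hpos] at h1
  refine mem_lpow_one_of_valuation_le hℓ ?_
  rw [map_pow]
  calc A.valuation x ^ e ≤ A.valuation x ^ T.card := pow_le_pow_right_of_le_one' hvx1.le he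
    _ = A.valuation N := hvN.symm
    _ ≤ A.valuation (ℓ : Qb) := hvNle

/-- **(L2), stabiliser form** (the shape of `CoordSystem.rational_stab`).  `X` a set with an action of
`G_ℚ`, `y : X` a point whose `I_A`-orbit lies in the finite set `Y`, and `x ∈ 𝔪_A` fixed by the
`I_A`-stabiliser of `y`.  Then `x ^ e ∈ ℓ·A` for `e ≥ #Y`. -/
theorem pow_mem_lpow_of_stab (hℓ : ℓ.Prime) (hA : A.LiesOverPrime ℓ) {X : Type*}
    (act : GQ → X → X) (hone : ∀ y, act 1 y = y)
    (hmul : ∀ σ τ y, act (σ * τ) y = act σ (act τ y)) (y : X) (Y : Finset X)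
    (hY : ∀ σ ∈ A.inertiaSubgroupIn ℚ, act σ y ∈ Y) {x : Qb} (hx : x ∈ A.nonunits)
    (hfix : ∀ σ ∈ A.inertiaSubgroupIn ℚ, act σ y = y → σ x = x) {e : ℕ} (he : Y.card ≤ e) :
    x ^ e ∈ lpow A ℓ 1 := by
  classical
  set S : Set Qb := {t | ∃ σ ∈ A.inertiaSubgroupIn ℚ, t = σ x} with hS
  have hchoice : ∀ t : S, ∃ σ ∈ A.inertiaSubgroupIn ℚ, (t : Qb) = σ x := fun t => t.2
  choose τ hτI hτ using hchoice
  let g : S → Y := fun t => ⟨act (τ t) y, hY (τ t) (hτI t)⟩
  have hg : Function.Injective g := by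
    intro t t' h
    have h1 : act (τ t) y = act (τ t') y := congrArg Subtype.val h
    have h2 : act ((τ t')⁻¹ * τ t) y = y := by
      rw [hmul, h1, ← hmul, inv_mul_cancel, hone]
    have h3 := hfix _ (Subgroup.mul_mem _ (Subgroup.inv_mem _ (hτI t')) (hτI t)) h2
    have h4 : (τ t) x = (τ t') x := by
      have : (τ t') (((τ t')⁻¹ * τ t) x) = (τ t') x := by rw [h3]
      rw [← this]
      show (τ t) x = (τ t' * ((τ t')⁻¹ * τ t)) x
      rw [mul_inv_cancel_left]
    apply Subtype.ext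
    rw [hτ t, hτ t', h4]
  have hfin : Finite S := Finite.of_injective g hg
  have hSfin : S.Finite := Set.toFinite S
  have hcard : hSfin.toFinset.card ≤ Y.card := by
    have h1 : Nat.card S ≤ Nat.card Y := Nat.card_le_card_of_injective g hg
    rw [Nat.card_eq_card_finite_toFinset hSfin] at h1
    simpa using h1
  refine pow_mem_lpow_of_orbit hℓ hA hx hSfin.toFinset ?_ ?_ ?_ (le_trans hcard he)
  · rw [Set.Finite.mem_toFinset]
    exact ⟨1, Subgroup.one_mem _, rfl⟩
  · intro σ hσ t ht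
    rw [Set.Finite.mem_toFinset] at ht ⊢
    obtain ⟨ρ, hρ, rfl⟩ := ht
    exact ⟨σ * ρ, Subgroup.mul_mem _ hσ hρ, rfl⟩
  · intro t ht
    rw [Set.Finite.mem_toFinset] at ht
    exact ht

end Fermat.Agent.S19.Order.LocRamOrbit
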