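/-
S19 / ORD-A, assembly: leaf [O1] in the shape of `MainWire.CosetTarget`
(from `Cosets.cosetCoords` and the rank-one property `LocRam.exists_pow_mem_lpow`).
-/
import Mathlib
import Fermat.Agent.S19.Order.MainWire
import Fermat.Agent.S19.Order.Cosets
import Fermat.Agent.S19.Order.LocRam

set_option autoImplicit false

namespace Fermat.Agent.S19.Order.MainCoset

open Fermat.Agent.S19.Abs Fermat.Agent.S19.Coord Fermat.Agent.S19.Order.Stabilise

/-- the rank-one property of a place of `ℚ̄` over `ℓ` -/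
theorem ramBound {ℓ : ℕ} (hℓ : ℓ.Prime) {A : ValuationSubring Qb} (hA : A.LiesOverPrime ℓ) :
    Cosets.RamBound ℓ A := by
  intro x hx
  obtain ⟨e, he, h⟩ := LocRam.exists_pow_mem_lpow hℓ hA hx
  exact ⟨e, he, h e le_rfl⟩

/-- **[O1]** in the shape consumed by `MainWire.orderTarget_of_blocks`. -/
theorem cosetTarget : MainWire.CosetTarget := by
  intro ℓ hℓ A hA Jb _ actJ hactJ CS _ M hMfin hM
  exact ⟨CS.g, ⟨Cosets.cosetCoords CS M hactJ hM (ramBound hℓ.out hA)⟩⟩

end Fermat.Agent.S19.Order.MainCoset
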