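/-
S19 / ORD-A, closing file: leaf [A1] (`Lagrange.lagrangeHyp`) plugged into helper12's
`HinfTarget.hinfTarget_of_lagrange` and `CosetTarget.cosetTarget`:

* `lagrangeAll ℓ A : HinfTarget.LagrangeAll ℓ A`;
* `hinfTarget : MainWire.HinfTarget`;
* `orderTarget_of_descent : MainWire.DescentTarget → Coord.OrderTarget` — the whole order layer
  modulo ORD-B (`Order/DescentNr.lean`).
-/
import Mathlib
import Fermat.Agent.S19.Order.Lagrange
import Fermat.Agent.S19.Order.HinfTarget
import Fermat.Agent.S19.Order.CosetTarget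
import Fermat.Agent.S19.Order.MainWire

set_option autoImplicit false

namespace Fermat.Agent.S19.Order.OrdA

open Fermat.Agent.S19.Abs Fermat.Agent.S19.Coord

/-- [A1] for all finite `G_ℚ`-sets. -/
theorem lagrangeAll (ℓ : ℕ) (A : ValuationSubring Qb) : HinfTarget.LagrangeAll ℓ A :=
  fun _ _ _ hone hmul => Lagrange.lagrangeHyp hone hmul

/-- ORD-A: `separates` and `comul` for `Hinf CC`. -/
theorem hinfTarget : MainWire.HinfTarget :=
  HinfTarget.hinfTarget_of_lagrange fun ℓ _ A _ => lagrangeAll ℓ A

/-- The order layer modulo ORD-B. -/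
theorem orderTarget_of_descent (hB : MainWire.DescentTarget) : Coord.OrderTarget :=
  MainWire.orderTarget_of_blocks CosetTarget.cosetTarget hinfTarget hB

end Fermat.Agent.S19.Order.OrdA
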